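import Mathlib

/-!
# S55-INEQ : common definitions

`F` is a number field, primes of `F` are `w : HeightOneSpectrum (𝓞 F)`, everything local is
expressed by approximation (no completions).
-/

set_option autoImplicit false

open IsDedekindDomain NumberField

namespace Fermat.Agent.S55.INEQ

variable (p : ℕ) {F : Type*} [Field F] [NumberField F]

lemma val_eq_one_of_sub_one_lt (w : HeightOneSpectrum (𝓞 F)) {n : ℕ} {u : F}
    (h : w.valuation F (u - 1) < WithZero.exp (-(n : ℤ))) : w.valuation F u = 1 := by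
  have h1 : w.valuation F (u - 1) < 1 := by
    refine lt_of_lt_of_le h ?_
    rw [← WithZero.exp_zero, WithZero.exp_le_exp]
    omega
  have := Valuation.map_add_eq_of_lt_left (w.valuation F) (x := (1 : F)) (y := u - 1)
    (by simpa using h1)
  simpa using this

/-- principal units of level `n + 1` at `w`: `u ≡ 1 mod w ^ (n + 1)`. -/
def princ (w : HeightOneSpectrum (𝓞 F)) (n : ℕ) : Subgroup Fˣ where
  carrier := {u | w.valuation F ((u : F) - 1) < WithZero.exp (-(n : ℤ))}
  one_mem' := by simp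
  mul_mem' := by
    intro a b ha hb
    simp only [Set.mem_ofPred_eq] at ha hb ⊢
    have e : ((a * b : Fˣ) : F) - 1 = (a : F) * ((b : F) - 1) + ((a : F) - 1) := by
      push_cast; ring
    rw [e]
    refine Valuation.map_add_lt _ ?_ ha
    rw [map_mul, val_eq_one_of_sub_one_lt w ha, one_mul]
    exact hb
  inv_mem' := by
    intro a ha
    simp only [Set.mem_ofPred_eq] at ha ⊢
    have e : ((a⁻¹ : Fˣ) : F) - 1 = - (((a⁻¹ : Fˣ) : F) * ((a : F) - 1)) := by
      have : ((a⁻¹ : Fˣ) : F) * (a : F) = 1 := by simp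
      linear_combination this
    rw [e, Valuation.map_neg, map_mul]
    have h1 : w.valuation F ((a⁻¹ : Fˣ) : F) = 1 := by
      rw [Units.val_inv_eq_inv_val, map_inv₀, val_eq_one_of_sub_one_lt w ha, inv_one]
    rw [h1, one_mul]
    exact ha

lemma mem_princ {w : HeightOneSpectrum (𝓞 F)} {n : ℕ} {u : Fˣ} :
    u ∈ princ w n ↔ w.valuation F ((u : F) - 1) < WithZero.exp (-(n : ℤ)) := Iff.rfl

/-- the subgroup of `p`-th powers. -/
abbrev pows (G : Type*) [CommGroup G] : Subgroup G := (powMonoidHom p : G →* G).range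

/-- the closure of the `p`-th powers at `w` (= elements of `Fˣ` which are `p`-th powers in `F_w`). -/
def locPow (w : HeightOneSpectrum (𝓞 F)) : Subgroup Fˣ :=
  ⨅ n : ℕ, pows p Fˣ ⊔ princ w n

/-- `x` is a `p`-th power modulo `w` (meaningful for `w`-units `x`). -/
def IsPowMod (w : HeightOneSpectrum (𝓞 F)) (x : Fˣ) : Prop :=
  x ∈ pows p Fˣ ⊔ princ w 0

/-- every prime outside `T` is principal up to primes in `T` (`Cl_T(F) = 0`). -/
def PrincipalOutside (T : Set (HeightOneSpectrum (𝓞 F))) : Prop :=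
  ∀ v ∉ T, ∃ x : Fˣ, v.valuation F (x : F) = WithZero.exp (-1 : ℤ) ∧
    ∀ v' ∉ T, v' ≠ v → v'.valuation F (x : F) = 1

/-- `T` contains all primes above `p`. -/
def ContainsP (T : Set (HeightOneSpectrum (𝓞 F))) : Prop :=
  ∀ v ∉ T, v.valuation F (p : F) = 1

variable (E : Type*) [Field E] [NumberField E] [Algebra F E]

/-- the primes of `E` above `T`. -/
def above (T : Set (HeightOneSpectrum (𝓞 F))) : Set (HeightOneSpectrum (𝓞 E)) :=
  {P | P.under (𝓞 F) ∈ T}

/-- there is only one prime of `E` above `w`. -/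
def Nonsplit (w : HeightOneSpectrum (𝓞 F)) : Prop :=
  ∀ P Q : HeightOneSpectrum (𝓞 E), P.under (𝓞 F) = w → Q.under (𝓞 F) = w → P = Q

/-- `E / F` is unramified outside `T`, in the form in which it is used. -/
def UnramOutside (T : Set (HeightOneSpectrum (𝓞 F))) : Prop :=
  ∀ P : HeightOneSpectrum (𝓞 E), P.under (𝓞 F) ∉ T →
    ∀ x : F, P.valuation E (algebraMap F E x) = (P.under (𝓞 F)).valuation F x

variable (F) in
/-- the norm on units. -/
noncomputable def normU : Eˣ →* Fˣ := Units.map (Algebra.norm F : E →* F)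

/-- `T` is large for `E / F`. -/
structure Large (T : Set (HeightOneSpectrum (𝓞 F))) : Prop where
  finite : T.Finite
  containsP : ContainsP p T
  principal : PrincipalOutside T
  principal_above : PrincipalOutside (above E T)
  unram : UnramOutside E T

/-- abstract local norm groups `𝒩 w ≤ Fˣ` (think: `{b | b is a norm from E_w}`). -/
structure LocalNorm (𝒩 : HeightOneSpectrum (𝓞 F) → Subgroup Fˣ) : Prop where
  /-- global norms are local norms -/
  norm_mem : ∀ w (y : Eˣ), normU F E y ∈ 𝒩 w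
  /-- the local norm groups are open -/
  isOpen : ∀ w, ∃ n : ℕ, princ w n ≤ 𝒩 w
  /-- local norm index `> 1` at the nonsplit primes -/
  ne_top : ∀ w, Nonsplit E w → 𝒩 w ≠ ⊤

/-- the diagonal map `Fˣ → ∏_{w ∈ T} Fˣ / 𝒩 w`. -/
noncomputable def diag (T : Set (HeightOneSpectrum (𝓞 F)))
    (𝒩 : HeightOneSpectrum (𝓞 F) → Subgroup Fˣ) : Fˣ →* ((w : T) → Fˣ ⧸ 𝒩 w) :=
  MonoidHom.pi fun w => QuotientGroup.mk' (𝒩 w)

end Fermat.Agent.S55.INEQ
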