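import Fermat.Agent.S55.INEQ.Count

/-!
# S55-INEQ : exported statements

`F` a number field containing `μ_p` (`p` odd), `E / F` Galois of degree `p`.
Local conditions enter through an ABSTRACT family of subgroups `𝒩 w ≤ Fˣ` satisfying
`LocalNorm E 𝒩` (global norms are in `𝒩 w`; `𝒩 w` contains `{u ≡ 1 mod w^n}` for some `n`;
`𝒩 w ≠ ⊤` when there is only one prime of `E` above `w`).
-/

set_option autoImplicit false

open IsDedekindDomain NumberField

namespace Fermat.Agent.S55.INEQ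

variable (p : ℕ) [Fact p.Prime] {F : Type*} [Field F] [NumberField F]
  {E : Type*} [Field E] [NumberField E] [Algebra F E] [IsGalois F E]

/-- a large set containing a given finite set and the support of a Kummer generator. -/
theorem Main_exists_large {ζ : F} (hζ : IsPrimitiveRoot ζ p) (hdeg : Module.finrank F E = p)
    (a : Fˣ) (ha : ¬ ∃ y : Fˣ, y ^ p = a) (α : E) (hα : α ^ p = algebraMap F E a)
    (T₀ : Set (HeightOneSpectrum (𝓞 F))) (h₀ : T₀.Finite) :
    ∃ T : Set (HeightOneSpectrum (𝓞 F)), T₀ ⊆ T ∧ Large p E T ∧ a ∈ T.unit F := by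
  have hp : p.Prime := Fact.out
  let T₁ : Set (HeightOneSpectrum (𝓞 F)) :=
    T₀ ∪ {v | v.valuation F (a : F) ≠ 1} ∪ {v | v.valuation F (p : F) ≠ 1}
  have hT₁ : T₁.Finite :=
    (h₀.union (finite_valuation_ne_one a)).union (finite_not_containsP p hp.ne_zero)
  have hP : ContainsP p T₁ := by
    intro v hv
    by_contra h
    exact hv (Or.inr h)
  have haT₁ : a ∈ T₁.unit F := by
    intro v hv
    by_contra h
    exact hv (Or.inl (Or.inr h))
  have hunr : UnramOutside E T₁ := unramOutside_kummer p E hζ hdeg a ha α hα hP haT₁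
  obtain ⟨T, hTT, hL⟩ := exists_large E p hp.ne_zero T₁ hT₁ hunr
  refine ⟨T, fun v hv => hTT (Or.inl (Or.inl hv)), hL, ?_⟩
  intro v hv
  exact haT₁ v fun h => hv (hTT h)

/-- **(HNT) Hasse norm theorem** for cyclic extensions of degree `p` of a field containing `μ_p`. -/
theorem hasse_norm_theorem (hp2 : p ≠ 2) {ζ : F} (hζ : IsPrimitiveRoot ζ p)
    (hdeg : Module.finrank F E = p)
    {𝒩 : HeightOneSpectrum (𝓞 F) → Subgroup Fˣ} (h𝒩 : LocalNorm E 𝒩)
    (b : Fˣ) (hloc : ∀ w, b ∈ 𝒩 w) : ∃ y : Eˣ, normU F E y = b := by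
  obtain ⟨a, α, hα, ha⟩ := exists_kummer_generator p E hζ hdeg
  obtain ⟨T, hTT, hL, haT⟩ := Main_exists_large p hζ hdeg a ha α hα
    {v | v.valuation F (b : F) ≠ 1} (finite_valuation_ne_one b)
  have hb : b ∈ T.unit F := by
    intro v hv
    by_contra h
    exact hv (hTT h)
  obtain ⟨y, -, hy⟩ := hasse_norm_unit p hp2 hζ hdeg hL a haT ha α hα h𝒩 b hb
    (fun w _ => hloc w)
  exact ⟨y, hy⟩

/-- **(EX)**: for `w₁ ≠ w₂` nonsplit and any finite `T₀` there are a finite `T ⊇ T₀` and a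
`T`-unit `b` which is a local norm at all `w ∈ T`, `w ≠ w₁, w₂`, and not at both `w₁`, `w₂`.
`E / F` is unramified outside `T` and `T` contains the primes above `p`
(so `b` is a local norm outside `T` for the true local norm groups). -/
theorem exists_two_point (hp2 : p ≠ 2) {ζ : F} (hζ : IsPrimitiveRoot ζ p)
    (hdeg : Module.finrank F E = p)
    {𝒩 : HeightOneSpectrum (𝓞 F) → Subgroup Fˣ} (h𝒩 : LocalNorm E 𝒩)
    (w₁ w₂ : HeightOneSpectrum (𝓞 F)) (h₁₂ : w₁ ≠ w₂) (hn₁ : Nonsplit E w₁) (hn₂ : Nonsplit E w₂)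
    (T₀ : Set (HeightOneSpectrum (𝓞 F))) (h₀ : T₀.Finite) :
    ∃ T : Set (HeightOneSpectrum (𝓞 F)), T₀ ⊆ T ∧ T.Finite ∧ ContainsP p T ∧ UnramOutside E T ∧
      ∃ b ∈ T.unit F, (∀ w ∈ T, w ≠ w₁ → w ≠ w₂ → b ∈ 𝒩 w) ∧ ¬ (b ∈ 𝒩 w₁ ∧ b ∈ 𝒩 w₂) := by
  obtain ⟨a, α, hα, ha⟩ := exists_kummer_generator p E hζ hdeg
  obtain ⟨T, hTT, hL, haT⟩ := Main_exists_large p hζ hdeg a ha α hα
    (T₀ ∪ {w₁, w₂}) (h₀.union (Set.toFinite _))
  refine ⟨T, fun v hv => hTT (Or.inl hv), hL.finite, hL.containsP, hL.unram, ?_⟩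
  exact exists_two_point_unit p hp2 hζ hdeg hL a haT ha α hα h𝒩 w₁ w₂
    (hTT (Or.inr (by simp))) (hTT (Or.inr (by simp))) h₁₂ hn₁ hn₂

/-- a global element which is a local `p`-th power at all primes of a set `T` with
`Cl_T(F) = 0`, `T ∋ p`, and which is a `T`-unit, is a `p`-th power. -/
theorem isPow_of_forall_mem_locPow (hp2 : p ≠ 2) {ζ : F} (hζ : IsPrimitiveRoot ζ p)
    {T : Set (HeightOneSpectrum (𝓞 F))} (hT : T.Finite) (hTp : ContainsP p T)
    (hTpr : PrincipalOutside T) (x : Fˣ) (hx : x ∈ T.unit F) (hloc : ∀ w ∈ T, x ∈ locPow p w) :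
    ∃ y : Fˣ, y ^ p = x := by
  refine key_lemma p hp2 hζ hT hTp hTpr (Ts := ∅) Set.finite_empty ?_ x ?_ hloc
  · intro g _
    exact ⟨1, one_mem _, fun w hw => absurd hw (Set.notMem_empty w)⟩
  · rw [Set.union_empty]
    exact hx

end Fermat.Agent.S55.INEQ
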