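import Fermat.Agent.S55.INEQ.Defs

/-!
# S55-INEQ : `p`-th powers modulo a tame prime
-/

set_option autoImplicit false

open IsDedekindDomain NumberField

namespace Fermat.Agent.S55.INEQ

variable (p : ℕ) [Fact p.Prime] {F : Type*} [Field F] [NumberField F]

/-- the `w`-units modulo the principal units are generated by one element. -/
theorem Residue_exists_gen (w : HeightOneSpectrum (𝓞 F)) :
    ∃ γ : Fˣ, w.valuation F (γ : F) = 1 ∧
      ∀ x : Fˣ, w.valuation F (x : F) = 1 → ∃ n : ℕ, x / γ ^ n ∈ princ w 0 := by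
  classical
  have : w.asIdeal.IsMaximal := w.isMaximal
  let _ : Field (𝓞 F ⧸ w.asIdeal) := Ideal.Quotient.field w.asIdeal
  have : Finite (𝓞 F ⧸ w.asIdeal) := Ideal.finiteQuotientOfFreeOfNeBot _ w.ne_bot
  obtain ⟨γb, hγb⟩ := IsCyclic.exists_monoid_generator (α := (𝓞 F ⧸ w.asIdeal)ˣ)
  obtain ⟨c, hc⟩ := Ideal.Quotient.mk_surjective (γb : 𝓞 F ⧸ w.asIdeal)
  have hcw : c ∉ w.asIdeal := by
    intro h
    rw [← Ideal.Quotient.eq_zero_iff_mem, hc] at h
    exact γb.ne_zero h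
  have hvc : w.valuation F (algebraMap (𝓞 F) F c) = 1 :=
    (HeightOneSpectrum.valuation_eq_one_iff_notMem (K := F) w).2 hcw
  have hc0 : algebraMap (𝓞 F) F c ≠ 0 := by
    intro h
    rw [h, map_zero] at hvc
    exact zero_ne_one hvc
  refine ⟨Units.mk0 _ hc0, hvc, fun x hx => ?_⟩
  obtain ⟨a, ha⟩ := w.exists_valuation_sub_lt_of_integer (K := F) (x := (x : F)) hx.le 1
  have ha' : w.valuation F (algebraMap (𝓞 F) F a - x) < 1 := by simpa using ha
  have hva : w.valuation F (algebraMap (𝓞 F) F a) = 1 := by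
    have h1 := Valuation.map_add_eq_of_lt_left (w.valuation F) (x := (x : F))
      (y := algebraMap (𝓞 F) F a - x) (by rw [hx]; exact ha')
    rw [add_sub_cancel, hx] at h1
    exact h1
  have haw : a ∉ w.asIdeal := (HeightOneSpectrum.valuation_eq_one_iff_notMem (K := F) w).1 hva
  have hne : Ideal.Quotient.mk w.asIdeal a ≠ 0 := by
    intro h
    exact haw (Ideal.Quotient.eq_zero_iff_mem.1 h)
  obtain ⟨n, hn⟩ := hγb (Units.mk0 _ hne)
  have h1 : Ideal.Quotient.mk w.asIdeal (c ^ n) = Ideal.Quotient.mk w.asIdeal a := by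
    rw [map_pow, hc]
    have := congrArg Units.val hn
    simpa using this
  have h2 : a - c ^ n ∈ w.asIdeal := Ideal.Quotient.eq.1 h1.symm
  have h3 : w.valuation F (algebraMap (𝓞 F) F (a - c ^ n)) < 1 :=
    (HeightOneSpectrum.valuation_lt_one_iff_mem (K := F) w _).2 h2
  refine ⟨n, ?_⟩
  rw [mem_princ]
  have h4 : ((x / (Units.mk0 _ hc0) ^ n : Fˣ) : F) - 1 =
      ((x : F) - (algebraMap (𝓞 F) F c) ^ n) * ((algebraMap (𝓞 F) F c) ^ n)⁻¹ := by
    simp only [Units.val_div_eq_div_val, Units.val_pow_eq_pow_val, Units.val_mk0]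
    field_simp
  rw [h4, map_mul, map_inv₀, map_pow, hvc, one_pow, inv_one, mul_one]
  have h5 : (x : F) - (algebraMap (𝓞 F) F c) ^ n =
      algebraMap (𝓞 F) F (a - c ^ n) - (algebraMap (𝓞 F) F a - x) := by
    rw [map_sub, map_pow]; ring
  rw [h5]
  simp only [CharP.cast_eq_zero, neg_zero, WithZero.exp_zero]
  exact Valuation.map_sub_lt _ h3 ha'

/-- `k(w)ˣ / p` is cyclic of order `≤ p` : any non-`p`-th power generates it. -/
theorem exists_pow_isPowMod (w : HeightOneSpectrum (𝓞 F)) (g u : Fˣ)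
    (hg : w.valuation F (g : F) = 1) (hu : w.valuation F (u : F) = 1) (hu' : ¬ IsPowMod p w u) :
    ∃ k : ℕ, IsPowMod p w (g / u ^ k) := by
  obtain ⟨γ, -, hgen⟩ := Residue_exists_gen w
  obtain ⟨a, ha⟩ := hgen g hg
  obtain ⟨b, hb⟩ := hgen u hu
  have hpb : ¬ p ∣ b := by
    rintro ⟨m, rfl⟩
    apply hu'
    have h1 : u = (γ ^ m) ^ p * (u / γ ^ (p * m)) := by
      rw [← pow_mul, mul_comm m p, mul_div_cancel]
    rw [IsPowMod, h1]
    exact Subgroup.mul_mem_sup ⟨γ ^ m, rfl⟩ hb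
  have hb0 : (b : ZMod p) ≠ 0 := by
    rwa [Ne, ZMod.natCast_eq_zero_iff]
  refine ⟨((a : ZMod p) / b).val, ?_⟩
  set k : ℕ := ((a : ZMod p) / b).val with hk
  have hk' : ((k : ℕ) : ZMod p) = (a : ZMod p) / b := by
    rw [hk, ZMod.natCast_zmod_val]
  have hdvd : (p : ℤ) ∣ (a : ℤ) - b * k := by
    rw [← ZMod.intCast_zmod_eq_zero_iff_dvd]
    push_cast
    rw [hk']
    field_simp
    ring
  obtain ⟨m, hm⟩ := hdvd
  have h1 : (γ ^ m) ^ p = γ ^ a / (γ ^ b) ^ k := by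
    rw [← zpow_natCast (γ ^ m) p, ← zpow_mul, mul_comm m, ← hm, zpow_sub, zpow_natCast, ← pow_mul,
      ← zpow_natCast γ (b * k)]
    push_cast
    rfl
  have h2 : g / u ^ k = (γ ^ m) ^ p * ((g / γ ^ a) / (u / γ ^ b) ^ k) := by
    rw [h1, div_pow]
    apply Units.ext
    push_cast
    field_simp
  rw [IsPowMod, h2]
  exact Subgroup.mul_mem_sup ⟨γ ^ m, rfl⟩ (Subgroup.div_mem _ ha (Subgroup.pow_mem _ hb k))

/-- an element which is a `p`-th power modulo `w` has valuation divisible by `p`. -/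
theorem IsPowMod.exists_valuation {w : HeightOneSpectrum (𝓞 F)} {x : Fˣ} (h : IsPowMod p w x) :
    ∃ m : ℤ, w.valuation F (x : F) = WithZero.exp ((p : ℤ) * m) := by
  obtain ⟨y, ⟨t, rfl⟩, z, hz, rfl⟩ := Subgroup.mem_sup.1 h
  have hz1 : w.valuation F (z : F) = 1 := val_eq_one_of_sub_one_lt w (mem_princ.1 hz)
  have ht : w.valuation F (t : F) ≠ 0 := (Valuation.ne_zero_iff _).2 t.ne_zero
  refine ⟨WithZero.log (w.valuation F (t : F)), ?_⟩
  simp only [powMonoidHom_apply, Units.val_mul, Units.val_pow_eq_pow_val, map_mul, map_pow, hz1,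
    mul_one]
  conv_lhs => rw [← WithZero.exp_log ht]
  rw [← WithZero.exp_nsmul, nsmul_eq_mul]

theorem isPowMod_pow (w : HeightOneSpectrum (𝓞 F)) (x : Fˣ) : IsPowMod p w (x ^ p) :=
  Subgroup.mem_sup_left ⟨x, rfl⟩

/-- if `x ^ r` is a `p`-th power modulo `w` with `p ∤ r` then so is `x`. -/
theorem isPowMod_of_zpow (w : HeightOneSpectrum (𝓞 F)) (x : Fˣ) (r : ℤ) (hr : ¬ (p : ℤ) ∣ r)
    (h : IsPowMod p w (x ^ r)) : IsPowMod p w x := by
  have hp : Prime (p : ℤ) := Nat.prime_iff_prime_int.1 Fact.out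
  obtain ⟨a, b, hab⟩ := (Prime.coprime_iff_not_dvd hp).2 hr
  have h1 : x = (x ^ p) ^ a * (x ^ r) ^ b := by
    rw [← zpow_natCast x p, ← zpow_mul, ← zpow_mul, ← zpow_add, mul_comm (p : ℤ), mul_comm r, hab,
      zpow_one]
  rw [IsPowMod, h1]
  exact Subgroup.mul_mem _ (Subgroup.zpow_mem _ (isPowMod_pow p w x) a) (Subgroup.zpow_mem _ h b)

end Fermat.Agent.S55.INEQ
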