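import Fermat.Agent.S55.INEQ.Defs
import Fermat.Agent.S55.DIC.TUnits

/-!
# S55-INEQ : Dirichlet's theorem for `T`-units, modulo `p`-th powers
-/

set_option autoImplicit false

open IsDedekindDomain NumberField

namespace Fermat.Agent.S55.INEQ

variable (p : ℕ) [Fact p.Prime] {F : Type*} [Field F] [NumberField F]

/-- a `T`-unit which is a `p`-th power is the `p`-th power of a `T`-unit. -/
theorem mem_unit_of_pow_mem {T : Set (HeightOneSpectrum (𝓞 F))} {y : Fˣ}
    (h : y ^ p ∈ T.unit F) : y ∈ T.unit F := by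
  intro v hv
  have h1 : v.valuation F ((y ^ p : Fˣ) : F) = 1 := h v hv
  rw [Units.val_pow_eq_pow_val, map_pow] at h1
  exact (pow_eq_one_iff_of_nonneg zero_le (Fact.out : p.Prime).ne_zero).1 h1

/-- the same statement inside the group `F_T`. -/
theorem index_pows_unit {ζ : F} (hζ : IsPrimitiveRoot ζ p)
    {T : Set (HeightOneSpectrum (𝓞 F))} (hT : T.Finite) :
    (pows p (T.unit F)).index = p ^ (T.ncard + Units.rank F + 1) := by
  have hp : p ≠ 0 := (Fact.out : p.Prime).ne_zero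
  have : NeZero p := ⟨hp⟩
  have h := DIC.card_unit_quot_pow F hT.toFinset p hp
  rw [Set.Finite.coe_toFinset] at h
  rw [Subgroup.index_eq_card, h, ← Set.ncard_eq_toFinset_card T hT, hζ.card_rootsOfUnity]
  ring

/-- `dim F_T / p = #T + rank + 1` when `μ_p ⊆ F`. -/
theorem relIndex_pows_unit {ζ : F} (hζ : IsPrimitiveRoot ζ p)
    {T : Set (HeightOneSpectrum (𝓞 F))} (hT : T.Finite) :
    (pows p Fˣ).relIndex (T.unit F) = p ^ (T.ncard + Units.rank F + 1) := by
  rw [← index_pows_unit p hζ hT, Subgroup.relIndex]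
  congr 1
  ext x
  simp only [Subgroup.mem_subgroupOf, MonoidHom.mem_range, powMonoidHom_apply]
  constructor
  · rintro ⟨y, hy⟩
    exact ⟨⟨y, mem_unit_of_pow_mem p (by rw [hy]; exact x.2)⟩, Subtype.ext hy⟩
  · rintro ⟨y, rfl⟩
    exact ⟨y, rfl⟩

theorem card_ker_pow_unit {ζ : F} (hζ : IsPrimitiveRoot ζ p)
    (T : Set (HeightOneSpectrum (𝓞 F))) :
    Nat.card (powMonoidHom p : T.unit F →* T.unit F).ker = p := by
  have hp : p ≠ 0 := (Fact.out : p.Prime).ne_zero
  have : NeZero p := ⟨hp⟩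
  refine Eq.trans ?_ hζ.card_rootsOfUnity
  refine Nat.card_congr (Equiv.ofBijective (fun x => ⟨x.1.1, ?_⟩) ⟨?_, ?_⟩)
  · have h1 : x.1 ^ p = 1 := x.2
    rw [mem_rootsOfUnity]
    exact congrArg Subtype.val h1
  · intro x y hxy
    have h1 : x.1.1 = y.1.1 := congrArg (fun z : rootsOfUnity p F => (z : Fˣ)) hxy
    exact Subtype.ext (Subtype.ext h1)
  · rintro ⟨z, hz⟩
    rw [mem_rootsOfUnity] at hz
    have hzT : z ∈ T.unit F := mem_unit_of_pow_mem p (by rw [hz]; exact one_mem _)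
    exact ⟨⟨⟨z, hzT⟩, Subtype.ext hz⟩, rfl⟩

/-- `F ∋ ζ_p`, `p` odd, is totally complex. -/
theorem finrank_eq_two_mul (hp2 : p ≠ 2) {ζ : F} (hζ : IsPrimitiveRoot ζ p) :
    Module.finrank ℚ F = 2 * (Units.rank F + 1) := by
  have hp3 : 2 < p := lt_of_le_of_ne (Fact.out : p.Prime).two_le (Ne.symm hp2)
  have h0 := NumberField.InfinitePlace.IsPrimitiveRoot.nrRealPlaces_eq_zero_of_two_lt hp3 hζ
  have h1 := NumberField.InfinitePlace.card_add_two_mul_card_eq_rank F
  have h2 := NumberField.InfinitePlace.card_eq_nrRealPlaces_add_nrComplexPlaces F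
  have h3 : 0 < Fintype.card (InfinitePlace F) := Fintype.card_pos
  rw [Units.rank]
  omega

theorem rank_succ_eq (hp2 : p ≠ 2) {ζ : F} (hζ : IsPrimitiveRoot ζ p)
    (E : Type*) [Field E] [NumberField E] [Algebra F E] (hdeg : Module.finrank F E = p) :
    Units.rank E + 1 = p * (Units.rank F + 1) := by
  have h1 := finrank_eq_two_mul p hp2 hζ
  have h2 := finrank_eq_two_mul p hp2 (hζ.map_of_injective (algebraMap F E).injective)
  have h3 := Module.finrank_mul_finrank ℚ F E
  rw [h1, h2, hdeg] at h3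
  nlinarith [h3]

end Fermat.Agent.S55.INEQ
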