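import Fermat.Agent.S55.INEQ.NS
import Fermat.Agent.S55.INEQ.Residue
import Fermat.Agent.S55.INEQ.UnitRank

/-!
# S55-INEQ : Chevalley's auxiliary primes `T*`
-/

set_option autoImplicit false
set_option linter.unusedSectionVars false
set_option linter.unusedVariables false

open IsDedekindDomain NumberField

namespace Fermat.Agent.S55.INEQ

/-- a quotient generated by one element of exponent `p` has at most `p` elements. -/
lemma auxPrimes_relIndex_le {G : Type*} [CommGroup G] (p : ℕ) (hp : 0 < p) (K Q : Subgroup G)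
    (u : G) (huK : u ∈ K) (hup : u ^ p ∈ Q) (h : ∀ g ∈ K, ∃ k : ℕ, g / u ^ k ∈ Q) :
    Q.relIndex K ≤ p := by
  have hs : Function.Surjective
      (fun k : Fin p => (QuotientGroup.mk ((⟨u, huK⟩ : K) ^ (k : ℕ)) : K ⧸ Q.subgroupOf K)) := by
    intro x
    induction x using QuotientGroup.induction_on with
    | H g =>
      obtain ⟨k, hk⟩ := h g g.2
      refine ⟨⟨k % p, Nat.mod_lt _ hp⟩, ?_⟩
      rw [QuotientGroup.eq, Subgroup.mem_subgroupOf]
      have e : (((((⟨u, huK⟩ : K) ^ (k % p))⁻¹ * g : K)) : G) = (g / u ^ k) * (u ^ p) ^ (k / p) := by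
        have hk' : u ^ k = u ^ (k % p) * (u ^ p) ^ (k / p) := by
          rw [← pow_mul, ← pow_add, Nat.mod_add_div]
        push_cast
        rw [hk']
        simp only [div_eq_mul_inv, mul_inv]
        have hc : ((u ^ p) ^ (k / p))⁻¹ * (u ^ p) ^ (k / p) = 1 := inv_mul_cancel _
        calc (u ^ (k % p))⁻¹ * (g : G) = (g : G) * (u ^ (k % p))⁻¹ * 1 := by
              rw [mul_one, mul_comm]
          _ = (g : G) * (u ^ (k % p))⁻¹ * (((u ^ p) ^ (k / p))⁻¹ * (u ^ p) ^ (k / p)) := by rw [hc]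
          _ = _ := by simp only [mul_assoc]
      rw [e]
      exact Q.mul_mem hk (Q.pow_mem hup _)
  calc Q.relIndex K = Nat.card (K ⧸ Q.subgroupOf K) := rfl
    _ ≤ Nat.card (Fin p) := Nat.card_le_card_of_surjective _ hs
    _ = p := Nat.card_fin p

variable (p : ℕ) [Fact p.Prime] {F : Type*} [Field F] [NumberField F]

/-- `F_T → ∏_{w ∈ Ts} k(w)ˣ / p` is onto. -/
def SurjOn (T Ts : Set (HeightOneSpectrum (𝓞 F))) : Prop :=
  ∀ g : HeightOneSpectrum (𝓞 F) → Fˣ, (∀ w ∈ Ts, w.valuation F (g w : F) = 1) →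
    ∃ y ∈ T.unit F, ∀ w ∈ Ts, IsPowMod p w (y / g w)

/-- the `T`-units which are `p`-th powers modulo all `w ∈ Ts`. -/
noncomputable def auxPrimesK (T Ts : Set (HeightOneSpectrum (𝓞 F))) : Subgroup Fˣ :=
  T.unit F ⊓ ⨅ w ∈ Ts, (pows p Fˣ ⊔ princ w 0)

lemma mem_auxPrimesK {T Ts : Set (HeightOneSpectrum (𝓞 F))} {y : Fˣ} :
    y ∈ auxPrimesK p T Ts ↔ y ∈ T.unit F ∧ ∀ w ∈ Ts, IsPowMod p w y := by
  simp only [auxPrimesK, Subgroup.mem_inf, Subgroup.mem_iInf, IsPowMod]

lemma auxPrimesK_le (T Ts : Set (HeightOneSpectrum (𝓞 F))) : auxPrimesK p T Ts ≤ T.unit F :=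
  inf_le_left

lemma auxPrimesK_insert (T Ts : Set (HeightOneSpectrum (𝓞 F))) (w : HeightOneSpectrum (𝓞 F)) :
    auxPrimesK p T (insert w Ts) = (pows p Fˣ ⊔ princ w 0) ⊓ auxPrimesK p T Ts := by
  ext y
  simp only [Subgroup.mem_inf, mem_auxPrimesK, Set.mem_insert_iff, forall_eq_or_imp, IsPowMod]
  tauto

theorem auxPrimes_induction {ζ : F} (hζ : IsPrimitiveRoot ζ p)
    {T : Set (HeightOneSpectrum (𝓞 F))} (hT : T.Finite)
    (a : Fˣ) (haT : a ∈ T.unit F) (j : ℕ) (hj : j ≤ T.ncard + Units.rank F) :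
    ∃ Ts : Set (HeightOneSpectrum (𝓞 F)), Ts.Finite ∧ Disjoint T Ts ∧
      Ts.ncard = j ∧ (∀ w ∈ Ts, IsPowMod p w a) ∧ SurjOn p T Ts ∧
      (auxPrimesK p T Ts).relIndex (T.unit F) ≤ p ^ j := by
  have hp : p.Prime := Fact.out
  induction j with
  | zero =>
    refine ⟨∅, Set.finite_empty, Set.disjoint_empty _, Set.ncard_empty _, by simp, ?_, ?_⟩
    · intro g _
      exact ⟨1, (T.unit F).one_mem, by simp⟩
    · have : T.unit F ≤ auxPrimesK p T ∅ := by
        intro y hy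
        exact (mem_auxPrimesK p).2 ⟨hy, by simp⟩
      rw [Subgroup.relIndex_eq_one.2 this, pow_zero]
  | succ j ih =>
    obtain ⟨Ts, hfin, hdisj, hcard, hpa, hsurj, hidx⟩ := ih (by omega)
    set K := auxPrimesK p T Ts with hK
    have hKT : K ≤ T.unit F := auxPrimesK_le p T Ts
    have haK : a ∈ K := (mem_auxPrimesK p).2 ⟨haT, hpa⟩
    -- an element of `K` outside `⟨a⟩ F^p`
    have hex : ∃ u ∈ K, ∀ (k : ℕ) (y : Fˣ), u ≠ a ^ k * y ^ p := by
      by_contra hcon
      push Not at hcon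
      have h1 : (pows p Fˣ).relIndex K ≤ p := by
        refine auxPrimes_relIndex_le p hp.pos K _ a haK ⟨a, rfl⟩ ?_
        intro g hg
        obtain ⟨k, y, hky⟩ := hcon g hg
        refine ⟨k, y, ?_⟩
        rw [hky]
        simp
      have h2 := Subgroup.relIndex_inf_mul_relIndex (pows p Fˣ) K (T.unit F)
      rw [inf_of_le_left hKT] at h2
      have h3 : pows p Fˣ ⊓ K = pows p Fˣ ⊓ T.unit F := by
        apply le_antisymm
        · exact inf_le_inf_left _ hKT
        · refine le_inf inf_le_left ?_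
          rintro y ⟨hy1, hy2⟩
          exact (mem_auxPrimesK p).2 ⟨hy2, fun w _ => Subgroup.mem_sup_left hy1⟩
      rw [h3, Subgroup.inf_relIndex_right, relIndex_pows_unit p hζ hT] at h2
      have h4 : p ^ (T.ncard + Units.rank F + 1) ≤ p ^ (j + 1) := by
        rw [← h2, pow_succ' p j]
        exact Nat.mul_le_mul h1 hidx
      have h5 := (Nat.pow_le_pow_iff_right hp.one_lt).1 h4
      omega
    obtain ⟨u, huK, hu⟩ := hex
    obtain ⟨huT, huTs⟩ := (mem_auxPrimesK p).1 huK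
    obtain ⟨w, hw, -, hwu, -, hwa, hwu'⟩ :=
      exists_prime_isPowMod_not_isPowMod p hζ a u hu (T ∪ Ts) (hT.union hfin)
    have hwT : w ∉ T := fun h => hw (Or.inl h)
    have hwTs : w ∉ Ts := fun h => hw (Or.inr h)
    refine ⟨insert w Ts, hfin.insert w, ?_, ?_, ?_, ?_, ?_⟩
    · rw [Set.disjoint_insert_right]
      exact ⟨hwT, hdisj⟩
    · rw [Set.ncard_insert_of_notMem hwTs hfin, hcard]
    · intro w' hw'
      rcases Set.mem_insert_iff.1 hw' with rfl | h
      · exact hwa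
      · exact hpa w' h
    · intro g hg
      obtain ⟨y₀, hy₀, hy₀'⟩ := hsurj g (fun w' hw' => hg w' (Set.mem_insert_of_mem _ hw'))
      have hval : w.valuation F ((g w / y₀ : Fˣ) : F) = 1 := by
        have h1 : w.valuation F (g w : F) = 1 := hg w (Set.mem_insert _ _)
        have h2 : w.valuation F (y₀ : F) = 1 := hy₀ w hwT
        rw [Units.val_div_eq_div_val, map_div₀, h1, h2, div_one]
      obtain ⟨k, hk⟩ := exists_pow_isPowMod p w (g w / y₀) u hval hwu hwu'
      refine ⟨y₀ * u ^ k, (T.unit F).mul_mem hy₀ ((T.unit F).pow_mem huT k), ?_⟩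
      intro w' hw'
      rcases Set.mem_insert_iff.1 hw' with rfl | h
      · have e : y₀ * u ^ k / g w' = (g w' / y₀ / u ^ k)⁻¹ := by
          rw [inv_div, div_div_eq_mul_div, mul_comm]
        rw [e]
        exact Subgroup.inv_mem _ hk
      · have e : y₀ * u ^ k / g w' = (y₀ / g w') * u ^ k := by
          rw [div_mul_eq_mul_div]
        rw [e]
        exact Subgroup.mul_mem _ (hy₀' w' h) (Subgroup.pow_mem _ (huTs w' h) k)
    · rw [auxPrimesK_insert, ← Subgroup.relIndex_inf_mul_relIndex, inf_of_le_left hKT,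
        pow_succ' p j]
      refine Nat.mul_le_mul ?_ hidx
      refine auxPrimes_relIndex_le p hp.pos K _ u huK (Subgroup.mem_sup_left ⟨u, rfl⟩) ?_
      intro g hg
      exact exists_pow_isPowMod p w g u (hKT hg w hwT) hwu hwu'

/-- the auxiliary primes: `#T* = s - 1`, `s = dim F_T / p = #T + rank + 1`, `a` is a `p`-th power
at all of them, `F_T → ∏_{T*} k(w)ˣ/p` is onto. -/
theorem exists_aux_primes {ζ : F} (hζ : IsPrimitiveRoot ζ p)
    {T : Set (HeightOneSpectrum (𝓞 F))} (hT : T.Finite) (hTp : ContainsP p T)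
    (a : Fˣ) (haT : a ∈ T.unit F) (ha : ¬ ∃ y : Fˣ, y ^ p = a) :
    ∃ Ts : Set (HeightOneSpectrum (𝓞 F)), Ts.Finite ∧ Disjoint T Ts ∧
      Ts.ncard = T.ncard + Units.rank F ∧ (∀ w ∈ Ts, IsPowMod p w a) ∧ SurjOn p T Ts := by
  obtain ⟨Ts, h1, h2, h3, h4, h5, -⟩ := auxPrimes_induction p hζ hT a haT _ le_rfl
  exact ⟨Ts, h1, h2, h3, h4, h5⟩

end Fermat.Agent.S55.INEQ
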