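import Fermat.Agent.S55.INEQ.SecondIneq

/-!
# S55-INEQ : Hasse norm theorem for `T`-units, two point classes
-/

set_option autoImplicit false

open IsDedekindDomain NumberField

namespace Fermat.Agent.S55.INEQ

/-- the counting argument of the Hasse norm theorem, abstractly. -/
theorem Count_ker_inf_le {G V : Type*} [Group G] [Group V] (f : G →* V) (U Nn : Subgroup G)
    (p ν : ℕ) (hp : 0 < p) (hN : Nn ≤ f.ker) (hcard : p ^ ν ≤ Nat.card V)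
    (hip : (U.map f).index ≤ p) (hI1 : Nn.relIndex U * p = p ^ ν) : f.ker ⊓ U ≤ Nn := by
  have h1 : Nat.card (U.map f) * (U.map f).index = Nat.card V := (U.map f).card_mul_index
  have h2 : f.ker.relIndex U = Nat.card (U.map f) := Subgroup.relIndex_ker U f
  have h3 : (Nn ⊓ U).relIndex (f.ker ⊓ U) * (f.ker ⊓ U).relIndex U = (Nn ⊓ U).relIndex U :=
    Subgroup.relIndex_mul_relIndex _ _ _ (inf_le_inf_right U hN) inf_le_right
  rw [Subgroup.inf_relIndex_right, Subgroup.inf_relIndex_right, h2] at h3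
  have h4 : Nn.relIndex U * p ≤ Nat.card (U.map f) * p := by
    rw [hI1]
    calc p ^ ν ≤ Nat.card V := hcard
      _ = Nat.card (U.map f) * (U.map f).index := h1.symm
      _ ≤ Nat.card (U.map f) * p := Nat.mul_le_mul_left _ hip
  have h5 : Nn.relIndex U ≤ Nat.card (U.map f) := Nat.le_of_mul_le_mul_right h4 hp
  have h6 : Nn.relIndex U ≠ 0 := by
    intro h0
    rw [h0, zero_mul] at hI1
    exact (pow_pos hp ν).ne hI1
  have h7 : (Nn ⊓ U).relIndex (f.ker ⊓ U) = 1 := by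
    generalize (Nn ⊓ U).relIndex (f.ker ⊓ U) = r at h3
    have hc0 : 0 < Nat.card (U.map f) := by
      rcases Nat.eq_zero_or_pos (Nat.card (U.map f)) with h | h
      · rw [h, mul_zero] at h3
        exact absurd h3.symm h6
      · exact h
    have hr0 : r ≠ 0 := by
      intro h
      rw [h, zero_mul] at h3
      exact h6 h3.symm
    have hr1 : r * Nat.card (U.map f) ≤ 1 * Nat.card (U.map f) := by rw [h3, one_mul]; exact h5
    have := Nat.le_of_mul_le_mul_right hr1 hc0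
    omega
  exact (Subgroup.relIndex_eq_one.mp h7).trans inf_le_left

theorem Count_ker_inf_le_pi {G ι : Type*} [CommGroup G] (𝒩 : ι → Subgroup G) (U Nn : Subgroup G)
    (p ν : ℕ) (hp : 0 < p) (hN : ∀ x ∈ Nn, ∀ i, x ∈ 𝒩 i)
    (hcard : p ^ ν ≤ Nat.card ((i : ι) → G ⧸ 𝒩 i))
    (hip : (Subgroup.map (N := (i : ι) → G ⧸ 𝒩 i)
      (MonoidHom.pi fun i => QuotientGroup.mk' (𝒩 i)) U).index ≤ p)
    (hI1 : Nn.relIndex U * p = p ^ ν) (b : G) (hb : b ∈ U) (hloc : ∀ i, b ∈ 𝒩 i) : b ∈ Nn := by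
  have hker : ∀ x : G, x ∈ (MonoidHom.pi fun i => QuotientGroup.mk' (𝒩 i)).ker ↔ ∀ i, x ∈ 𝒩 i := by
    intro x
    rw [MonoidHom.mem_ker]
    constructor
    · intro h i
      exact (QuotientGroup.eq_one_iff x).mp (congrFun h i)
    · intro h
      funext i
      exact (QuotientGroup.eq_one_iff x).mpr (h i)
  exact Count_ker_inf_le (MonoidHom.pi fun i => QuotientGroup.mk' (𝒩 i)) U Nn p ν hp
    (fun x hx => (hker x).mpr (hN x hx)) hcard hip hI1 ⟨(hker b).mpr hloc, hb⟩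

/-- a subgroup of index `≤ p` of a product meets the product of two factors of order `≥ p`. -/
theorem Count_exists_two_point {ι : Type*} [DecidableEq ι] {A : ι → Type*} [∀ i, Group (A i)]
    (I : Subgroup (∀ i, A i)) (p : ℕ) (hp : 2 ≤ p) (hI0 : I.index ≠ 0) (hI : I.index ≤ p)
    (t₁ t₂ : ι) (ht : t₁ ≠ t₂) [Finite (A t₁)] [Finite (A t₂)]
    (h1 : p ≤ Nat.card (A t₁)) (h2 : p ≤ Nat.card (A t₂)) :
    ∃ v ∈ I, (∀ i, i ≠ t₁ → i ≠ t₂ → v i = 1) ∧ ¬ (v t₁ = 1 ∧ v t₂ = 1) := by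
  let ψ : A t₁ × A t₂ → (∀ i, A i) := fun x => Pi.mulSingle t₁ x.1 * Pi.mulSingle t₂ x.2
  have : I.FiniteIndex := ⟨hI0⟩
  have hninj : ¬ Function.Injective (fun x : A t₁ × A t₂ => (QuotientGroup.mk (ψ x) : _ ⧸ I)) := by
    intro hinj
    have hle := Nat.card_le_card_of_injective _ hinj
    rw [Nat.card_prod, ← Subgroup.index_eq_card] at hle
    have h9 : p * p ≤ Nat.card (A t₁) * Nat.card (A t₂) := Nat.mul_le_mul h1 h2
    have h10 : p * p ≤ p := h9.trans (hle.trans hI)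
    nlinarith
  simp only [Function.Injective] at hninj
  push Not at hninj
  obtain ⟨x, x', hxx, hne⟩ := hninj
  refine ⟨(ψ x)⁻¹ * ψ x', QuotientGroup.eq.mp hxx, ?_, ?_⟩
  · intro i hi1 hi2
    simp only [ψ, Pi.mul_apply, Pi.inv_apply, Pi.mulSingle_eq_of_ne hi1,
      Pi.mulSingle_eq_of_ne hi2, mul_one, inv_one]
  · rintro ⟨h3, h4⟩
    simp only [ψ, Pi.mul_apply, Pi.inv_apply, Pi.mulSingle_eq_same, Pi.mulSingle_eq_of_ne ht,
      Pi.mulSingle_eq_of_ne ht.symm, mul_one, one_mul] at h3 h4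
    exact hne (Prod.ext (inv_mul_eq_one.mp h3) (inv_mul_eq_one.mp h4))

variable (p : ℕ) [Fact p.Prime] {F : Type*} [Field F] [NumberField F]
  {E : Type*} [Field E] [NumberField E] [Algebra F E] [IsGalois F E]

/-- **Hasse norm theorem for `T`-units.** -/
theorem hasse_norm_unit (hp2 : p ≠ 2) {ζ : F} (hζ : IsPrimitiveRoot ζ p)
    (hdeg : Module.finrank F E = p) {T : Set (HeightOneSpectrum (𝓞 F))} (hL : Large p E T)
    (a : Fˣ) (haT : a ∈ T.unit F) (ha : ¬ ∃ y : Fˣ, y ^ p = a) (α : E) (hα : α ^ p = algebraMap F E a)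
    {𝒩 : HeightOneSpectrum (𝓞 F) → Subgroup Fˣ} (h𝒩 : LocalNorm E 𝒩)
    (b : Fˣ) (hb : b ∈ T.unit F) (hloc : ∀ w ∈ T, b ∈ 𝒩 w) :
    ∃ y ∈ (above E T).unit E, normU F E y = b := by
  have hp : p.Prime := Fact.out
  obtain ⟨hfin, hcard⟩ := pow_le_card_pi p hζ hdeg hL.finite h𝒩
  obtain ⟨hi0, hip⟩ := index_map_diag_le p hp2 hζ hdeg hL a haT ha α hα h𝒩
  have hI1 := relIndex_norm_unit p E hp2 hζ hdeg hL
  have h8 : b ∈ ((above E T).unit E).map (normU F E) := by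
    refine Count_ker_inf_le_pi (fun w : T => 𝒩 w) (T.unit F) (((above E T).unit E).map (normU F E))
      p {w ∈ T | Nonsplit E w}.ncard hp.pos ?_ hcard hip hI1 b hb (fun w => hloc w w.2)
    rintro _ ⟨y, -, rfl⟩ w
    exact h𝒩.norm_mem w y
  obtain ⟨y, hy, hyb⟩ := h8
  exact ⟨y, hy, hyb⟩

omit [IsGalois F E] in
theorem Count_le_card_quot (hdeg : Module.finrank F E = p)
    {𝒩 : HeightOneSpectrum (𝓞 F) → Subgroup Fˣ} (h𝒩 : LocalNorm E 𝒩)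
    (w : HeightOneSpectrum (𝓞 F)) (hn : Nonsplit E w) [Finite (Fˣ ⧸ 𝒩 w)] :
    p ≤ Nat.card (Fˣ ⧸ 𝒩 w) := by
  have hp : p.Prime := Fact.out
  obtain ⟨x, hx⟩ : ∃ x : Fˣ, x ∉ 𝒩 w := by
    by_contra h
    push Not at h
    exact h𝒩.ne_top w hn (eq_top_iff.mpr fun x _ => h x)
  have hx1 : (QuotientGroup.mk x : Fˣ ⧸ 𝒩 w) ≠ 1 := fun h => hx ((QuotientGroup.eq_one_iff x).mp h)
  have hxp : (QuotientGroup.mk x : Fˣ ⧸ 𝒩 w) ^ p = 1 := by
    rw [← QuotientGroup.mk_pow, QuotientGroup.eq_one_iff, ← hdeg, ← normU_algebraMap (E := E)]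
    exact h𝒩.norm_mem w _
  have := orderOf_eq_prime hxp hx1
  rw [← this]
  exact orderOf_le_card

/-- **(EX)** a `T`-unit which is a local norm on `T` except at `w₁`, `w₂`, and not at both. -/
theorem exists_two_point_unit (hp2 : p ≠ 2) {ζ : F} (hζ : IsPrimitiveRoot ζ p)
    (hdeg : Module.finrank F E = p) {T : Set (HeightOneSpectrum (𝓞 F))} (hL : Large p E T)
    (a : Fˣ) (haT : a ∈ T.unit F) (ha : ¬ ∃ y : Fˣ, y ^ p = a) (α : E) (hα : α ^ p = algebraMap F E a)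
    {𝒩 : HeightOneSpectrum (𝓞 F) → Subgroup Fˣ} (h𝒩 : LocalNorm E 𝒩)
    (w₁ w₂ : HeightOneSpectrum (𝓞 F)) (h₁ : w₁ ∈ T) (h₂ : w₂ ∈ T) (h₁₂ : w₁ ≠ w₂)
    (hn₁ : Nonsplit E w₁) (hn₂ : Nonsplit E w₂) :
    ∃ b ∈ T.unit F, (∀ w ∈ T, w ≠ w₁ → w ≠ w₂ → b ∈ 𝒩 w) ∧ ¬ (b ∈ 𝒩 w₁ ∧ b ∈ 𝒩 w₂) := by
  classical
  have hp : p.Prime := Fact.out
  obtain ⟨hfin, -⟩ := pow_le_card_pi p hζ hdeg hL.finite h𝒩
  obtain ⟨hi0, hip⟩ := index_map_diag_le p hp2 hζ hdeg hL a haT ha α hα h𝒩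
  let t₁ : T := ⟨w₁, h₁⟩
  let t₂ : T := ⟨w₂, h₂⟩
  have ht : t₁ ≠ t₂ := fun h => h₁₂ (congrArg Subtype.val h)
  have f₁ : Finite (Fˣ ⧸ 𝒩 (t₁ : HeightOneSpectrum (𝓞 F))) :=
    Finite.of_surjective (fun v : (w : T) → Fˣ ⧸ 𝒩 w => v t₁) (Function.surjective_eval t₁)
  have f₂ : Finite (Fˣ ⧸ 𝒩 (t₂ : HeightOneSpectrum (𝓞 F))) :=
    Finite.of_surjective (fun v : (w : T) → Fˣ ⧸ 𝒩 w => v t₂) (Function.surjective_eval t₂)
  have hc₁ := Count_le_card_quot p hdeg h𝒩 (t₁ : HeightOneSpectrum (𝓞 F)) hn₁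
  have hc₂ := Count_le_card_quot p hdeg h𝒩 (t₂ : HeightOneSpectrum (𝓞 F)) hn₂
  obtain ⟨v, ⟨b, hb, rfl⟩, hv1, hv2⟩ := Count_exists_two_point
    (A := fun w : T => Fˣ ⧸ 𝒩 w)
    (Subgroup.map (N := (w : T) → Fˣ ⧸ 𝒩 w) (diag T 𝒩) (T.unit F)) p hp.two_le hi0 hip t₁ t₂ ht
    hc₁ hc₂
  refine ⟨b, hb, ?_, ?_⟩
  · intro w hw hw1 hw2
    exact (QuotientGroup.eq_one_iff b).mp (hv1 ⟨w, hw⟩ (fun h => hw1 (congrArg Subtype.val h))
      (fun h => hw2 (congrArg Subtype.val h)))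
  · rintro ⟨h3, h4⟩
    exact hv2 ⟨(QuotientGroup.eq_one_iff b).mpr h3, (QuotientGroup.eq_one_iff b).mpr h4⟩

end Fermat.Agent.S55.INEQ
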