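import Fermat.Agent.S55.INEQ.Defs
import Fermat.Agent.S55.DIC.ClT1

/-!
# S55-INEQ : existence of large sets of primes (finiteness of the class group)
-/

set_option autoImplicit false

open IsDedekindDomain NumberField

namespace Fermat.Agent.S55.INEQ

variable {F : Type*} [Field F] [NumberField F]

theorem PrincipalOutside.mono {T T' : Set (HeightOneSpectrum (𝓞 F))} (h : T ⊆ T')
    (hT : PrincipalOutside T) : PrincipalOutside T' := by
  intro v hv
  obtain ⟨x, hx1, hx2⟩ := hT v (fun hv' => hv (h hv'))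
  exact ⟨x, hx1, fun v' hv' hne => hx2 v' (fun h' => hv' (h h')) hne⟩

/-- finiteness of the class group. -/
theorem exists_principalOutside (T₀ : Set (HeightOneSpectrum (𝓞 F))) (h₀ : T₀.Finite) :
    ∃ T, T₀ ⊆ T ∧ T.Finite ∧ PrincipalOutside T := by
  classical
  obtain ⟨T₁, hT₁⟩ := DIC.exists_finset_subsingleton_ClT (K := F)
  refine ⟨T₀ ∪ T₁, Set.subset_union_left, h₀.union T₁.finite_toSet, ?_⟩
  have := hT₁ (T₀ ∪ T₁) Set.subset_union_right
  intro v hv
  obtain ⟨x, hx⟩ := DIC.exists_ord_eq_of_subsingleton_ClT (T₀ ∪ (T₁ : Set _))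
    (Finsupp.single ⟨v, hv⟩ 1)
  refine ⟨x, ?_, ?_⟩
  · rw [DIC.valuation_eq_exp_neg_ord v x.ne_zero, hx ⟨v, hv⟩, Finsupp.single_eq_same]
  · intro v' hv' hne
    rw [DIC.valuation_eq_exp_neg_ord v' x.ne_zero, hx ⟨v', hv'⟩, Finsupp.single_eq_of_ne
      (by intro h; exact hne (congrArg Subtype.val h)), neg_zero, WithZero.exp_zero]

/-- every `T`-divisor is principal. -/
theorem PrincipalOutside.exists_valuation_eq {T : Set (HeightOneSpectrum (𝓞 F))}
    (hT : PrincipalOutside T) (n : HeightOneSpectrum (𝓞 F) → ℤ) (hn : {v | n v ≠ 0}.Finite) :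
    ∃ c : Fˣ, ∀ v ∉ T, v.valuation F (c : F) = WithZero.exp (n v) := by
  classical
  choose x hx1 hx2 using hT
  let X : HeightOneSpectrum (𝓞 F) → Fˣ := fun v => if h : v ∉ T then x v h else 1
  have hX1 : ∀ v ∉ T, v.valuation F (X v : F) = WithZero.exp (-1 : ℤ) := by
    intro v hv
    simp only [X, dif_pos hv]
    exact hx1 v hv
  have hX2 : ∀ v, ∀ v' ∉ T, v' ≠ v → v'.valuation F (X v : F) = 1 := by
    intro v v' hv' hne
    by_cases hv : v ∉ T
    · simp only [X, dif_pos hv]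
      exact hx2 v hv v' hv' hne
    · simp only [X, dif_neg hv, Units.val_one, map_one]
  refine ⟨∏ v ∈ hn.toFinset, X v ^ (-(n v)), fun v hv => ?_⟩
  rw [Units.coe_prod, map_prod]
  by_cases hvS : v ∈ hn.toFinset
  · rw [Finset.prod_eq_single_of_mem v hvS]
    · rw [Units.val_zpow_eq_zpow_val, map_zpow₀, hX1 v hv, ← WithZero.exp_zsmul]
      simp
    · intro w _ hw
      rw [Units.val_zpow_eq_zpow_val, map_zpow₀, hX2 w v hv (Ne.symm hw), one_zpow]
  · have h0 : n v = 0 := by
      by_contra h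
      exact hvS (hn.mem_toFinset.2 h)
    rw [h0, WithZero.exp_zero]
    apply Finset.prod_eq_one
    intro w hw
    have hne : v ≠ w := fun h => hvS (h ▸ hw)
    rw [Units.val_zpow_eq_zpow_val, map_zpow₀, hX2 w v hv hne, one_zpow]

theorem finite_not_containsP (p : ℕ) (hp : p ≠ 0) :
    {v : HeightOneSpectrum (𝓞 F) | v.valuation F (p : F) ≠ 1}.Finite := by
  have hp' : (p : F) ≠ 0 := by exact_mod_cast hp
  refine (DIC.finite_ord_ne_zero (p : F)).subset ?_
  intro v hv h0
  apply hv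
  rw [DIC.valuation_eq_exp_neg_ord v hp', h0, neg_zero, WithZero.exp_zero]

variable (E : Type*) [Field E] [NumberField E] [Algebra F E]

theorem UnramOutside.mono {T T' : Set (HeightOneSpectrum (𝓞 F))} (h : T ⊆ T')
    (hT : UnramOutside E T) : UnramOutside E T' :=
  fun P hP => hT P fun hP' => hP (h hP')

theorem exists_large (p : ℕ) (hp : p ≠ 0) (T₀ : Set (HeightOneSpectrum (𝓞 F))) (h₀ : T₀.Finite)
    (hunr : UnramOutside E T₀) : ∃ T, T₀ ⊆ T ∧ Large p E T := by
  obtain ⟨T₂, h12, hfin2, hpr2⟩ := exists_principalOutside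
    (T₀ ∪ {v : HeightOneSpectrum (𝓞 F) | v.valuation F (p : F) ≠ 1})
    (h₀.union (finite_not_containsP p hp))
  obtain ⟨Q, -, hfinQ, hprQ⟩ := exists_principalOutside (∅ : Set (HeightOneSpectrum (𝓞 E)))
    Set.finite_empty
  have h02 : T₀ ⊆ T₂ := Set.subset_union_left.trans h12
  refine ⟨T₂ ∪ (fun P : HeightOneSpectrum (𝓞 E) => P.under (𝓞 F)) '' Q,
    h02.trans Set.subset_union_left, ?_, ?_, ?_, ?_, ?_⟩
  · exact hfin2.union (hfinQ.image _)
  · intro v hv
    by_contra hne
    exact hv (Set.subset_union_left (h12 (Set.subset_union_right hne)))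
  · exact hpr2.mono Set.subset_union_left
  · refine hprQ.mono ?_
    intro P hP
    exact Set.subset_union_right ⟨P, hP, rfl⟩
  · exact hunr.mono E (h02.trans Set.subset_union_left)

end Fermat.Agent.S55.INEQ
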