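import Fermat.Agent.S55.INEQ.LocPow

/-!
# S55-INEQ : `[F_wˣ : F_wˣ^p] ≤ p^2 (N w)^(e_w)`, by approximation
-/

set_option autoImplicit false

open IsDedekindDomain NumberField

namespace Fermat.Agent.S55.INEQ

section part0

/-- index bound from a map to a finite set separating the cosets. -/
theorem locIndex_relIndex_le {G X : Type*} [Group G] [Finite X] (K H : Subgroup G) (θ : G → X)
    (h : ∀ x ∈ H, ∀ y ∈ H, θ x = θ y → x⁻¹ * y ∈ K) :
    K.relIndex H ≠ 0 ∧ K.relIndex H ≤ Nat.card X := by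
  let f : (H ⧸ K.subgroupOf H) → X := fun q => θ ((Quotient.out q : H) : G)
  have hf : Function.Injective f := by
    intro q q' hq
    have h1 := h _ (Quotient.out q : H).2 _ (Quotient.out q' : H).2 hq
    have h2 : (QuotientGroup.mk (Quotient.out q) : H ⧸ K.subgroupOf H) =
        QuotientGroup.mk (Quotient.out q') := by
      rw [QuotientGroup.eq]
      exact h1
    have e1 : (QuotientGroup.mk (Quotient.out q) : H ⧸ K.subgroupOf H) = q := Quotient.out_eq q
    have e2 : (QuotientGroup.mk (Quotient.out q') : H ⧸ K.subgroupOf H) = q' := Quotient.out_eq q'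
    rw [← e1, ← e2, h2]
  have : Finite (H ⧸ K.subgroupOf H) := Finite.of_injective f hf
  refine ⟨?_, Nat.card_le_card_of_injective f hf⟩
  have : Nat.card (H ⧸ K.subgroupOf H) ≠ 0 := Nat.card_pos.ne'
  exact this

variable {F : Type*} [Field F] [NumberField F]

theorem locIndex_lt_exp_succ {x : WithZero (Multiplicative ℤ)} {n : ℤ} (h : x < WithZero.exp n) :
    x ≤ WithZero.exp (n - 1) := by
  by_cases hx : x = 0
  · simp [hx]
  · rw [← WithZero.exp_log hx] at h ⊢
    rw [WithZero.exp_lt_exp] at h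
    rw [WithZero.exp_le_exp]
    omega

theorem locIndex_le_exp_pred {x : WithZero (Multiplicative ℤ)} {n : ℤ}
    (h : x ≤ WithZero.exp (n - 1)) : x < WithZero.exp n :=
  lt_of_le_of_lt h (by rw [WithZero.exp_lt_exp]; omega)

/-- index bound from a map to the valuation ring separating the cosets modulo `w`. -/
theorem locIndex_relIndex_le_absNorm (w : HeightOneSpectrum (𝓞 F)) (K H : Subgroup Fˣ)
    (g : Fˣ → F) (h1 : ∀ u ∈ H, w.valuation F (g u) ≤ 1)
    (h2 : ∀ u ∈ H, ∀ u' ∈ H, w.valuation F (g u - g u') < 1 → u⁻¹ * u' ∈ K) :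
    K.relIndex H ≠ 0 ∧ K.relIndex H ≤ Ideal.absNorm w.asIdeal := by
  classical
  have hfin : Finite (𝓞 F ⧸ w.asIdeal) := by
    rw [← Ideal.absNorm_ne_zero_iff]
    exact Ideal.absNorm_ne_zero_of_nonZeroDivisors ⟨w.asIdeal, mem_nonZeroDivisors_of_ne_zero w.ne_bot⟩
  have hcard : Ideal.absNorm w.asIdeal = Nat.card (𝓞 F ⧸ w.asIdeal) := by
    rw [Ideal.absNorm_apply, Submodule.cardQuot_apply]
  rw [hcard]
  let θ : Fˣ → 𝓞 F ⧸ w.asIdeal := fun u =>
    if hu : w.valuation F (g u) ≤ 1 then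
      Ideal.Quotient.mk _ (w.exists_valuation_sub_lt_of_integer hu 1).choose else 0
  refine locIndex_relIndex_le K H θ ?_
  intro u hu u' hu' hθ
  apply h2 u hu u' hu'
  simp only [θ, dif_pos (h1 u hu), dif_pos (h1 u' hu')] at hθ
  have s1 := (w.exists_valuation_sub_lt_of_integer (h1 u hu) 1).choose_spec
  have s2 := (w.exists_valuation_sub_lt_of_integer (h1 u' hu') 1).choose_spec
  set a := (w.exists_valuation_sub_lt_of_integer (h1 u hu) 1).choose
  set a' := (w.exists_valuation_sub_lt_of_integer (h1 u' hu') 1).choose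
  rw [Ideal.Quotient.eq, ← w.valuation_lt_one_iff_mem (K := F)] at hθ
  rw [Units.val_one] at s1 s2
  have e : g u - g u' = -(algebraMap (𝓞 F) F a - g u) + (algebraMap (𝓞 F) F (a - a') +
      (algebraMap (𝓞 F) F a' - g u')) := by
    rw [map_sub]; ring
  rw [e]
  refine Valuation.map_add_lt _ ?_ (Valuation.map_add_lt _ hθ s2)
  rw [Valuation.map_neg]
  exact s1

end part0

section part1

variable {F : Type*} [Field F] [NumberField F]

/-- the `w`-units of `Fˣ`. -/
def locIndexU (w : HeightOneSpectrum (𝓞 F)) : Subgroup Fˣ where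
  carrier := {u | w.valuation F (u : F) = 1}
  one_mem' := by simp
  mul_mem' := by
    intro a b ha hb
    simp only [Set.mem_ofPred_eq] at ha hb ⊢
    rw [Units.val_mul, map_mul, ha, hb, one_mul]
  inv_mem' := by
    intro a ha
    simp only [Set.mem_ofPred_eq] at ha ⊢
    rw [Units.val_inv_eq_inv_val, map_inv₀, ha, inv_one]

theorem mem_locIndexU {w : HeightOneSpectrum (𝓞 F)} {u : Fˣ} :
    u ∈ locIndexU w ↔ w.valuation F (u : F) = 1 := Iff.rfl

theorem locIndex_princ_le_U (w : HeightOneSpectrum (𝓞 F)) (n : ℕ) : princ w n ≤ locIndexU w :=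
  fun _ hu => val_eq_one_of_sub_one_lt w hu

theorem locIndex_princ_anti (w : HeightOneSpectrum (𝓞 F)) {m n : ℕ} (h : m ≤ n) :
    princ w n ≤ princ w m := by
  intro u hu
  rw [mem_princ] at hu ⊢
  refine lt_of_lt_of_le hu ?_
  rw [WithZero.exp_le_exp]
  omega

/-- `u⁻¹ u' ∈ princ w n` from `v (u - u')` small, for `w`-units. -/
theorem locIndex_inv_mul_mem_princ {w : HeightOneSpectrum (𝓞 F)} {n : ℕ} {u u' : Fˣ}
    (hu : w.valuation F (u : F) = 1)
    (h : w.valuation F ((u : F) - u') < WithZero.exp (-(n : ℤ))) : u⁻¹ * u' ∈ princ w n := by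
  rw [mem_princ]
  have e : ((u⁻¹ * u' : Fˣ) : F) - 1 = -((u : F)⁻¹ * ((u : F) - u')) := by
    have : (u : F) ≠ 0 := u.ne_zero
    push_cast
    field_simp
    ring
  rw [e, Valuation.map_neg, map_mul, map_inv₀, hu, inv_one, one_mul]
  exact h

theorem locIndex_relIndex_princ_zero (w : HeightOneSpectrum (𝓞 F)) :
    (princ w 0).relIndex (locIndexU w) ≠ 0 := by
  refine (locIndex_relIndex_le_absNorm w _ _ (fun u => (u : F)) ?_ ?_).1
  · intro u hu
    exact le_of_eq hu
  · intro u hu u' _ h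
    apply locIndex_inv_mul_mem_princ hu
    simpa using h

theorem locIndex_relIndex_princ_succ (w : HeightOneSpectrum (𝓞 F)) (n : ℕ) :
    (princ w (n + 1)).relIndex (princ w n) ≠ 0 ∧
      (princ w (n + 1)).relIndex (princ w n) ≤ Ideal.absNorm w.asIdeal := by
  obtain ⟨π, hπ⟩ := w.valuation_exists_uniformizer F
  have hπn : w.valuation F (π ^ (n + 1)) = WithZero.exp (-((n : ℤ) + 1)) := by
    rw [map_pow, hπ, ← WithZero.exp_nsmul]
    congr 1
    simp
  have hpos : (0 : WithZero (Multiplicative ℤ)) < WithZero.exp (-((n : ℤ) + 1)) := WithZero.exp_pos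
  refine locIndex_relIndex_le_absNorm w _ _ (fun u => ((u : F) - 1) / π ^ (n + 1)) ?_ ?_
  · intro u hu
    rw [mem_princ] at hu
    have := locIndex_lt_exp_succ hu
    rw [map_div₀, hπn]
    rw [div_le_one₀ hpos]
    convert this using 2
    ring
  · intro u hu u' _ h
    apply locIndex_inv_mul_mem_princ (locIndex_princ_le_U w n hu)
    have e : ((u : F) - 1) / π ^ (n + 1) - ((u' : F) - 1) / π ^ (n + 1) =
        ((u : F) - u') / π ^ (n + 1) := by ring
    rw [e, map_div₀, hπn, div_lt_one₀ hpos] at h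
    convert h using 2
    push_cast
    ring

theorem locIndex_relIndex_princ_add (w : HeightOneSpectrum (𝓞 F)) (n k : ℕ) :
    (princ w (n + k)).relIndex (princ w n) ≠ 0 ∧
      (princ w (n + k)).relIndex (princ w n) ≤ Ideal.absNorm w.asIdeal ^ k := by
  induction k with
  | zero => simp
  | succ k ih =>
    have h1 := Subgroup.relIndex_mul_relIndex (princ w (n + k + 1)) (princ w (n + k)) (princ w n)
      (locIndex_princ_anti w (by omega)) (locIndex_princ_anti w (by omega))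
    have h2 := locIndex_relIndex_princ_succ w (n + k)
    rw [← add_assoc, ← h1]
    refine ⟨mul_ne_zero h2.1 ih.1, ?_⟩
    rw [pow_succ, mul_comm]
    exact Nat.mul_le_mul ih.2 h2.2

theorem locIndex_relIndex_princ_U (w : HeightOneSpectrum (𝓞 F)) (n : ℕ) :
    (princ w n).relIndex (locIndexU w) ≠ 0 := by
  have h1 := Subgroup.relIndex_mul_relIndex (princ w n) (princ w 0) (locIndexU w)
    (locIndex_princ_anti w (by omega)) (locIndex_princ_le_U w 0)
  rw [← h1]
  have h2 := (locIndex_relIndex_princ_add w 0 n).1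
  rw [zero_add] at h2
  exact mul_ne_zero h2 (locIndex_relIndex_princ_zero w)

/-- `[Fˣ : Fˣ^p U] ≤ p`. -/
theorem locIndex_index_pows_sup_U (p : ℕ) [NeZero p] (w : HeightOneSpectrum (𝓞 F)) :
    (pows p Fˣ ⊔ locIndexU w).index ≠ 0 ∧ (pows p Fˣ ⊔ locIndexU w).index ≤ p := by
  obtain ⟨π, hπ⟩ := w.valuation_exists_uniformizer F
  have hπ0 : π ≠ 0 := by
    rintro rfl
    rw [map_zero] at hπ
    exact WithZero.exp_ne_zero hπ.symm
  have key := locIndex_relIndex_le (pows p Fˣ ⊔ locIndexU w) ⊤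
    (fun u : Fˣ => ((WithZero.log (w.valuation F (u : F)) : ℤ) : ZMod p)) ?_
  · rw [Subgroup.relIndex_top_right, Nat.card_zmod] at key
    exact key
  · intro x _ y _ h
    have hx : w.valuation F (x : F) ≠ 0 := (Valuation.ne_zero_iff _).mpr x.ne_zero
    have hy : w.valuation F (y : F) ≠ 0 := (Valuation.ne_zero_iff _).mpr y.ne_zero
    rw [ZMod.intCast_eq_intCast_iff_dvd_sub] at h
    obtain ⟨m, hm⟩ := h
    -- `y / x = (π ^ (-m)) ^ p * unit`
    let ϖ : Fˣ := Units.mk0 π hπ0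
    have h1 : x⁻¹ * y = (ϖ ^ (-m)) ^ p * ((ϖ ^ (-m)) ^ p)⁻¹ * (x⁻¹ * y) := by simp
    rw [h1, mul_assoc]
    refine Subgroup.mul_mem_sup ⟨ϖ ^ (-m), rfl⟩ ?_
    rw [mem_locIndexU]
    push_cast
    rw [map_mul, map_mul, map_inv₀, map_inv₀, map_pow, map_zpow₀]
    simp only [ϖ, Units.val_mk0]
    rw [hπ, ← WithZero.exp_log hx, ← WithZero.exp_log hy, ← WithZero.exp_zsmul,
      ← WithZero.exp_nsmul, ← WithZero.exp_neg, ← WithZero.exp_neg, ← WithZero.exp_add,
      ← WithZero.exp_add, ← WithZero.exp_zero]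
    congr 1
    simp only [smul_eq_mul, nsmul_eq_mul]
    linarith

end part1

section part2

variable {F : Type*} [Field F] [NumberField F]

omit [NumberField F] in
theorem locIndex_core {n : ℕ} {ζ : F} (hζ : IsPrimitiveRoot ζ (n + 1))
    (v : Valuation F (WithZero (Multiplicative ℤ))) (u : F)
    (hmin : ∀ k ∈ Finset.range n, v (u - 1) ≤ v (u - ζ ^ (k + 1))) :
    v (u - 1) * v ((n + 1 : ℕ) : F) ≤ v (u ^ (n + 1) - 1) := by
  have h1 := X_pow_sub_C_eq_prod hζ n.succ_pos (one_pow (n + 1))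
  apply_fun Polynomial.eval u at h1
  simp only [Polynomial.eval_sub, Polynomial.eval_pow, Polynomial.eval_X, Polynomial.eval_C,
    Polynomial.eval_prod, mul_one] at h1
  rw [Finset.prod_range_succ', pow_zero] at h1
  have h2 := hζ.prod_one_sub_pow_eq_order
  rw [h1, map_mul, mul_comm, map_prod]
  have h3 : v ((n + 1 : ℕ) : F) = ∏ k ∈ Finset.range n, v (1 - ζ ^ (k + 1)) := by
    rw [← map_prod, h2]
    push_cast
    rfl
  rw [h3]
  refine mul_le_mul_left ?_ _
  apply Finset.prod_le_prod (fun _ _ => zero_le)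
  intro k hk
  have e : 1 - ζ ^ (k + 1) = (u - ζ ^ (k + 1)) - (u - 1) := by ring
  rw [e]
  refine le_trans (Valuation.map_sub _ _ _) ?_
  exact max_le le_rfl (hmin k hk)

omit [NumberField F] in
theorem locIndex_exists_root {p : ℕ} (hp : 0 < p) {ζ : F} (hζ : IsPrimitiveRoot ζ p)
    (v : Valuation F (WithZero (Multiplicative ℤ))) (u : F) :
    ∃ i : ℕ, v (u / ζ ^ i - 1) * v (p : F) ≤ v (u ^ p - 1) := by
  obtain ⟨n, rfl⟩ : ∃ n, p = n + 1 := ⟨p - 1, by omega⟩
  have hζ0 : ζ ≠ 0 := hζ.ne_zero (by omega)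
  have hvζ : v ζ = 1 := by
    have : v ζ ^ (n + 1) = 1 := by rw [← map_pow, hζ.pow_eq_one, map_one]
    exact (pow_eq_one_iff.mp this).resolve_right (by omega)
  obtain ⟨i₀, -, hi₀⟩ := Finset.exists_min_image (Finset.range (n + 1)) (fun i => v (u - ζ ^ i))
    ⟨0, by simp⟩
  refine ⟨i₀, ?_⟩
  have hdiv : ∀ x : F, v (u / ζ ^ i₀ - x) = v (u - x * ζ ^ i₀) := by
    intro x
    have e : u / ζ ^ i₀ - x = (u - x * ζ ^ i₀) / ζ ^ i₀ := by
      field_simp
    rw [e, map_div₀, map_pow, hvζ, one_pow, div_one]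
  have h1 := locIndex_core hζ v (u / ζ ^ i₀) ?_
  · have e : (u / ζ ^ i₀) ^ (n + 1) = u ^ (n + 1) := by
      rw [div_pow, ← pow_mul, mul_comm, pow_mul, hζ.pow_eq_one, one_pow, div_one]
    rw [e] at h1
    exact h1
  · intro k _
    rw [hdiv, hdiv, one_mul, ← pow_add, pow_eq_pow_mod (k + 1 + i₀) hζ.pow_eq_one]
    exact hi₀ _ (Finset.mem_range.mpr (Nat.mod_lt _ (by omega)))

end part2

variable (p : ℕ) [Fact p.Prime] {F : Type*} [Field F] [NumberField F]

/-- pure group theory: `[A : A^p P] ≤ [A : A^p U] [T : P]`, `T = {u ∈ U | u^p ∈ P}`. -/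
theorem locIndex_group {A : Type*} [CommGroup A] (n : ℕ) (U P : Subgroup A) (hPU : P ≤ U)
    (hfin : P.relIndex U ≠ 0) (hU : (pows n A ⊔ U).index ≠ 0) :
    (pows n A ⊔ P).index ≠ 0 ∧
    (pows n A ⊔ P).index ≤
      (P.relIndex (P.comap (powMonoidHom n) ⊓ U)) * (pows n A ⊔ U).index := by
  set φ : A →* A := powMonoidHom n with hφ
  set H := pows n A ⊔ P with hH
  set K := pows n A ⊔ U with hK
  set Q := U.map φ ⊔ P with hQ
  set T := P.comap φ ⊓ U with hT
  have hHK : H ≤ K := sup_le_sup_left hPU _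
  have hPQ : P ≤ Q := le_sup_right
  have hQU : Q ≤ U := by
    refine sup_le ?_ hPU
    rintro _ ⟨u, hu, rfl⟩
    exact U.pow_mem hu n
  have hQH : Q ≤ H := by
    refine sup_le_sup_right ?_ _
    rintro _ ⟨u, -, rfl⟩
    exact ⟨u, rfl⟩
  have hPT : P ≤ T := by
    refine le_inf ?_ hPU
    intro x hx
    exact P.pow_mem hx n
  have hTU : T ≤ U := inf_le_right
  have e1 : P.relIndex Q * Q.relIndex U = P.relIndex U := Subgroup.relIndex_mul_relIndex _ _ _ hPQ hQU
  have e2 : P.relIndex T * T.relIndex U = P.relIndex U := Subgroup.relIndex_mul_relIndex _ _ _ hPT hTU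
  have e3 : P.relIndex Q = T.relIndex U := by
    rw [hQ, Subgroup.relIndex_sup_right, ← Subgroup.relIndex_comap, hT, Subgroup.inf_relIndex_right]
  have hTU0 : T.relIndex U ≠ 0 := fun h => hfin (by rw [← e2, h, mul_zero])
  have e4 : Q.relIndex U = P.relIndex T := by
    rw [e3, ← e2, mul_comm] at e1
    exact Nat.eq_of_mul_eq_mul_right (Nat.pos_of_ne_zero hTU0) e1
  have hQU0 : Q.relIndex U ≠ 0 := fun h => hfin (by rw [← e1, h, mul_zero])
  have e5 : H.relIndex K = H.relIndex U := by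
    have : K = U ⊔ H := by
      rw [hK, hH, sup_comm U, sup_assoc, sup_eq_right.mpr hPU]
    rw [this, Subgroup.relIndex_sup_right]
  have e6 : H.relIndex U ≤ Q.relIndex U := Subgroup.relIndex_le_of_le_left hQH hQU0
  have e6' : H.relIndex U ≠ 0 := by
    intro h
    have := Subgroup.relIndex_dvd_of_le_left U hQH
    rw [h, zero_dvd_iff] at this
    exact hQU0 this
  have e7 : H.relIndex K * K.index = H.index := Subgroup.relIndex_mul_index hHK
  rw [← e7, e5]
  refine ⟨mul_ne_zero e6' hU, ?_⟩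
  rw [← e4]
  exact Nat.mul_le_mul_right _ e6

theorem index_locPow_le {ζ : F} (hζ : IsPrimitiveRoot ζ p) (w : HeightOneSpectrum (𝓞 F)) (e : ℕ)
    (he : w.valuation F (p : F) = WithZero.exp (-(e : ℤ))) :
    (locPow p w).index ≠ 0 ∧ (locPow p w).index ≤ p ^ 2 * (Ideal.absNorm w.asIdeal) ^ e := by
  have hp : p.Prime := Fact.out
  have : NeZero p := ⟨hp.ne_zero⟩
  set m₀ := e / (p - 1) with hm₀
  set P := princ w (m₀ + e) with hP
  set P₀ := princ w m₀ with hP₀
  set U := locIndexU w with hU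
  have hle : pows p Fˣ ⊔ P ≤ locPow p w := by
    refine sup_le ?_ (princ_le_locPow p w e he)
    exact le_iInf fun n => le_sup_left
  obtain ⟨hU0, hUp⟩ := locIndex_index_pows_sup_U p w
  obtain ⟨hH0, hHle⟩ := locIndex_group p U P (locIndex_princ_le_U w _)
    (locIndex_relIndex_princ_U w _) hU0
  have hdvd := Subgroup.index_dvd_of_le hle
  have hne : (locPow p w).index ≠ 0 := fun h => hH0 (by rw [h, zero_dvd_iff] at hdvd; exact hdvd)
  refine ⟨hne, le_trans (Nat.le_of_dvd (Nat.pos_of_ne_zero hH0) hdvd) (le_trans hHle ?_)⟩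
  -- the torsion bound
  let ζu : Fˣ := Units.mk0 ζ (hζ.ne_zero hp.ne_zero)
  set Z := Subgroup.zpowers ζu with hZ
  have hT : P.comap (powMonoidHom p) ⊓ U ≤ Z ⊔ P₀ := by
    intro u hu
    obtain ⟨hu1, -⟩ := hu
    have hu1' : w.valuation F ((u : F) ^ p - 1) < WithZero.exp (-((m₀ + e : ℕ) : ℤ)) := by
      have := (mem_princ (w := w) (n := m₀ + e) (u := u ^ p)).mp hu1
      simpa using this
    obtain ⟨i, hi⟩ := locIndex_exists_root hp.pos hζ (w.valuation F) (u : F)
    have h2 : w.valuation F ((u : F) / ζ ^ i - 1) * WithZero.exp (-(e : ℤ)) <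
        WithZero.exp (-(m₀ : ℤ)) * WithZero.exp (-(e : ℤ)) := by
      rw [he] at hi
      rw [← WithZero.exp_add]
      refine lt_of_le_of_lt hi (lt_of_lt_of_le hu1' (le_of_eq ?_))
      congr 1
      push_cast
      ring
    have h3 : w.valuation F ((u : F) / ζ ^ i - 1) < WithZero.exp (-(m₀ : ℤ)) :=
      lt_of_mul_lt_mul_right' h2
    have h4 : u = ζu ^ i * (u / ζu ^ i) := by
      rw [mul_div_cancel]
    rw [h4]
    refine Subgroup.mul_mem_sup (Subgroup.pow_mem _ (Subgroup.mem_zpowers _) _) ?_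
    rw [hP₀, mem_princ]
    simpa [ζu] using h3
  have hPP₀ : P ≤ P₀ := locIndex_princ_anti w (by omega)
  obtain ⟨hc0, hcle⟩ := locIndex_relIndex_princ_add w m₀ e
  have hZ1 : P₀.relIndex Z ∣ p := by
    refine (Subgroup.relIndex_dvd_card _ _).trans ?_
    rw [hZ, Nat.card_zpowers]
    apply orderOf_dvd_of_pow_eq_one
    ext
    simp [ζu, hζ.pow_eq_one]
  have hZ0 : P₀.relIndex Z ≠ 0 := fun h => hp.ne_zero (by rw [h, zero_dvd_iff] at hZ1; exact hZ1)
  have e1 : P.relIndex P₀ * P₀.relIndex (Z ⊔ P₀) = P.relIndex (Z ⊔ P₀) :=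
    Subgroup.relIndex_mul_relIndex _ _ _ hPP₀ le_sup_right
  rw [Subgroup.relIndex_sup_right] at e1
  have e2 : P.relIndex (Z ⊔ P₀) ≠ 0 := by
    rw [← e1]; exact mul_ne_zero hc0 hZ0
  have e3 := Subgroup.relIndex_le_of_le_right hT e2
  calc P.relIndex (P.comap (powMonoidHom p) ⊓ U) * (pows p Fˣ ⊔ U).index
      ≤ (Ideal.absNorm w.asIdeal ^ e * p) * p := by
        refine Nat.mul_le_mul (le_trans e3 ?_) hUp
        rw [← e1]
        exact Nat.mul_le_mul hcle (Nat.le_of_dvd hp.pos hZ1)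
    _ = p ^ 2 * (Ideal.absNorm w.asIdeal) ^ e := by ring

end Fermat.Agent.S55.INEQ
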