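import Fermat.Agent.S55.INEQ.Val2
import Fermat.Agent.S55.INEQ.Large
import Fermat.Agent.S55.INEQ.LocIndex

/-!
# S55-INEQ : abstract local norm groups, first properties
-/

set_option autoImplicit false

open IsDedekindDomain NumberField

namespace Fermat.Agent.S55.INEQ

variable (p : ℕ) [Fact p.Prime] {F : Type*} [Field F] [NumberField F]
  (E : Type*) [Field E] [NumberField E] [Algebra F E] [IsGalois F E]

variable {E}

theorem LocalNorm.locPow_le {𝒩 : HeightOneSpectrum (𝓞 F) → Subgroup Fˣ} (h𝒩 : LocalNorm E 𝒩)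
    (hdeg : Module.finrank F E = p) (w : HeightOneSpectrum (𝓞 F)) : locPow p w ≤ 𝒩 w := by
  obtain ⟨n, hn⟩ := h𝒩.isOpen w
  refine (iInf_le _ n).trans (sup_le ?_ hn)
  rintro _ ⟨y, rfl⟩
  have := h𝒩.norm_mem w (Units.map (algebraMap F E : F →* E) y)
  rw [normU_algebraMap, hdeg] at this
  exact this

/-- the valuations outside `T` of the norm of a generator of a split prime. -/
theorem countDefs_valuation_norm (hdeg : Module.finrank F E = p)
    {T : Set (HeightOneSpectrum (𝓞 F))} (hL : Large p E T) {w : HeightOneSpectrum (𝓞 F)}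
    (hwT : w ∉ T) (hw : ¬ Nonsplit E w) :
    ∃ ϖ : Eˣ, w.valuation F (normU F E ϖ : F) = WithZero.exp (-1 : ℤ) ∧
      ∀ w' ∉ T, w' ≠ w → w'.valuation F (normU F E ϖ : F) = 1 := by
  classical
  have hp : p.Prime := Fact.out
  obtain ⟨P, hP⟩ := exists_under_eq E w
  have hPT : P ∉ above E T := by
    intro h
    exact hwT (hP ▸ h)
  obtain ⟨ϖ, hϖ1, hϖ2⟩ := hL.principal_above P hPT
  have hnorm : ∀ P' : HeightOneSpectrum (𝓞 E), P' ∉ above E T →
      (P'.under (𝓞 F)).valuation F (normU F E ϖ : F) =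
        ∏ σ : E ≃ₐ[F] E, (galMap σ P').valuation E (ϖ : E) := by
    intro P' hP'
    rw [← valuation_algebraMap_norm, hL.unram P' hP']
    rfl
  refine ⟨ϖ, ?_, ?_⟩
  · rw [← hP, hnorm P hPT, Finset.prod_eq_single (1 : E ≃ₐ[F] E)]
    · rw [galMap_one, hϖ1]
    · intro σ _ hσ
      exact hϖ2 _ (fun h => hPT (galMap_mem_above σ |>.mp h))
        (galMap_ne_of_not_nonsplit hp hdeg hw P hP σ hσ)
    · intro h
      exact absurd (Finset.mem_univ _) h
  · intro w' hw'T hw'
    obtain ⟨P', hP'⟩ := exists_under_eq E w'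
    have hP'T : P' ∉ above E T := by
      intro h
      exact hw'T (hP' ▸ h)
    rw [← hP', hnorm P' hP'T]
    refine Finset.prod_eq_one fun σ _ => ?_
    refine hϖ2 _ (fun h => hP'T (galMap_mem_above σ |>.mp h)) ?_
    intro h
    apply hw'
    rw [← hP', ← hP, ← h, under_galMap]

/-- removing the valuations at split primes by norms: `F_{T ∪ T*} ⊆ F_T · N(Eˣ)`. -/
theorem exists_norm_mul_mem_unit (hdeg : Module.finrank F E = p)
    {T Ts : Set (HeightOneSpectrum (𝓞 F))} (hL : Large p E T) (hTs : Ts.Finite)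
    (hsplit : ∀ w ∈ Ts, ¬ Nonsplit E w) (x : Fˣ) (hx : x ∈ (T ∪ Ts).unit F) :
    ∃ z : Eˣ, x * normU F E z ∈ T.unit F := by
  classical
  induction Ts, hTs using Set.Finite.induction_on generalizing x with
  | empty =>
    refine ⟨1, ?_⟩
    rw [map_one, mul_one]
    simpa using hx
  | @insert w Ts' hw hfin ih =>
    have hsplit' : ∀ w ∈ Ts', ¬ Nonsplit E w := fun v hv => hsplit v (Set.mem_insert_of_mem _ hv)
    by_cases hwT : w ∈ T
    · refine ih hsplit' x ?_
      intro v hv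
      refine hx v ?_
      rintro (h | h)
      · exact hv (Or.inl h)
      · rcases h with rfl | h
        · exact hv (Or.inl hwT)
        · exact hv (Or.inr h)
    · obtain ⟨ϖ, hϖ1, hϖ2⟩ := countDefs_valuation_norm p hdeg hL hwT
        (hsplit w (Set.mem_insert _ _))
      have hx0 : w.valuation F (x : F) ≠ 0 := by
        rw [Ne, map_eq_zero]; exact x.ne_zero
      obtain ⟨k, hk⟩ : ∃ k : ℤ, w.valuation F (x : F) = WithZero.exp k :=
        ⟨WithZero.log (w.valuation F (x : F)), (WithZero.exp_log hx0).symm⟩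
      obtain ⟨z', hz'⟩ := ih hsplit' (x * normU F E (ϖ ^ k)) (by
        intro v hv
        by_cases hvw : v = w
        · subst hvw
          rw [map_zpow, Units.val_mul, Units.val_zpow_eq_zpow_val, map_mul, map_zpow₀, hϖ1, hk,
            ← WithZero.exp_zsmul, ← WithZero.exp_add]
          simp
        · have h1 : v.valuation F (x : F) = 1 := by
            refine hx v ?_
            rintro (h | h)
            · exact hv (Or.inl h)
            · rcases h with h | h
              · exact hvw h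
              · exact hv (Or.inr h)
          rw [map_zpow, Units.val_mul, Units.val_zpow_eq_zpow_val, map_mul, map_zpow₀, h1,
            hϖ2 v (fun h => hv (Or.inl h)) hvw]
          simp)
      refine ⟨ϖ ^ k * z', ?_⟩
      rw [map_mul, ← mul_assoc]
      exact hz'

/-- the valuation of `p` is `exp (-e)`. -/
theorem countDefs_exists_valuation_p (w : HeightOneSpectrum (𝓞 F)) :
    ∃ e : ℕ, w.valuation F (p : F) = WithZero.exp (-(e : ℤ)) := by
  have hp : p.Prime := Fact.out
  have h0 : w.valuation F (p : F) ≠ 0 := by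
    rw [Ne, map_eq_zero]
    exact_mod_cast hp.ne_zero
  have h1 : w.valuation F (p : F) ≤ 1 := by
    have := w.valuation_le_one (K := F) (p : 𝓞 F)
    simpa using this
  have h2 : WithZero.log (w.valuation F (p : F)) ≤ 0 := by
    rw [← WithZero.exp_log h0, ← WithZero.exp_zero, WithZero.exp_le_exp] at h1
    exact h1
  refine ⟨(-WithZero.log (w.valuation F (p : F))).toNat, ?_⟩
  rw [Int.toNat_of_nonneg (by omega), neg_neg, WithZero.exp_log h0]

/-- the local norm groups have finite index. -/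
theorem countDefs_index_ne_zero {ζ : F} (hζ : IsPrimitiveRoot ζ p)
    (hdeg : Module.finrank F E = p) {𝒩 : HeightOneSpectrum (𝓞 F) → Subgroup Fˣ}
    (h𝒩 : LocalNorm E 𝒩) (w : HeightOneSpectrum (𝓞 F)) : (𝒩 w).index ≠ 0 := by
  obtain ⟨e, he⟩ := countDefs_exists_valuation_p p w
  exact ne_zero_of_dvd_ne_zero (index_locPow_le p hζ w e he).1
    (Subgroup.index_dvd_of_le (h𝒩.locPow_le p hdeg w))

/-- at a nonsplit prime the local norm index is at least `p`. -/
theorem countDefs_le_card {ζ : F} (hζ : IsPrimitiveRoot ζ p)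
    (hdeg : Module.finrank F E = p) {𝒩 : HeightOneSpectrum (𝓞 F) → Subgroup Fˣ}
    (h𝒩 : LocalNorm E 𝒩) (w : HeightOneSpectrum (𝓞 F)) (hw : Nonsplit E w) :
    p ≤ Nat.card (Fˣ ⧸ 𝒩 w) := by
  have hp : p.Prime := Fact.out
  have hfi : (𝒩 w).FiniteIndex := ⟨countDefs_index_ne_zero p hζ hdeg h𝒩 w⟩
  have hfin : Finite (Fˣ ⧸ 𝒩 w) := Subgroup.finite_quotient_of_finiteIndex
  obtain ⟨x, hx⟩ : ∃ x : Fˣ, x ∉ 𝒩 w := by
    by_contra hcon
    push Not at hcon
    exact h𝒩.ne_top w hw ((Subgroup.eq_top_iff' _).mpr hcon)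
  have h1 : (QuotientGroup.mk x : Fˣ ⧸ 𝒩 w) ≠ 1 := by
    rwa [Ne, QuotientGroup.eq_one_iff]
  have h2 : (QuotientGroup.mk x : Fˣ ⧸ 𝒩 w) ^ p = 1 := by
    rw [← QuotientGroup.mk_pow, QuotientGroup.eq_one_iff]
    refine h𝒩.locPow_le p hdeg w ?_
    refine (Subgroup.mem_iInf).mpr fun n => ?_
    exact (le_sup_left : pows p Fˣ ≤ _) ⟨x, rfl⟩
  have h3 : orderOf (QuotientGroup.mk x : Fˣ ⧸ 𝒩 w) = p := orderOf_eq_prime h2 h1
  rw [← h3]
  exact Nat.le_of_dvd Nat.card_pos (orderOf_dvd_natCard _)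

/-- `#∏_{w ∈ T} Fˣ / 𝒩 w ≥ p^ν`. -/
theorem pow_le_card_pi {ζ : F} (hζ : IsPrimitiveRoot ζ p) (hdeg : Module.finrank F E = p)
    {T : Set (HeightOneSpectrum (𝓞 F))}
    (hT : T.Finite) {𝒩 : HeightOneSpectrum (𝓞 F) → Subgroup Fˣ} (h𝒩 : LocalNorm E 𝒩) :
    Finite ((w : T) → Fˣ ⧸ 𝒩 w) ∧
      p ^ {w ∈ T | Nonsplit E w}.ncard ≤ Nat.card ((w : T) → Fˣ ⧸ 𝒩 w) := by
  classical
  have hTf : Finite T := hT
  cases nonempty_fintype T
  have hfin : ∀ w : T, Finite (Fˣ ⧸ 𝒩 w) := fun w => by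
    have hfi : (𝒩 w).FiniteIndex := ⟨countDefs_index_ne_zero p hζ hdeg h𝒩 w⟩
    exact Subgroup.finite_quotient_of_finiteIndex
  refine ⟨inferInstance, ?_⟩
  rw [Nat.card_pi]
  have h1 : {w ∈ T | Nonsplit E w}.ncard =
      (Finset.univ.filter (fun w : T => Nonsplit E (w : HeightOneSpectrum (𝓞 F)))).card := by
    have h2 : {w ∈ T | Nonsplit E w} =
        Subtype.val '' {w : T | Nonsplit E (w : HeightOneSpectrum (𝓞 F))} := by
      ext w
      simp [and_comm]
    rw [h2, Set.ncard_image_of_injective _ Subtype.val_injective, Set.ncard_eq_toFinset_card']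
    congr 1
    ext w
    simp
  have h3 : p ^ {w ∈ T | Nonsplit E w}.ncard =
      ∏ w : T, (if Nonsplit E (w : HeightOneSpectrum (𝓞 F)) then p else 1) := by
    rw [Finset.prod_ite, Finset.prod_const, Finset.prod_const_one, mul_one, h1]
  rw [h3]
  refine Finset.prod_le_prod (fun _ _ => Nat.zero_le _) fun w _ => ?_
  split_ifs with hw
  · exact countDefs_le_card p hζ hdeg h𝒩 w hw
  · exact Nat.card_pos

end Fermat.Agent.S55.INEQ
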