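import Fermat.Agent.S55.INEQ.H90
import Fermat.Agent.S55.INEQ.UnitRank
import Fermat.Agent.S55.HQ.ChevalleyMul

/-!
# S55-INEQ : (I1) `#(F_T / N E_T) = p^(ν-1)`
-/

set_option autoImplicit false

open IsDedekindDomain NumberField

namespace Fermat.Agent.S55.INEQ

/-- in a group of prime order a product over the group is a product over the powers of a
nontrivial element. -/
theorem firstIneq_prod_eq_prod_range {G X : Type*} [Group G] [Fintype G] [CommMonoid X] {p : ℕ}
    [Fact p.Prime] (hG : Nat.card G = p) {σ : G} (hσ : σ ≠ 1) (f : G → X) :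
    ∏ τ : G, f τ = ∏ i ∈ Finset.range p, f (σ ^ i) := by
  classical
  have hσp : σ ^ p = 1 := hG ▸ pow_card_eq_one'
  have hord : orderOf σ = p := orderOf_eq_prime hσp hσ
  have hinj : Set.InjOn (fun i : ℕ => σ ^ i) (Finset.range p : Set ℕ) := by
    have := pow_injOn_Iio_orderOf (x := σ)
    rw [hord] at this
    intro a ha b hb hab
    exact this (by simpa using ha) (by simpa using hb) hab
  have himg : (Finset.range p).image (fun i : ℕ => σ ^ i) = Finset.univ := by
    apply Finset.eq_univ_of_card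
    rw [Finset.card_image_of_injOn hinj, Finset.card_range, ← Nat.card_eq_fintype_card, hG]
  rw [← himg, Finset.prod_image hinj]

variable (p : ℕ) [Fact p.Prime] {F : Type*} [Field F] [NumberField F]
  (E : Type*) [Field E] [NumberField E] [Algebra F E] [IsGalois F E]

/-- pure arithmetic at the end of the proof of (I1). -/
theorem firstIneq_arith {h aE aF ab nT ν rE rF : ℕ} (hp2 : 2 ≤ p)
    (hE : aE = ab + rE + 1) (hF : aF = nT + rF + 1) (hr : rE + 1 = p * (rF + 1))
    (hab : ab + (p - 1) * ν = p * nT)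
    (hmain : h ^ (p - 1) * p ^ p * p ^ aE = 1 ^ (p - 1) * (p ^ aF) ^ p * p) :
    h * p = p ^ ν := by
  have hp0 : 0 < p := by omega
  obtain ⟨q, rfl⟩ : ∃ q, p = q + 1 := ⟨p - 1, by omega⟩
  rw [Nat.add_sub_cancel] at hab hmain
  have hq : q ≠ 0 := by omega
  apply Nat.pow_left_injective (n := q) (by omega)
  change (h * (q + 1)) ^ q = ((q + 1) ^ ν) ^ q
  have e1 : aF * (q + 1) = aE + q * ν := by
    subst hE hF
    calc (nT + rF + 1) * (q + 1) = (q + 1) * nT + (q + 1) * (rF + 1) := by ring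
      _ = (ab + q * ν) + (rE + 1) := by rw [← hab, ← hr]
      _ = ab + rE + 1 + q * ν := by ring
  rw [one_pow, one_mul, ← pow_mul, e1] at hmain
  have e2 : (h * (q + 1)) ^ q * ((q + 1) * (q + 1) ^ aE) =
      ((q + 1) ^ ν) ^ q * ((q + 1) * (q + 1) ^ aE) := by
    calc (h * (q + 1)) ^ q * ((q + 1) * (q + 1) ^ aE)
        = h ^ q * (q + 1) ^ (q + 1) * (q + 1) ^ aE := by rw [mul_pow, pow_succ]; ring
      _ = (q + 1) ^ (aE + q * ν) * (q + 1) := hmain
      _ = ((q + 1) ^ ν) ^ q * ((q + 1) * (q + 1) ^ aE) := by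
        rw [pow_add, ← pow_mul, mul_comm ν q]; ring
  exact Nat.eq_of_mul_eq_mul_right (by positivity) e2

/-- **(I1)** the first inequality in `T`-unit form. -/
theorem relIndex_norm_unit (hp2 : p ≠ 2) {ζ : F} (hζ : IsPrimitiveRoot ζ p)
    (hdeg : Module.finrank F E = p) {T : Set (HeightOneSpectrum (𝓞 F))} (hL : Large p E T) :
    (((above E T).unit E).map (normU F E)).relIndex (T.unit F) * p =
      p ^ {w ∈ T | Nonsplit E w}.ncard := by
  classical
  have hp : p.Prime := Fact.out
  have hcard : Nat.card (E ≃ₐ[F] E) = p := (IsGalois.card_aut_eq_finrank F E).trans hdeg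
  have hfinG : Finite (E ≃ₐ[F] E) := Nat.finite_of_card_ne_zero (hcard ▸ hp.ne_zero)
  obtain ⟨σ, hσ⟩ : ∃ σ : E ≃ₐ[F] E, σ ≠ 1 := by
    have : Nontrivial (E ≃ₐ[F] E) := by
      rw [← Finite.one_lt_card_iff_nontrivial, hcard]
      exact hp.one_lt
    exact exists_ne 1
  have hσp : σ ^ p = 1 := hcard ▸ pow_card_eq_one'
  -- the group `M = E_T` and the endomorphism `s`
  let s : ((above E T).unit E) →* ((above E T).unit E) :=
    ((Units.map (σ : E →* E)).comp ((above E T).unit E).subtype).codRestrict ((above E T).unit E)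
      (fun y => (map_mem_unit_above σ).2 y.2)
  have hs_apply : ∀ y : (above E T).unit E, (((s y : (above E T).unit E) : Eˣ) : E) =
      σ ((y : Eˣ) : E) := fun y => rfl
  have hs_iter : ∀ (i : ℕ) (y : (above E T).unit E),
      (((s^[i] y : (above E T).unit E) : Eˣ) : E) = (σ ^ i) ((y : Eˣ) : E) := by
    intro i
    induction i with
    | zero => intro y; rfl
    | succ i ih =>
      intro y
      rw [Function.iterate_succ_apply', hs_apply, ih, pow_succ', AlgEquiv.mul_apply]
  have hs : ∀ y, s^[p] y = y := by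
    intro y
    apply Subtype.ext
    apply Units.ext
    rw [hs_iter, hσp, AlgEquiv.one_apply]
  let ι : Fˣ →* Eˣ := Units.map (algebraMap F E : F →* E)
  have hι : Function.Injective ι := Units.map_injective (algebraMap F E).injective
  let j : ((above E T).unit E) →* Eˣ := ((above E T).unit E).subtype
  have hj : Function.Injective j := Subtype.val_injective
  -- the norm
  have hnrm : ∀ y : (above E T).unit E, j (HQ.nrmM p s y) = ι (normU F E y) := by
    intro y
    apply Units.ext
    have h1 : ((ι (normU F E y) : Eˣ) : E) = algebraMap F E (Algebra.norm F ((y : Eˣ) : E)) := rfl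
    have h2 : ((j (HQ.nrmM p s y) : Eˣ) : E) =
        ∏ i ∈ Finset.range p, (((s^[i] y : (above E T).unit E) : Eˣ) : E) := by
      rw [HQ.nrmM_apply]
      exact map_prod ((Units.coeHom E).comp j) _ _
    rw [h1, h2, Algebra.norm_eq_prod_automorphisms,
      firstIneq_prod_eq_prod_range hcard hσ (fun τ : E ≃ₐ[F] E => τ ((y : Eˣ) : E))]
    exact Finset.prod_congr rfl fun i _ => hs_iter i y
  -- the fixed points
  have hfix : (HQ.fixM s).map j = (T.unit F).map ι := by
    ext x
    constructor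
    · rintro ⟨y, hy, rfl⟩
      rw [SetLike.mem_coe, HQ.mem_fixM] at hy
      have h1 : σ ((y : Eˣ) : E) = ((y : Eˣ) : E) := by rw [← hs_apply, hy]
      have h2 : ∀ τ : E ≃ₐ[F] E, τ ((y : Eˣ) : E) = ((y : Eˣ) : E) := by
        intro τ
        obtain ⟨i, rfl⟩ := mem_powers_of_prime_card hcard hσ (g' := τ)
        have h3 : s^[i] y = y := Function.iterate_fixed hy i
        change (σ ^ i) ((y : Eˣ) : E) = _
        rw [← hs_iter, h3]
      obtain ⟨a, ha⟩ := IntermediateField.mem_bot.1 ((IsGalois.mem_bot_iff_fixed _).2 h2)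
      have ha0 : a ≠ 0 := by
        rintro rfl
        rw [map_zero] at ha
        exact (y : Eˣ).ne_zero ha.symm
      have h4 : ι (Units.mk0 a ha0) = (y : Eˣ) := Units.ext ha
      refine ⟨Units.mk0 a ha0, ?_, h4⟩
      rw [SetLike.mem_coe, ← algebraMap_mem_unit_above (E := E)]
      change ι (Units.mk0 a ha0) ∈ _
      rw [h4]
      exact y.2
    · rintro ⟨a, ha, rfl⟩
      refine ⟨⟨ι a, algebraMap_mem_unit_above.2 ha⟩, ?_, rfl⟩
      rw [SetLike.mem_coe, HQ.mem_fixM]
      apply Subtype.ext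
      apply Units.ext
      rw [hs_apply]
      exact σ.commutes (a : F)
  have hrange : (HQ.nrmM p s).range.map j = (((above E T).unit E).map (normU F E)).map ι := by
    ext x
    constructor
    · rintro ⟨_, ⟨y, rfl⟩, rfl⟩
      exact ⟨normU F E y, ⟨y, y.2, rfl⟩, (hnrm y).symm⟩
    · rintro ⟨_, ⟨y, hy, rfl⟩, rfl⟩
      exact ⟨HQ.nrmM p s ⟨y, hy⟩, ⟨⟨y, hy⟩, rfl⟩, hnrm ⟨y, hy⟩⟩
  have hM0 : HQ.hM0 p s = (((above E T).unit E).map (normU F E)).relIndex (T.unit F) := by
    rw [HQ.hM0, ← Subgroup.relIndex_map_map_of_injective _ _ hj, hrange, hfix,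
      Subgroup.relIndex_map_map_of_injective _ _ hι]
  have hM1 : HQ.hM1 p s = 1 := by
    rw [HQ.hM1, Subgroup.relIndex_eq_one]
    intro y hy
    rw [MonoidHom.mem_ker] at hy
    have h1 : normU F E y = 1 := by
      apply hι
      rw [← hnrm, hy, map_one, map_one]
    obtain ⟨z, hz, hyz⟩ := hilbert90_unit p E hdeg hL σ hσ y y.2 h1
    exact ⟨⟨z, hz⟩, Subtype.ext hyz.symm⟩
  let e : (T.unit F) ≃* HQ.fixM s :=
    ((T.unit F).equivMapOfInjective ι hι).trans
      ((MulEquiv.subgroupCongr hfix.symm).trans ((HQ.fixM s).equivMapOfInjective j hj).symm)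
  have hζE : IsPrimitiveRoot (algebraMap F E ζ) p := hζ.map_of_injective (algebraMap F E).injective
  have hTE : (above E T).Finite := above_finite E hL.finite
  have i1 : HQ.powIdx p (⊤ : Subgroup ((above E T).unit E)) =
      p ^ ((above E T).ncard + Units.rank E + 1) := by
    rw [HQ.powIdx_top]; exact index_pows_unit p hζE hTE
  have i2 : HQ.torCard p (⊤ : Subgroup ((above E T).unit E)) = p := by
    rw [HQ.torCard_top]; exact card_ker_pow_unit p hζE (above E T)
  have i3 : HQ.powIdx p (HQ.fixM s) = p ^ (T.ncard + Units.rank F + 1) := by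
    rw [HQ.powIdx_eq_top, ← HQ.powIdx_top_congr e, HQ.powIdx_top]
    exact index_pows_unit p hζ hL.finite
  have i4 : HQ.torCard p (HQ.fixM s) = p := by
    rw [HQ.torCard_eq_top, ← HQ.torCard_top_congr e, HQ.torCard_top]
    exact card_ker_pow_unit p hζ T
  obtain ⟨-, -, -, -, hmain⟩ := HQ.chevalley_mul p s hs
    (by rw [i1]; exact pow_ne_zero _ hp.ne_zero) (by rw [i2]; exact hp.ne_zero)
  rw [i1, i2, i3, i4, hM1, hM0] at hmain
  exact firstIneq_arith p hp.two_le rfl rfl (rank_succ_eq p hp2 hζ E hdeg)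
    (ncard_above hp hdeg hL.finite) hmain

end Fermat.Agent.S55.INEQ
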