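import Fermat.Agent.S55.INEQ.Val2
import Fermat.Agent.S55.INEQ.Large
import Fermat.Agent.S55.LOC.Alg.Cyclic

/-!
# S55-INEQ : `H^1(C, E_T) = 0` for large `T`
-/

set_option autoImplicit false
set_option linter.unusedSectionVars false

open IsDedekindDomain NumberField

namespace Fermat.Agent.S55.INEQ

/-- the automorphisms preserving the function `P ↦ v_P(z)` outside `T`. -/
def H90_stab {F : Type*} [Field F] [NumberField F] (E : Type*) [Field E] [NumberField E]
    [Algebra F E] (T : Set (HeightOneSpectrum (𝓞 F))) (z : E) : Subgroup (E ≃ₐ[F] E) where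
  carrier := {τ | ∀ P : HeightOneSpectrum (𝓞 E), P ∉ above E T →
    (galMap τ P).valuation E z = P.valuation E z}
  one_mem' := fun P _ => by rw [galMap_one]
  mul_mem' := by
    intro τ τ' h h' P hP
    rw [galMap_mul, h _ (fun h2 => hP ((galMap_mem_above τ').mp h2)), h' P hP]
  inv_mem' := by
    intro τ h P hP
    have h1 := h (galMap τ⁻¹ P) (fun h2 => hP ((galMap_mem_above τ⁻¹).mp h2))
    rw [Val2_galMap_galMap_inv] at h1
    exact h1.symm

variable (p : ℕ) [Fact p.Prime] {F : Type*} [Field F] [NumberField F]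
  (E : Type*) [Field E] [NumberField E] [Algebra F E] [IsGalois F E]

/-- Hilbert 90 for `T`-units, `T` large. -/
theorem hilbert90_unit (hdeg : Module.finrank F E = p) {T : Set (HeightOneSpectrum (𝓞 F))}
    (hL : Large p E T) (σ : E ≃ₐ[F] E) (hσ : σ ≠ 1) (y : Eˣ) (hy : y ∈ (above E T).unit E)
    (hN : normU F E y = 1) :
    ∃ z ∈ (above E T).unit E, y = Units.map (σ : E →* E) z / z := by
  classical
  have hcard : Nat.card (E ≃ₐ[F] E) = p := by rw [IsGalois.card_aut_eq_finrank, hdeg]
  have hcyc : IsCyclic (E ≃ₐ[F] E) := isCyclic_of_prime_card hcard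
  have hgen : ∀ τ : E ≃ₐ[F] E, τ ∈ Subgroup.zpowers σ := fun τ =>
    mem_zpowers_of_prime_card hcard hσ
  have hN' : Algebra.norm F (y : E) = 1 := congrArg Units.val hN
  have hord : orderOf σ = p := by rw [orderOf_eq_card_of_forall_mem_zpowers hgen, hcard]
  have hprod : ∏ i ∈ Finset.range p, (σ ^ i) (y : E) = 1 := by
    have h1 := Algebra.norm_eq_prod_automorphisms F (y : E)
    rw [hN', map_one, ← IsCyclic.image_range_orderOf hgen, hord, Finset.prod_image] at h1
    · exact h1.symm
    · intro i hi j hj hij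
      exact pow_injOn_Iio_orderOf (x := σ) (by simpa [hord] using hi) (by simpa [hord] using hj) hij
  obtain ⟨y₀, hy₀0, hy₀⟩ := LOC.Cyclic_hilbert90 σ p (Fact.out : p.Prime).pos hord (y : E) hprod
  -- `z₀ = y₀⁻¹`
  set z₀ : Eˣ := (Units.mk0 y₀ hy₀0)⁻¹ with hz₀
  have hyz : (y : E) = σ (z₀ : E) / (z₀ : E) := by
    rw [hz₀, Units.val_inv_eq_inv_val, map_inv₀, Units.val_mk0]
    have h1 : σ y₀ ≠ 0 := by simpa using hy₀0
    field_simp
    exact hy₀
  -- invariance
  have hσmem : σ⁻¹ ∈ H90_stab E T (z₀ : E) := by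
    intro P hP
    have h1 : P.valuation E (y : E) = 1 := hy P hP
    rw [hyz, map_div₀, div_eq_one_iff_eq (by simp)] at h1
    rw [← h1, ← valuation_galMap σ (galMap σ⁻¹ P), Val2_galMap_galMap_inv]
  have hall : ∀ τ : E ≃ₐ[F] E, τ ∈ H90_stab E T (z₀ : E) := by
    intro τ
    have h1 : Subgroup.zpowers σ ≤ H90_stab E T (z₀ : E) := by
      rw [Subgroup.zpowers_le]
      simpa using inv_mem hσmem
    exact h1 (hgen τ)
  choose Pw hPw using exists_under_eq (F := F) E
  set n : HeightOneSpectrum (𝓞 F) → ℤ := fun w =>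
    if w ∈ T then 0 else WithZero.log ((Pw w).valuation E (z₀ : E)) with hn
  have hfin : {v | n v ≠ 0}.Finite := by
    refine ((finite_valuation_ne_one z₀).image (fun P => P.under (𝓞 F))).subset ?_
    intro w hw
    refine ⟨Pw w, ?_, hPw w⟩
    intro h1
    apply hw
    simp only [hn]
    split_ifs
    · rfl
    · rw [h1, WithZero.log_one]
  obtain ⟨c, hc⟩ := hL.principal.exists_valuation_eq n hfin
  have hcval : ∀ P : HeightOneSpectrum (𝓞 E), P ∉ above E T →
      P.valuation E (algebraMap F E c) = P.valuation E (z₀ : E) := by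
    intro P hP
    have hw : P.under (𝓞 F) ∉ T := hP
    rw [hL.unram P hw, hc _ hw]
    simp only [hn, if_neg hw]
    rw [WithZero.exp_log (by simp)]
    obtain ⟨τ, hτ⟩ := exists_galMap_eq (F := F) P (Pw (P.under (𝓞 F))) (hPw _).symm
    rw [← hτ]
    exact hall τ P hP
  refine ⟨z₀ / Units.map (algebraMap F E : F →* E) c, ?_, ?_⟩
  · intro P hP
    show P.valuation E ((z₀ / Units.map (algebraMap F E : F →* E) c : Eˣ) : E) = 1
    rw [Units.val_div_eq_div_val, map_div₀]
    show P.valuation E (z₀ : E) / P.valuation E (algebraMap F E c) = 1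
    rw [hcval P hP, div_self (by simp)]
  · apply Units.ext
    rw [Units.val_div_eq_div_val, hyz]
    show σ (z₀ : E) / (z₀ : E) = σ ((z₀ / Units.map (algebraMap F E : F →* E) c : Eˣ) : E) /
      ((z₀ / Units.map (algebraMap F E : F →* E) c : Eˣ) : E)
    rw [Units.val_div_eq_div_val, map_div₀]
    show σ (z₀ : E) / (z₀ : E) = σ (z₀ : E) / σ (algebraMap F E c) / ((z₀ : E) / algebraMap F E c)
    rw [σ.commutes]
    have h1 : algebraMap F E c ≠ 0 := by simp
    have h2 : (z₀ : E) ≠ 0 := z₀.ne_zero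
    field_simp

end Fermat.Agent.S55.INEQ
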