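import Fermat.Agent.S55.INEQ.Defs

/-!
# S55-INEQ : Kummer extensions `E = F(x^(1/p))` (field theory)
-/

set_option autoImplicit false

open IsDedekindDomain NumberField

universe u

namespace Fermat.Agent.S55.INEQ

open Polynomial

variable (p : ℕ) [Fact p.Prime] {F : Type u} [Field F] [NumberField F]

omit [NumberField F] in
/-- irreducibility of `X^p - x`. -/
theorem kummer_irreducible (x : Fˣ) (hx : ¬ ∃ y : Fˣ, y ^ p = x) :
    Irreducible (X ^ p - C (x : F)) := by
  have hp : p.Prime := Fact.out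
  refine X_pow_sub_C_irreducible_of_prime hp fun b hb => hx ?_
  have hb0 : b ≠ 0 := by
    rintro rfl
    rw [zero_pow hp.ne_zero] at hb
    exact x.ne_zero hb.symm
  exact ⟨Units.mk0 b hb0, Units.ext (by simpa using hb)⟩

/-- the Kummer extension as a number field. -/
theorem exists_kummer {ζ : F} (hζ : IsPrimitiveRoot ζ p) (x : Fˣ) (hx : ¬ ∃ y : Fˣ, y ^ p = x) :
    ∃ (E : Type u) (_ : Field E) (_ : NumberField E) (_ : Algebra F E),
      IsGalois F E ∧ Module.finrank F E = p ∧ ∃ α : E, α ^ p = algebraMap F E x := by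
  have hp : p.Prime := Fact.out
  have H := kummer_irreducible p x hx
  have hζ' : (primitiveRoots p F).Nonempty := ⟨ζ, (mem_primitiveRoots hp.pos).mpr hζ⟩
  have hfin : Module.Finite F (X ^ p - C (x : F)).SplittingField :=
    Polynomial.IsSplittingField.finiteDimensional _ (X ^ p - C (x : F))
  exact ⟨(X ^ p - C (x : F)).SplittingField, inferInstance, NumberField.of_module_finite F _,
    inferInstance, isGalois_of_isSplittingField_X_pow_sub_C hζ' H _,
    finrank_of_isSplittingField_X_pow_sub_C hζ' H _, ⟨_, rootOfSplitsXPowSubC_pow _ _⟩⟩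

variable (E : Type*) [Field E] [NumberField E] [Algebra F E] [IsGalois F E]

omit [NumberField F] [NumberField E] [IsGalois F E] in
/-- a root of `X^p - x` generates `E`. -/
theorem kummer_adjoin_eq_top (hdeg : Module.finrank F E = p)
    (x : Fˣ) (hx : ¬ ∃ y : Fˣ, y ^ p = x) (α : E) (hα : α ^ p = algebraMap F E x) :
    IntermediateField.adjoin F {α} = ⊤ := by
  have hp : p.Prime := Fact.out
  have : FiniteDimensional F E := Module.finite_of_finrank_pos (hdeg ▸ hp.pos)
  have H := kummer_irreducible p x hx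
  have hmin : minpoly F α = X ^ p - C (x : F) := by
    refine (minpoly.eq_of_irreducible_of_monic H ?_ (monic_X_pow_sub_C _ hp.ne_zero)).symm
    simp [hα]
  apply IntermediateField.eq_of_le_of_finrank_eq le_top
  rw [IntermediateField.adjoin.finrank (IsIntegral.of_finite F α), hmin,
    natDegree_X_pow_sub_C, IntermediateField.finrank_top', hdeg]

omit [NumberField F] [NumberField E] [IsGalois F E] in
theorem kummer_isSplittingField {ζ : F} (hζ : IsPrimitiveRoot ζ p) (hdeg : Module.finrank F E = p)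
    (x : Fˣ) (hx : ¬ ∃ y : Fˣ, y ^ p = x) (α : E) (hα : α ^ p = algebraMap F E x) :
    IsSplittingField F E (X ^ p - C (x : F)) := by
  have hp : p.Prime := Fact.out
  have : FiniteDimensional F E := Module.finite_of_finrank_pos (hdeg ▸ hp.pos)
  have hK : (primitiveRoots (Module.finrank F E) F).Nonempty :=
    ⟨ζ, by rw [hdeg]; exact (mem_primitiveRoots hp.pos).mpr hζ⟩
  have := isSplittingField_X_pow_sub_C_of_root_adjoin_eq_top hK (a := (x : F)) (α := α)
    (by rw [hdeg]; exact hα) (kummer_adjoin_eq_top p E hdeg x hx α hα)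
  rwa [hdeg] at this

omit [NumberField F] [NumberField E] in
/-- conversely a cyclic extension of degree `p` is a Kummer extension. -/
theorem exists_kummer_generator {ζ : F} (hζ : IsPrimitiveRoot ζ p)
    (hdeg : Module.finrank F E = p) :
    ∃ (a : Fˣ) (α : E), α ^ p = algebraMap F E a ∧ ¬ ∃ y : Fˣ, y ^ p = a := by
  have hp : p.Prime := Fact.out
  have : FiniteDimensional F E := Module.finite_of_finrank_pos (hdeg ▸ hp.pos)
  have hK : (primitiveRoots (Module.finrank F E) F).Nonempty :=
    ⟨ζ, by rw [hdeg]; exact (mem_primitiveRoots hp.pos).mpr hζ⟩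
  have hcard : Nat.card (E ≃ₐ[F] E) = p := by rw [IsGalois.card_aut_eq_finrank, hdeg]
  have : IsCyclic (E ≃ₐ[F] E) := isCyclic_of_prime_card hcard
  obtain ⟨α, ⟨a, ha⟩, htop⟩ := exists_root_adjoin_eq_top_of_isCyclic F E hK
  rw [hdeg] at ha
  have hirr := irreducible_X_pow_sub_C_of_root_adjoin_eq_top (a := a) (α := α)
    (by rw [hdeg]; exact ha.symm) htop
  rw [hdeg] at hirr
  have hnoroot : ∀ y : F, y ^ p ≠ a := by
    intro y hy'
    have hroot : (X ^ p - C a).IsRoot y := by simp [hy']
    have h1 := degree_eq_one_of_irreducible_of_root hirr hroot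
    rw [degree_X_pow_sub_C hp.pos] at h1
    exact hp.one_lt.ne' (by exact_mod_cast h1)
  have ha0 : a ≠ 0 := by
    rintro rfl
    exact hnoroot 0 (zero_pow hp.ne_zero)
  refine ⟨Units.mk0 a ha0, α, by simpa using ha.symm, ?_⟩
  rintro ⟨y, hy⟩
  exact hnoroot y (by simpa using congrArg Units.val hy)

omit [NumberField F] [NumberField E] [IsGalois F E] in
/-- the generator of the Galois group. -/
theorem exists_gal_smul {ζ : F} (hζ : IsPrimitiveRoot ζ p) (hdeg : Module.finrank F E = p)
    (x : Fˣ) (hx : ¬ ∃ y : Fˣ, y ^ p = x) (α : E) (hα : α ^ p = algebraMap F E x) :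
    ∃ σ : E ≃ₐ[F] E, σ α = algebraMap F E ζ * α ∧ σ ≠ 1 ∧ ∀ τ : E ≃ₐ[F] E, ∃ k : ℕ, τ = σ ^ k := by
  have hp : p.Prime := Fact.out
  have H := kummer_irreducible p x hx
  have := kummer_isSplittingField p E hζ hdeg x hx α hα
  have : NeZero p := ⟨hp.ne_zero⟩
  set e := autEquivZmod H E hζ with he
  have h1 : e.symm (Multiplicative.ofAdd ((1 : ℕ) : ZMod p)) α = algebraMap F E ζ * α := by
    have := autEquivZmod_symm_apply_natCast H E hα hζ 1
    rw [pow_one, Algebra.smul_def] at this
    exact this
  have hα0 : α ≠ 0 := by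
    rintro rfl
    rw [zero_pow hp.ne_zero] at hα
    exact x.ne_zero ((map_eq_zero _).mp hα.symm)
  refine ⟨e.symm (Multiplicative.ofAdd ((1 : ℕ) : ZMod p)), h1, ?_, fun τ => ?_⟩
  · intro h
    rw [h, AlgEquiv.one_apply] at h1
    have h2 : algebraMap F E ζ = 1 := by
      have : (algebraMap F E ζ - 1) * α = 0 := by rw [sub_mul, one_mul, ← h1, sub_self]
      exact sub_eq_zero.mp ((mul_eq_zero.mp this).resolve_right hα0)
    have h3 : ζ = 1 := (algebraMap F E).injective (by rw [h2, map_one])
    exact hζ.ne_one hp.one_lt h3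
  · refine ⟨(Multiplicative.toAdd (e τ)).val, ?_⟩
    apply e.injective
    rw [map_pow, MulEquiv.apply_symm_apply]
    apply Multiplicative.toAdd.injective
    rw [toAdd_pow, toAdd_ofAdd]
    simp

/-- `N α = x` (`p` odd). -/
theorem norm_kummer_root (hp2 : p ≠ 2) {ζ : F} (hζ : IsPrimitiveRoot ζ p)
    (hdeg : Module.finrank F E = p)
    (x : Fˣ) (hx : ¬ ∃ y : Fˣ, y ^ p = x) (α : E) (hα : α ^ p = algebraMap F E x) :
    Algebra.norm F α = x := by
  have hp : p.Prime := Fact.out
  have H := kummer_irreducible p x hx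
  have htop := kummer_adjoin_eq_top p E hdeg x hx α hα
  have hmin : minpoly F α = X ^ p - C (x : F) := by
    refine (minpoly.eq_of_irreducible_of_monic H ?_ (monic_X_pow_sub_C _ hp.ne_zero)).symm
    simp [hα]
  have hint : IsIntegral F α := IsIntegral.of_finite F α
  have h := Algebra.norm_eq_norm_adjoin F α
  have hfr : Module.finrank (IntermediateField.adjoin F {α}) E = 1 := by
    rw [htop]; exact IntermediateField.finrank_top
  rw [hfr, pow_one] at h
  have h2 := Algebra.PowerBasis.norm_gen_eq_coeff_zero_minpoly (IntermediateField.adjoin.powerBasis hint)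
  rw [IntermediateField.adjoin.powerBasis_gen, IntermediateField.adjoin.powerBasis_dim,
    IntermediateField.minpoly_gen, hmin, natDegree_X_pow_sub_C] at h2
  rw [h, h2]
  have hodd : Odd p := hp.odd_of_ne_two hp2
  simp [hodd.neg_one_pow, hp.ne_zero.symm]

end Fermat.Agent.S55.INEQ
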