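import Fermat.Agent.S55.INEQ.Val2
import Fermat.Agent.S55.INEQ.Kummer
import Fermat.Agent.S55.INEQ.Residue

/-!
# S55-INEQ : the tame symbol kills norms
-/

set_option autoImplicit false

open IsDedekindDomain NumberField

namespace Fermat.Agent.S55.INEQ

variable (p : ℕ) [Fact p.Prime] {F : Type*} [Field F] [NumberField F]

/-- the order at `w` : `w.valuation x = exp (- ordW w x)`. -/
noncomputable def ordW (w : HeightOneSpectrum (𝓞 F)) (x : Fˣ) : ℤ :=
  - WithZero.log (w.valuation F (x : F))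

theorem tame_val_ne_zero (w : HeightOneSpectrum (𝓞 F)) (x : Fˣ) :
    w.valuation F (x : F) ≠ 0 :=
  (Valuation.ne_zero_iff _).2 x.ne_zero

theorem valuation_eq_exp_ordW (w : HeightOneSpectrum (𝓞 F)) (x : Fˣ) :
    w.valuation F (x : F) = WithZero.exp (- ordW w x) := by
  rw [ordW, neg_neg, WithZero.exp_log (tame_val_ne_zero w x)]

theorem ordW_mul (w : HeightOneSpectrum (𝓞 F)) (x y : Fˣ) :
    ordW w (x * y) = ordW w x + ordW w y := by
  rw [ordW, ordW, ordW, Units.val_mul, map_mul,
    WithZero.log_mul (tame_val_ne_zero w x) (tame_val_ne_zero w y)]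
  ring

theorem ordW_eq_zero_iff (w : HeightOneSpectrum (𝓞 F)) (x : Fˣ) :
    ordW w x = 0 ↔ w.valuation F (x : F) = 1 := by
  constructor
  · intro h
    rw [valuation_eq_exp_ordW, h, neg_zero, WithZero.exp_zero]
  · intro h
    rw [ordW, h, WithZero.log_one, neg_zero]

/-- `ordW` as a homomorphism. -/
noncomputable def tameOrdHom (w : HeightOneSpectrum (𝓞 F)) : Fˣ →* Multiplicative ℤ where
  toFun x := Multiplicative.ofAdd (ordW w x)
  map_one' := by
    rw [(ordW_eq_zero_iff w 1).2 (by simp)]; rfl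
  map_mul' x y := by rw [ordW_mul]; rfl

theorem tame_ordW_one (w : HeightOneSpectrum (𝓞 F)) : ordW w (1 : Fˣ) = 0 :=
  (ordW_eq_zero_iff w 1).2 (by simp)

theorem tame_ordW_inv (w : HeightOneSpectrum (𝓞 F)) (x : Fˣ) : ordW w x⁻¹ = - ordW w x := by
  have h := ordW_mul w x x⁻¹
  rw [mul_inv_cancel, tame_ordW_one] at h
  linarith

theorem tame_ordW_div (w : HeightOneSpectrum (𝓞 F)) (x y : Fˣ) :
    ordW w (x / y) = ordW w x - ordW w y := by
  rw [div_eq_mul_inv, ordW_mul, tame_ordW_inv]; ring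

theorem tame_ordW_zpow (w : HeightOneSpectrum (𝓞 F)) (x : Fˣ) (n : ℤ) :
    ordW w (x ^ n) = n * ordW w x := by
  have h := map_zpow (tameOrdHom w) x n
  have h2 : Multiplicative.toAdd (tameOrdHom w (x ^ n)) = ordW w (x ^ n) := rfl
  rw [← h2, h, toAdd_zpow]
  rfl

theorem tame_ordW_pow (w : HeightOneSpectrum (𝓞 F)) (x : Fˣ) (n : ℕ) :
    ordW w (x ^ n) = n * ordW w x := by
  rw [← zpow_natCast, tame_ordW_zpow]

/-- the kernel of the tame symbol `b ↦ (b, x)_w = class of b^(ord x) / x^(ord b)` in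
`k(w)ˣ / p`. -/
def tameKer (w : HeightOneSpectrum (𝓞 F)) (x : Fˣ) : Subgroup Fˣ where
  carrier := {b | IsPowMod p w (b ^ ordW w x / x ^ ordW w b)}
  one_mem' := by
    show IsPowMod p w ((1 : Fˣ) ^ ordW w x / x ^ ordW w (1 : Fˣ))
    rw [tame_ordW_one, one_zpow, zpow_zero, div_one]
    exact Subgroup.one_mem _
  mul_mem' := by
    intro a b ha hb
    show IsPowMod p w ((a * b) ^ ordW w x / x ^ ordW w (a * b))
    have e : (a * b) ^ ordW w x / x ^ ordW w (a * b)
        = (a ^ ordW w x / x ^ ordW w a) * (b ^ ordW w x / x ^ ordW w b) := by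
      rw [ordW_mul, mul_zpow, zpow_add, div_mul_div_comm]
    rw [e]
    exact Subgroup.mul_mem _ ha hb
  inv_mem' := by
    intro a ha
    show IsPowMod p w (a⁻¹ ^ ordW w x / x ^ ordW w a⁻¹)
    have e : a⁻¹ ^ ordW w x / x ^ ordW w a⁻¹ = (a ^ ordW w x / x ^ ordW w a)⁻¹ := by
      rw [tame_ordW_inv, inv_zpow, zpow_neg, inv_div_inv, inv_div]
    rw [e]
    exact Subgroup.inv_mem _ ha

variable (E : Type*) [Field E] [NumberField E] [Algebra F E]

theorem tame_prod_sub_pow {K Γ : Type*} [Field K] [LinearOrderedCommGroupWithZero Γ]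
    (v : Valuation K Γ) {ι : Type*} (s : Finset ι) (t : ι → K) (c : K) (hc : v c ≤ 1)
    (h : ∀ i ∈ s, v (t i - c) < 1) :
    v (∏ i ∈ s, t i) ≤ 1 ∧ v (∏ i ∈ s, t i - c ^ s.card) < 1 := by
  classical
  induction s using Finset.induction_on with
  | empty => simp
  | insert a s ha ih =>
    obtain ⟨h1, h2⟩ := ih fun i hi => h i (Finset.mem_insert_of_mem hi)
    have hta : v (t a - c) < 1 := h a (Finset.mem_insert_self _ _)
    have hta1 : v (t a) ≤ 1 := by
      have : t a = (t a - c) + c := by ring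
      rw [this]
      exact (v.map_add _ _).trans (max_le hta.le hc)
    rw [Finset.prod_insert ha, Finset.card_insert_of_notMem ha]
    refine ⟨by rw [map_mul]; exact mul_le_one' hta1 h1, ?_⟩
    have e : t a * ∏ i ∈ s, t i - c ^ (s.card + 1)
        = (t a - c) * ∏ i ∈ s, t i + c * (∏ i ∈ s, t i - c ^ s.card) := by ring
    rw [e]
    refine Valuation.map_add_lt _ ?_ ?_
    · rw [map_mul]
      exact lt_of_le_of_lt (mul_le_of_le_one_right' h1) hta
    · rw [map_mul]
      exact lt_of_le_of_lt (mul_le_of_le_one_left' hc) h2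

theorem tame_residue_surj {p : ℕ} (hp : p.Prime) (hdeg : Module.finrank F E = p)
    (P : HeightOneSpectrum (𝓞 E))
    (he : p ∣ (P.under (𝓞 F)).asIdeal.ramificationIdx' P.asIdeal) (a : 𝓞 E) :
    ∃ c : 𝓞 F, a - algebraMap (𝓞 F) (𝓞 E) c ∈ P.asIdeal := by
  set w := P.under (𝓞 F) with hw
  have : P.asIdeal.LiesOver w.asIdeal := ⟨rfl⟩
  have : w.asIdeal.IsMaximal := w.isMaximal
  have hsum := Ideal.sum_ramification_inertia (R := 𝓞 F) (S := 𝓞 E) F E (p := w.asIdeal) w.ne_bot
  have hmem : P.asIdeal ∈ IsDedekindDomain.primesOverFinset w.asIdeal (𝓞 E) := by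
    rw [IsDedekindDomain.mem_primesOverFinset_iff w.ne_bot]
    exact ⟨P.isPrime, inferInstance⟩
  have hle := Finset.single_le_sum (f := fun Q : Ideal (𝓞 E) =>
    w.asIdeal.ramificationIdx' Q * w.asIdeal.inertiaDeg' Q) (fun _ _ => Nat.zero_le _) hmem
  rw [hsum, hdeg] at hle
  have he0 : w.asIdeal.ramificationIdx' P.asIdeal ≠ 0 :=
    Ideal.IsDedekindDomain.ramificationIdx'_ne_zero_of_liesOver P.asIdeal w.ne_bot
  have hpe : p ≤ w.asIdeal.ramificationIdx' P.asIdeal := Nat.le_of_dvd (Nat.pos_of_ne_zero he0) he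
  have hf : w.asIdeal.inertiaDeg' P.asIdeal ≤ 1 := by
    by_contra hcon
    push Not at hcon
    have : p * 2 ≤ w.asIdeal.ramificationIdx' P.asIdeal * w.asIdeal.inertiaDeg' P.asIdeal :=
      Nat.mul_le_mul hpe hcon
    have := hp.pos
    omega
  rw [Ideal.inertiaDeg'_algebraMap] at hf
  let _ : Field (𝓞 F ⧸ w.asIdeal) := Ideal.Quotient.field _
  have hfin : Module.Finite (𝓞 F ⧸ w.asIdeal) (𝓞 E ⧸ P.asIdeal) := inferInstance
  obtain ⟨v, hv⟩ := finrank_le_one_iff.1 hf
  have : Nontrivial (𝓞 E ⧸ P.asIdeal) := Ideal.Quotient.nontrivial_iff.2 P.isPrime.ne_top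
  obtain ⟨c1, hc1⟩ := hv 1
  obtain ⟨c2, hc2⟩ := hv (Ideal.Quotient.mk P.asIdeal a)
  have hc10 : c1 ≠ 0 := by
    rintro rfl
    rw [zero_smul] at hc1
    exact zero_ne_one hc1
  have hv1 : v = c1⁻¹ • (1 : 𝓞 E ⧸ P.asIdeal) := by
    rw [← hc1, smul_smul, inv_mul_cancel₀ hc10, one_smul]
  obtain ⟨c, hc⟩ := Ideal.Quotient.mk_surjective (c2 * c1⁻¹)
  refine ⟨c, ?_⟩
  rw [← Ideal.Quotient.eq, ← hc2, hv1, smul_smul, ← hc, Algebra.smul_def, mul_one]
  rfl

variable [IsGalois F E]

/-- **the tame symbol kills norms** from `E = F(x^(1/p))` at a nonsplit prime `w ∤ p`. -/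
theorem normU_mem_tameKer (hp2 : p ≠ 2) {ζ : F} (hζ : IsPrimitiveRoot ζ p)
    (hdeg : Module.finrank F E = p)
    (x : Fˣ) (hx : ¬ ∃ y : Fˣ, y ^ p = x) (α : E) (hα : α ^ p = algebraMap F E x)
    (w : HeightOneSpectrum (𝓞 F)) (hwp : w.valuation F (p : F) = 1) (hw : Nonsplit E w)
    (y : Eˣ) : normU F E y ∈ tameKer p w x := by
  have hp : p.Prime := Fact.out
  obtain ⟨P, hP⟩ := exists_under_eq E w
  subst hP
  have hlo : P.asIdeal.LiesOver (P.under (𝓞 F)).asIdeal := ⟨rfl⟩
  set w := P.under (𝓞 F) with hwdef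
  set e := w.asIdeal.ramificationIdx' P.asIdeal with hedef
  have hval : ∀ a : F, w.valuation F a ^ e = P.valuation E (algebraMap F E a) :=
    fun a => HeightOneSpectrum.valuation_liesOver E w P a
  have he0 : e ≠ 0 := Ideal.IsDedekindDomain.ramificationIdx'_ne_zero_of_liesOver P.asIdeal w.ne_bot
  have hord : ∀ a : Fˣ, ordW P (Units.map (algebraMap F E : F →* E) a) = e * ordW w a := by
    intro a
    rw [ordW, ordW]
    have : ((Units.map (algebraMap F E : F →* E) a : Eˣ) : E) = algebraMap F E (a : F) := rfl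
    rw [this, ← hval, WithZero.log_pow]
    simp
  have hgal : ∀ σ : E ≃ₐ[F] E, galMap σ P = P := galMap_eq_of_nonsplit hw P rfl
  have hcard : Fintype.card (E ≃ₐ[F] E) = p := by
    rw [← Nat.card_eq_fintype_card, IsGalois.card_aut_eq_finrank, hdeg]
  have hN : ordW P (Units.map (algebraMap F E : F →* E) (normU F E y)) = p * ordW P y := by
    rw [ordW, ordW]
    have : ((Units.map (algebraMap F E : F →* E) (normU F E y) : Eˣ) : E)
        = algebraMap F E (Algebra.norm F (y : E)) := rfl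
    rw [this, valuation_algebraMap_norm]
    simp only [hgal, Finset.prod_const, Finset.card_univ, hcard, WithZero.log_pow]
    simp
  have hα0 : α ≠ 0 := by
    rintro rfl
    rw [zero_pow hp.ne_zero] at hα
    exact x.ne_zero ((map_eq_zero _).1 hα.symm)
  set αu : Eˣ := Units.mk0 α hα0 with hαu
  have hαp : αu ^ p = Units.map (algebraMap F E : F →* E) x := Units.ext (by rw [Units.val_pow_eq_pow_val]; exact hα)
  have hNα : normU F E αu = x := Units.ext (norm_kummer_root p E hp2 hζ hdeg x hx α hα)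
  set r := ordW w x with hr
  set s := ordW w (normU F E y) with hs
  set m := ordW P y with hm
  set a := ordW P αu with ha
  have h1 : (e : ℤ) * s = p * m := by rw [← hord, hN]
  have h2 : (p : ℤ) * a = e * r := by rw [← hord, ← hαp, tame_ordW_pow]
  have hpZ : Prime (p : ℤ) := Nat.prime_iff_prime_int.1 hp
  show IsPowMod p w (normU F E y ^ r / x ^ s)
  by_cases hpe : p ∣ e
  · -- totally ramified case
    set z : Eˣ := y ^ r / αu ^ s with hz
    have hzN : normU F E z = normU F E y ^ r / x ^ s := by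
      rw [hz, map_div, map_zpow, map_zpow, hNα]
    have hz0 : ordW P z = 0 := by
      have h3 : (p : ℤ) * ordW P z = 0 := by
        rw [hz, tame_ordW_div, tame_ordW_zpow, tame_ordW_zpow, ← hm, ← ha]
        linear_combination -r * h1 - s * h2
      rcases mul_eq_zero.1 h3 with h4 | h4
      · exact absurd h4 (by exact_mod_cast hp.ne_zero)
      · exact h4
    have hz1 : P.valuation E (z : E) = 1 := (ordW_eq_zero_iff P z).1 hz0
    obtain ⟨b, hb⟩ := P.exists_valuation_sub_lt_of_integer (K := E) hz1.le 1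
    obtain ⟨c₀, hc₀⟩ := tame_residue_surj E hp hdeg P hpe b
    set c : F := algebraMap (𝓞 F) F c₀ with hc
    have hcE : algebraMap F E c = algebraMap (𝓞 E) E (algebraMap (𝓞 F) (𝓞 E) c₀) := by
      rw [hc, ← IsScalarTower.algebraMap_apply, ← IsScalarTower.algebraMap_apply]
    have hzc : P.valuation E ((z : E) - algebraMap F E c) < 1 := by
      have e1 : (z : E) - algebraMap F E c
          = - (algebraMap (𝓞 E) E b - (z : E)) + algebraMap (𝓞 E) E (b - algebraMap (𝓞 F) (𝓞 E) c₀) := by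
        rw [hcE, map_sub]; ring
      rw [e1]
      refine Valuation.map_add_lt _ ?_ ?_
      · rw [Valuation.map_neg]; simpa using hb
      · exact (P.valuation_lt_one_iff_mem _).2 hc₀
    have hcP : P.valuation E (algebraMap F E c) = 1 := by
      have e2 : algebraMap F E c = (z : E) + - ((z : E) - algebraMap F E c) := by ring
      rw [e2, Valuation.map_add_eq_of_lt_left, hz1]
      rw [Valuation.map_neg, hz1]; exact hzc
    have hcw : w.valuation F c = 1 := by
      have := hval c
      rw [hcP] at this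
      rcases lt_trichotomy (w.valuation F c) 1 with h | h | h
      · exact absurd this (pow_lt_one₀ zero_le h he0).ne
      · exact h
      · exact absurd this (one_lt_pow₀ h he0).ne'
    have hc0 : c ≠ 0 := by
      intro h0
      rw [h0, map_zero] at hcw
      exact zero_ne_one hcw
    have hσ : ∀ σ ∈ (Finset.univ : Finset (E ≃ₐ[F] E)),
        P.valuation E (σ (z : E) - algebraMap F E c) < 1 := by
      intro σ _
      have h5 := valuation_galMap σ P ((z : E) - algebraMap F E c)
      rw [hgal σ, map_sub, AlgEquiv.commutes] at h5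
      rw [h5]; exact hzc
    have h6 := (tame_prod_sub_pow (P.valuation E) Finset.univ (fun σ : E ≃ₐ[F] E => σ (z : E))
      (algebraMap F E c) hcP.le hσ).2
    rw [← Algebra.norm_eq_prod_automorphisms, Finset.card_univ, hcard, ← map_pow, ← map_sub,
      ← hval] at h6
    have h7 : w.valuation F (Algebra.norm F (z : E) - c ^ p) < 1 := by
      by_contra hcon
      push Not at hcon
      exact absurd h6 (not_lt.2 (one_le_pow₀ hcon))
    set cu : Fˣ := Units.mk0 c hc0 with hcu
    rw [← hzN]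
    have h8 : normU F E z = cu ^ p * (normU F E z / cu ^ p) := by
      rw [mul_div_cancel]
    rw [h8]
    refine Subgroup.mul_mem _ (isPowMod_pow p w cu) (Subgroup.mem_sup_right ?_)
    rw [mem_princ]
    have h9 : ((normU F E z / cu ^ p : Fˣ) : F) - 1
        = (Algebra.norm F (z : E) - c ^ p) * (c ^ p)⁻¹ := by
      have : ((normU F E z / cu ^ p : Fˣ) : F) = Algebra.norm F (z : E) / c ^ p := by
        rw [Units.val_div_eq_div_val, Units.val_pow_eq_pow_val]; rfl
      rw [this]
      field_simp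
    rw [h9, map_mul, map_inv₀, map_pow, hcw, one_pow, inv_one, mul_one]
    simpa using h7
  · -- `p ∤ e` : both orders are divisible by `p`
    have hpe' : ¬ (p : ℤ) ∣ (e : ℤ) := fun h => hpe (Int.natCast_dvd_natCast.1 h)
    have hr' : (p : ℤ) ∣ r := (hpZ.dvd_or_dvd (Dvd.intro _ h2)).resolve_left hpe'
    have hs' : (p : ℤ) ∣ s := (hpZ.dvd_or_dvd (Dvd.intro _ h1.symm)).resolve_left hpe'
    obtain ⟨r', hr''⟩ := hr'
    obtain ⟨s', hs''⟩ := hs'
    have : normU F E y ^ r / x ^ s = (normU F E y ^ r' / x ^ s') ^ p := by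
      rw [hr'', hs'', mul_comm (p : ℤ) r', mul_comm (p : ℤ) s', zpow_mul, zpow_mul, zpow_natCast,
        zpow_natCast, div_pow]
    rw [this]
    exact isPowMod_pow p w _

end Fermat.Agent.S55.INEQ
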