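import Fermat.Agent.S55.INEQ.FirstIneq
import Fermat.Agent.S55.INEQ.Tame
import Fermat.Agent.S55.INEQ.AuxPrimes

/-!
# S55-INEQ : Chevalley's key lemma
-/

set_option autoImplicit false

open IsDedekindDomain NumberField

namespace Fermat.Agent.S55.INEQ

/-! ### generic index lemmas -/

/-- if `G / K` is killed by `p` and `H ⊄ K` then `p ∣ [H : H ∩ K]`. -/
theorem Key_dvd_relIndex {G : Type*} [CommGroup G] {p : ℕ} (hp : p.Prime) (K H : Subgroup G)
    (hpow : ∀ g : G, g ^ p ∈ K) {a : G} (haH : a ∈ H) (haK : a ∉ K) : p ∣ K.relIndex H := by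
  by_cases h0 : K.relIndex H = 0
  · rw [h0]; exact dvd_zero p
  have : Fact p.Prime := ⟨hp⟩
  have hfi : (K.subgroupOf H).FiniteIndex := ⟨h0⟩
  have hpg : IsPGroup p (↥H ⧸ K.subgroupOf H) := by
    intro q
    refine ⟨1, ?_⟩
    induction q using QuotientGroup.induction_on with
    | H g =>
      rw [pow_one, ← QuotientGroup.mk_pow, QuotientGroup.eq_one_iff]
      exact hpow g
  obtain ⟨n, hn⟩ := IsPGroup.iff_card.mp hpg
  have hn' : K.relIndex H = p ^ n := hn
  rw [hn']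
  rcases Nat.eq_zero_or_pos n with rfl | hpos
  · rw [pow_zero, Subgroup.relIndex_eq_one] at hn'
    exact absurd (hn' haH) haK
  · exact dvd_pow_self p hpos.ne'

/-- independence modulo a family of subgroups containing the `p`-th powers. -/
theorem Key_pow_dvd_relIndex {G ι : Type*} [CommGroup G] {p : ℕ} (hp : p.Prime)
    (A B : Subgroup G) (K : ι → Subgroup G) (s : Finset ι)
    (hpow : ∀ i ∈ s, ∀ g : G, g ^ p ∈ K i)
    (h : ∀ i ∈ s, ∃ a ∈ A ⊓ B, a ∉ K i ∧ ∀ j ∈ s, j ≠ i → a ∈ K j) :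
    p ^ s.card * B.relIndex A ∣ (B ⊓ ⨅ i ∈ s, K i).relIndex A := by
  classical
  induction s using Finset.induction_on with
  | empty => simp
  | insert i s his ih =>
    have ih' := ih (fun j hj => hpow j (Finset.mem_insert_of_mem hj)) (fun j hj => by
      obtain ⟨a, ha, h1, h2⟩ := h j (Finset.mem_insert_of_mem hj)
      exact ⟨a, ha, h1, fun j' hj' hne => h2 j' (Finset.mem_insert_of_mem hj') hne⟩)
    obtain ⟨a, ha, h1, h2⟩ := h i (Finset.mem_insert_self i s)
    have hC : B ⊓ ⨅ j ∈ insert i s, K j = K i ⊓ (B ⊓ ⨅ j ∈ s, K j) := by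
      rw [Finset.iInf_insert, inf_left_comm]
    rw [hC, ← Subgroup.relIndex_inf_mul_relIndex, Finset.card_insert_of_notMem his, pow_succ',
      mul_assoc]
    refine mul_dvd_mul (Key_dvd_relIndex hp (K i) _ (hpow i (Finset.mem_insert_self i s))
      (a := a) ?_ h1) ih'
    refine ⟨⟨ha.2, ?_⟩, ha.1⟩
    refine Subgroup.mem_iInf.2 fun j => Subgroup.mem_iInf.2 fun hj => ?_
    exact h2 j (Finset.mem_insert_of_mem hj) (fun hji => his (hji ▸ hj))

variable (p : ℕ) [Fact p.Prime] {F : Type*} [Field F] [NumberField F]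

/-! ### a unit which is not a `p`-th power modulo `w` -/

theorem Key_exists_not_isPowMod {ζ : F} (hζ : IsPrimitiveRoot ζ p)
    (w : HeightOneSpectrum (𝓞 F)) (hwp : w.valuation F (p : F) = 1) :
    ∃ u : Fˣ, w.valuation F (u : F) = 1 ∧ ¬ IsPowMod p w u := by
  classical
  have hp : p.Prime := Fact.out
  have hmax : w.asIdeal.IsMaximal := w.isMaximal
  let _ : Field (𝓞 F ⧸ w.asIdeal) := Ideal.Quotient.field w.asIdeal
  have hfin : Finite (𝓞 F ⧸ w.asIdeal) := Ideal.finiteQuotientOfFreeOfNeBot w.asIdeal w.ne_bot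
  -- `ζ` as an integer
  have hζint : IsIntegral ℤ ζ := hζ.isIntegral hp.pos
  set ζ' : 𝓞 F := ⟨ζ, hζint⟩ with hζ'
  have hcoe : algebraMap (𝓞 F) F ζ' = ζ := rfl
  have hinj : Function.Injective (algebraMap (𝓞 F) F) := FaithfulSMul.algebraMap_injective _ _
  have hζ'pow : ζ' ^ p = 1 := by
    apply hinj
    rw [map_pow, map_one, hcoe, hζ.pow_eq_one]
  have hgeom : ∑ i ∈ Finset.range p, ζ' ^ i = 0 := by
    apply hinj
    rw [map_sum, map_zero]
    simp only [map_pow, hcoe]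
    exact hζ.geom_sum_eq_zero hp.one_lt
  have hne : Ideal.Quotient.mk w.asIdeal ζ' ≠ 1 := by
    intro h
    have h1 := congrArg (Ideal.Quotient.mk w.asIdeal) hgeom
    rw [map_sum] at h1
    simp only [map_pow, h, one_pow, Finset.sum_const, Finset.card_range, nsmul_eq_mul, mul_one,
      map_zero] at h1
    have hmem : (p : 𝓞 F) ∈ w.asIdeal := by
      rw [← Ideal.Quotient.eq_zero_iff_mem, map_natCast]
      exact h1
    have h2 := (w.valuation_lt_one_iff_mem (K := F) (p : 𝓞 F)).2 hmem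
    change w.valuation F (algebraMap (𝓞 F) F (p : 𝓞 F)) < 1 at h2
    rw [map_natCast, hwp] at h2
    exact lt_irrefl _ h2
  have hninj : ¬ Function.Injective (fun t : 𝓞 F ⧸ w.asIdeal => t ^ p) := by
    intro hinj
    apply hne
    apply hinj
    simp [← map_pow, hζ'pow]
  have hnsurj : ¬ Function.Surjective (fun t : 𝓞 F ⧸ w.asIdeal => t ^ p) :=
    fun h => hninj (Finite.injective_iff_surjective.2 h)
  rw [Function.Surjective] at hnsurj
  push Not at hnsurj
  obtain ⟨ū, hū⟩ := hnsurj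
  obtain ⟨u₀, rfl⟩ := Ideal.Quotient.mk_surjective ū
  have hu₀w : u₀ ∉ w.asIdeal := by
    intro h
    apply hū 0
    simp [Ideal.Quotient.eq_zero_iff_mem.2 h, hp.ne_zero]
  have hu₀v : w.valuation F (algebraMap (𝓞 F) F u₀) = 1 :=
    w.valuation_eq_one_iff_notMem.2 hu₀w
  have hu₀0 : algebraMap (𝓞 F) F u₀ ≠ 0 := by
    intro h
    rw [h, map_zero] at hu₀v
    exact zero_ne_one hu₀v
  refine ⟨Units.mk0 _ hu₀0, hu₀v, ?_⟩
  intro hpm
  obtain ⟨a, ⟨y, rfl⟩, b, hb, hab⟩ := Subgroup.mem_sup.1 hpm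
  have hab' : (y : F) ^ p * (b : F) = algebraMap (𝓞 F) F u₀ := by
    have := congrArg (fun t : Fˣ => (t : F)) hab
    simpa using this
  have hb1 : w.valuation F ((b : F) - 1) < 1 := by
    have : w.valuation F ((b : F) - 1) < WithZero.exp (-((0 : ℕ) : ℤ)) := hb
    simpa using this
  have hbv : w.valuation F (b : F) = 1 := val_eq_one_of_sub_one_lt w hb
  have hyv : w.valuation F (y : F) = 1 := by
    have := congrArg (w.valuation F) hab'
    rw [map_mul, map_pow, hbv, mul_one, hu₀v] at this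
    exact (pow_eq_one_iff.1 this).resolve_right hp.ne_zero
  obtain ⟨n, d, hnd⟩ := w.exists_primeCompl_mul_eq_of_integer (y : F) hyv.le
  have hkey : algebraMap (𝓞 F) F (u₀ * (d : 𝓞 F) ^ p - n ^ p) =
      algebraMap (𝓞 F) F n ^ p * ((b : F) - 1) := by
    rw [map_sub, map_mul, map_pow, map_pow, ← hab', ← hnd]
    ring
  have hmem : u₀ * (d : 𝓞 F) ^ p - n ^ p ∈ w.asIdeal := by
    rw [← w.valuation_lt_one_iff_mem (K := F)]
    change w.valuation F (algebraMap (𝓞 F) F (u₀ * (d : 𝓞 F) ^ p - n ^ p)) < 1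
    rw [hkey, map_mul, map_pow]
    calc w.valuation F (algebraMap (𝓞 F) F n) ^ p * w.valuation F ((b : F) - 1)
        ≤ 1 * w.valuation F ((b : F) - 1) :=
          mul_le_mul_left (pow_le_one' (w.valuation_le_one n) p) _
      _ < 1 := by rwa [one_mul]
  have hd0 : Ideal.Quotient.mk w.asIdeal (d : 𝓞 F) ≠ 0 := by
    rw [Ne, Ideal.Quotient.eq_zero_iff_mem]
    exact d.2
  apply hū (Ideal.Quotient.mk w.asIdeal n / Ideal.Quotient.mk w.asIdeal (d : 𝓞 F))
  have h3 : Ideal.Quotient.mk w.asIdeal u₀ * Ideal.Quotient.mk w.asIdeal (d : 𝓞 F) ^ p =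
      Ideal.Quotient.mk w.asIdeal n ^ p := by
    rw [← map_pow, ← map_pow, ← map_mul, Ideal.Quotient.eq]
    exact hmem
  change (Ideal.Quotient.mk w.asIdeal n / Ideal.Quotient.mk w.asIdeal (d : 𝓞 F)) ^ p = _
  rw [div_pow, ← h3, mul_div_cancel_right₀ _ (pow_ne_zero p hd0)]

/-! ### auxiliary facts on `ordW`, `tameKer` -/

theorem Key_ordW_one (w : HeightOneSpectrum (𝓞 F)) : ordW w (1 : Fˣ) = 0 := by
  rw [ordW_eq_zero_iff]; simp

theorem Key_ordW_pow (w : HeightOneSpectrum (𝓞 F)) (x : Fˣ) (n : ℕ) :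
    ordW w (x ^ n) = n * ordW w x := by
  induction n with
  | zero => simp [Key_ordW_one]
  | succ n ih => rw [pow_succ, ordW_mul, ih]; push_cast; ring

omit [Fact p.Prime] in
theorem Key_mem_tameKer {w : HeightOneSpectrum (𝓞 F)} {x b : Fˣ} :
    b ∈ tameKer p w x ↔ IsPowMod p w (b ^ ordW w x / x ^ ordW w b) := Iff.rfl

theorem Key_pow_mem_tameKer (w : HeightOneSpectrum (𝓞 F)) (x b : Fˣ) :
    b ^ p ∈ tameKer p w x := by
  rw [Key_mem_tameKer, Key_ordW_pow]
  have : (b ^ p) ^ ordW w x / x ^ ((p : ℤ) * ordW w b) = (b ^ ordW w x / x ^ ordW w b) ^ p := by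
    rw [div_pow, ← zpow_natCast (b ^ ordW w x) p, ← zpow_natCast (x ^ ordW w b) p, ← zpow_mul,
      ← zpow_mul, ← zpow_natCast b p, ← zpow_mul, mul_comm (p : ℤ), mul_comm (p : ℤ)]
  rw [this]
  exact isPowMod_pow p w _

theorem Key_isPowMod_zpow_mul (w : HeightOneSpectrum (𝓞 F)) (b : Fˣ) (m : ℤ) :
    IsPowMod p w (b ^ ((p : ℤ) * m)) := by
  have : b ^ ((p : ℤ) * m) = (b ^ m) ^ p := by
    rw [← zpow_natCast (b ^ m) p, ← zpow_mul, mul_comm]
  rw [this]
  exact isPowMod_pow p w _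

/-- **Key lemma**: `x ∈ F_{T ∪ T*}` which is a local `p`-th power at all `w ∈ T` is a `p`-th
power. (With `Ts = ∅` : a `T`-unit which is a local `p`-th power on `T` is a `p`-th power.) -/
theorem key_lemma (hp2 : p ≠ 2) {ζ : F} (hζ : IsPrimitiveRoot ζ p)
    {T Ts : Set (HeightOneSpectrum (𝓞 F))} (hT : T.Finite) (hTp : ContainsP p T)
    (hTpr : PrincipalOutside T) (hTs : Ts.Finite) (hsurj : SurjOn p T Ts)
    (x : Fˣ) (hx : x ∈ (T ∪ Ts).unit F) (hloc : ∀ w ∈ T, x ∈ locPow p w) :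
    ∃ y : Fˣ, y ^ p = x := by
  classical
  by_contra hx'
  have hp : p.Prime := Fact.out
  obtain ⟨E, _, _, _, hGal, hdeg, α, hα⟩ := exists_kummer p hζ x hx'
  have hT₁p : ContainsP p (T ∪ Ts) := fun v hv => hTp v (fun h => hv (Or.inl h))
  have hunr : UnramOutside E (T ∪ Ts) := unramOutside_kummer p E hζ hdeg x hx' α hα hT₁p hx
  obtain ⟨T'', hsub, hL⟩ := exists_large E p hp.ne_zero (T ∪ Ts) (hT.union hTs) hunr
  have hI1 := relIndex_norm_unit p E hp2 hζ hdeg hL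
  have hTT'' : T ⊆ T'' := fun v hv => hsub (Or.inl hv)
  have hZfin : {w ∈ T'' | Nonsplit E w}.Finite := hL.finite.subset (fun w hw => hw.1)
  set Z : Finset (HeightOneSpectrum (𝓞 F)) := hZfin.toFinset with hZ
  have hZmem : ∀ w, w ∈ Z ↔ w ∈ T'' ∧ Nonsplit E w := by
    intro w
    rw [hZ, Set.Finite.mem_toFinset]
    exact Iff.rfl
  have hZcard : {w ∈ T'' | Nonsplit E w}.ncard = Z.card := Set.ncard_eq_toFinset_card _ hZfin
  -- facts on `Z`
  have hZT : ∀ w ∈ Z, w ∉ T := fun w hw hwT =>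
    not_nonsplit_of_mem_locPow p E hζ hdeg x hx' α hα w (hloc w hwT) ((hZmem w).1 hw).2
  have hZp : ∀ w ∈ Z, w.valuation F (p : F) = 1 := fun w hw => hTp w (hZT w hw)
  have hZx : ∀ w ∈ Z, ¬ IsPowMod p w x := fun w hw h =>
    not_nonsplit_of_isPowMod p E hζ hdeg x hx' α hα w (hZp w hw) h ((hZmem w).1 hw).2
  set A : Subgroup Fˣ := T''.unit F with hA
  set N : Subgroup Fˣ := ((above E T'').unit E).map (normU F E) with hN
  set K : HeightOneSpectrum (𝓞 F) → Subgroup Fˣ := fun w => tameKer p w x with hK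
  set Z₁ : Finset (HeightOneSpectrum (𝓞 F)) := Z.filter (fun w => (p : ℤ) ∣ ordW w x) with hZ₁
  set Z₂ : Finset (HeightOneSpectrum (𝓞 F)) := Z.filter (fun w => ¬ (p : ℤ) ∣ ordW w x) with hZ₂
  have hNK : ∀ w ∈ Z, N ≤ K w := by
    rintro w hw _ ⟨y, -, rfl⟩
    exact normU_mem_tameKer p E hp2 hζ hdeg x hx' α hα w (hZp w hw) ((hZmem w).1 hw).2 y
  -- first block
  have h1 : p ^ Z₁.card * (⊤ : Subgroup Fˣ).relIndex A ∣
      ((⊤ : Subgroup Fˣ) ⊓ ⨅ w ∈ Z₁, K w).relIndex A := by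
    refine Key_pow_dvd_relIndex hp A ⊤ K Z₁ (fun w _ g => Key_pow_mem_tameKer p w x g) ?_
    intro w hw
    obtain ⟨hwZ, m, hm⟩ := Finset.mem_filter.1 hw
    obtain ⟨xw, hxw1, hxw2⟩ := hTpr w (hZT w hwZ)
    have hord : ordW w xw = 1 := by
      have := valuation_eq_exp_ordW w xw
      rw [hxw1, WithZero.exp_inj] at this
      omega
    refine ⟨xw, ⟨?_, Subgroup.mem_top _⟩, ?_, ?_⟩
    · intro v hv
      exact hxw2 v (fun h => hv (hTT'' h)) (fun h => hv (h ▸ ((hZmem w).1 hwZ).1))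
    · intro hmem
      have hmem' : IsPowMod p w (xw ^ ordW w x / x ^ ordW w xw) := hmem
      rw [hord, zpow_one, hm] at hmem'
      apply hZx w hwZ
      have h3 := Subgroup.div_mem _ (Key_isPowMod_zpow_mul p w xw m) hmem'
      rwa [div_div_cancel] at h3
    · intro w' hw' hne
      obtain ⟨hw'Z, m', hm'⟩ := Finset.mem_filter.1 hw'
      have hord' : ordW w' xw = 0 := (ordW_eq_zero_iff w' xw).2 (hxw2 w' (hZT w' hw'Z) hne)
      change IsPowMod p w' (xw ^ ordW w' x / x ^ ordW w' xw)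
      rw [hord', zpow_zero, div_one, hm']
      exact Key_isPowMod_zpow_mul p w' xw m'
  -- second block
  have h2 : p ^ Z₂.card * ((⊤ : Subgroup Fˣ) ⊓ ⨅ w ∈ Z₁, K w).relIndex A ∣
      (((⊤ : Subgroup Fˣ) ⊓ ⨅ w ∈ Z₁, K w) ⊓ ⨅ w ∈ Z₂, K w).relIndex A := by
    refine Key_pow_dvd_relIndex hp A _ K Z₂ (fun w _ g => Key_pow_mem_tameKer p w x g) ?_
    intro w hw
    obtain ⟨hwZ, hndvd⟩ := Finset.mem_filter.1 hw
    have hTsmem : ∀ w' ∈ Z₂, w' ∈ Ts := by
      intro w' hw'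
      obtain ⟨hw'Z, hndvd'⟩ := Finset.mem_filter.1 hw'
      by_contra hnot
      have : w'.valuation F (x : F) = 1 := hx w' (fun h => h.elim (hZT w' hw'Z) hnot)
      rw [← ordW_eq_zero_iff] at this
      exact hndvd' (this ▸ dvd_zero _)
    obtain ⟨u, hu1, hu2⟩ := Key_exists_not_isPowMod p hζ w (hZp w hwZ)
    obtain ⟨y, hyT, hy⟩ := hsurj (fun w' => if w' = w then u else 1) (by
      intro w' _
      by_cases h : w' = w
      · simp only [if_pos h]; rw [h]; exact hu1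
      · simp [if_neg h])
    have hordy : ∀ w' ∈ Z, ordW w' y = 0 := fun w' hw' =>
      (ordW_eq_zero_iff w' y).2 (hyT w' (hZT w' hw'))
    have hsymb : ∀ w' ∈ Z, (y ∈ K w' ↔ IsPowMod p w' (y ^ ordW w' x)) := by
      intro w' hw'
      change IsPowMod p w' (y ^ ordW w' x / x ^ ordW w' y) ↔ _
      rw [hordy w' hw', zpow_zero, div_one]
    refine ⟨y, ⟨fun v hv => hyT v (fun h => hv (hTT'' h)), Subgroup.mem_top _, ?_⟩, ?_, ?_⟩
    · refine Subgroup.mem_iInf.2 fun w' => Subgroup.mem_iInf.2 fun hw' => ?_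
      obtain ⟨hw'Z, m', hm'⟩ := Finset.mem_filter.1 hw'
      rw [hsymb w' hw'Z, hm']
      exact Key_isPowMod_zpow_mul p w' y m'
    · rw [hsymb w hwZ]
      intro hpw
      have h3 := isPowMod_of_zpow p w y _ hndvd hpw
      have h4 := hy w (hTsmem w hw)
      simp only [if_true] at h4
      apply hu2
      have h5 := Subgroup.div_mem _ h3 h4
      rwa [div_div_cancel] at h5
    · intro w' hw' hne
      rw [hsymb w' (Finset.mem_filter.1 hw').1]
      have h4 := hy w' (hTsmem w' hw')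
      simp only [if_neg hne, div_one] at h4
      exact Subgroup.zpow_mem _ h4 _
  -- conclusion
  have hle : N ≤ ((⊤ : Subgroup Fˣ) ⊓ ⨅ w ∈ Z₁, K w) ⊓ ⨅ w ∈ Z₂, K w := by
    refine le_inf (le_inf le_top ?_) ?_
    · exact le_iInf₂ fun w hw => hNK w (Finset.mem_filter.1 hw).1
    · exact le_iInf₂ fun w hw => hNK w (Finset.mem_filter.1 hw).1
  have h3 := Subgroup.relIndex_dvd_of_le_left A hle
  have hcard : Z₁.card + Z₂.card = Z.card := Finset.card_filter_add_card_filter_not _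
  have h4 : p ^ Z.card ∣ N.relIndex A := by
    rw [Subgroup.relIndex_top_left, mul_one] at h1
    rw [← hcard, pow_add, mul_comm]
    exact ((mul_dvd_mul_left _ h1).trans h2).trans h3
  obtain ⟨c, hc⟩ := h4
  rw [hZcard, hc] at hI1
  have hpos : 0 < p ^ Z.card := pow_pos hp.pos _
  have h5 : c * p = 1 := by
    apply Nat.eq_of_mul_eq_mul_left hpos
    rw [mul_one, ← mul_assoc]
    exact hI1
  exact hp.one_lt.ne' (Nat.eq_one_of_mul_eq_one_left h5)

end Fermat.Agent.S55.INEQ
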