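import Fermat.Agent.S55.INEQ.Val

/-!
# S55-INEQ : units close to `1` are local `p`-th powers
-/

set_option autoImplicit false

open IsDedekindDomain NumberField

namespace Fermat.Agent.S55.INEQ

variable (p : ℕ) [Fact p.Prime] {F : Type*} [Field F] [NumberField F]

omit [Fact p.Prime] in
lemma LocPow_lt_exp_iff (x : WithZero (Multiplicative ℤ)) (n : ℤ) :
    x < WithZero.exp n ↔ x ≤ WithZero.exp (n - 1) := by
  induction x using WithZero.expRecOn with
  | zero => simp
  | exp m =>
    rw [WithZero.exp_lt_exp, WithZero.exp_le_exp]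
    omega

lemma LocPow_pow_le {x : WithZero (Multiplicative ℤ)} {k : ℕ}
    (hx : x ≤ WithZero.exp (-(k : ℤ))) (m : ℕ) : x ^ m ≤ WithZero.exp (-((k * m : ℕ) : ℤ)) := by
  calc x ^ m ≤ (WithZero.exp (-(k : ℤ))) ^ m := pow_le_pow_left₀ zero_le hx m
    _ = WithZero.exp (-((k * m : ℕ) : ℤ)) := by
      rw [← WithZero.exp_nsmul]
      congr 1
      push_cast
      simp
      ring

lemma LocPow_natCast_le_one (w : HeightOneSpectrum (𝓞 F)) (n : ℕ) :
    w.valuation F (n : F) ≤ 1 := by
  have := w.valuation_le_one (K := F) (n : 𝓞 F)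
  simpa using this

/-- the key estimate. -/
lemma LocPow_estimate (w : HeightOneSpectrum (𝓞 F)) (e k : ℕ)
    (he : w.valuation F (p : F) = WithZero.exp (-(e : ℤ))) (hk : 1 ≤ k)
    (hke : e + 1 ≤ (p - 1) * k) (z : F) (hz : w.valuation F z ≤ WithZero.exp (-(k : ℤ))) :
    w.valuation F ((1 + z) ^ p - 1 - p * z) ≤ WithZero.exp (-((e + k + 1 : ℕ) : ℤ)) := by
  have hp : p.Prime := Fact.out
  obtain ⟨q, hq⟩ : ∃ q, p = q + 2 := ⟨p - 2, by have := hp.two_le; omega⟩
  have hsum : (1 + z) ^ p - 1 - p * z =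
      ∑ i ∈ Finset.range (q + 1), z ^ (i + 2) * (p.choose (i + 2) : F) := by
    rw [add_comm 1 z, add_pow]
    simp only [one_pow, mul_one]
    rw [show p + 1 = q + 1 + 1 + 1 by omega, Finset.sum_range_succ', Finset.sum_range_succ']
    simp
    ring
  rw [hsum]
  apply Valuation.map_sum_le
  intro i hi
  rw [Finset.mem_range] at hi
  rw [map_mul, map_pow]
  have h1 := LocPow_pow_le hz (i + 2)
  by_cases hiq : i = q
  · -- the term `z ^ p`
    have : p.choose (i + 2) = 1 := by rw [hiq, ← hq, Nat.choose_self]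
    rw [this, Nat.cast_one, map_one, mul_one]
    refine h1.trans ?_
    rw [WithZero.exp_le_exp, hiq, ← hq]
    have : k * p = k + (p - 1) * k := by
      obtain ⟨r, rfl⟩ : ∃ r, p = r + 1 := ⟨p - 1, by omega⟩
      simp
      ring
    rw [this]
    push_cast
    have : ((e + 1 : ℕ) : ℤ) ≤ (((p - 1) * k : ℕ) : ℤ) := by exact_mod_cast hke
    push_cast at this
    linarith
  · have hdvd : p ∣ p.choose (i + 2) := hp.dvd_choose_self (by omega) (by omega)
    obtain ⟨c, hc⟩ := hdvd
    have h2 : w.valuation F (p.choose (i + 2) : F) ≤ WithZero.exp (-(e : ℤ)) := by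
      rw [hc, Nat.cast_mul, map_mul, he]
      exact mul_le_of_le_one_right' (LocPow_natCast_le_one w c)
    calc w.valuation F z ^ (i + 2) * w.valuation F (p.choose (i + 2) : F)
        ≤ WithZero.exp (-((k * (i + 2) : ℕ) : ℤ)) * WithZero.exp (-(e : ℤ)) :=
          mul_le_mul' h1 h2
      _ = WithZero.exp (-((k * (i + 2) : ℕ) : ℤ) + -(e : ℤ)) := by rw [WithZero.exp_add]
      _ ≤ _ := by
          rw [WithZero.exp_le_exp]
          push_cast
          have : (1 : ℤ) ≤ k := by exact_mod_cast hk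
          nlinarith

omit [Fact p.Prime] in
lemma LocPow_princ_anti (w : HeightOneSpectrum (𝓞 F)) {a b : ℕ} (h : b ≤ a) :
    princ w a ≤ princ w b := by
  intro u hu
  rw [mem_princ] at hu ⊢
  refine lt_of_lt_of_le hu ?_
  rw [WithZero.exp_le_exp]
  omega

lemma LocPow_step (w : HeightOneSpectrum (𝓞 F)) (e : ℕ)
    (he : w.valuation F (p : F) = WithZero.exp (-(e : ℤ))) (N : ℕ) (hN : e / (p - 1) + e ≤ N) :
    princ w N ≤ pows p Fˣ ⊔ princ w (N + 1) := by
  have hp : p.Prime := Fact.out
  have hp0 : (p : F) ≠ 0 := by exact_mod_cast hp.ne_zero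
  intro u hu
  rw [mem_princ, LocPow_lt_exp_iff] at hu
  have h1 : e < (p - 1) * (e / (p - 1) + 1) :=
    Nat.lt_mul_div_succ e (by have := hp.two_le; omega)
  generalize e / (p - 1) = d at hN h1
  obtain ⟨k, hk⟩ : ∃ k, N + 1 = e + k := ⟨N + 1 - e, by omega⟩
  have hk1 : 1 ≤ k := by omega
  have hke : e + 1 ≤ (p - 1) * k := by
    have h2 : (p - 1) * (d + 1) ≤ (p - 1) * k := Nat.mul_le_mul_left _ (by omega)
    omega
  set z : F := ((u : F) - 1) / p with hz
  have hvz : w.valuation F z ≤ WithZero.exp (-(k : ℤ)) := by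
    rw [hz, map_div₀, he, div_le_iff₀ WithZero.exp_pos, ← WithZero.exp_add]
    refine hu.trans (le_of_eq ?_)
    congr 1
    have : ((N + 1 : ℕ) : ℤ) = ((e + k : ℕ) : ℤ) := by rw [hk]
    push_cast at this
    linarith
  have hest := LocPow_estimate p w e k he hk1 hke z hvz
  have hvz1 : w.valuation F z < 1 := by
    refine lt_of_le_of_lt hvz ?_
    rw [← WithZero.exp_zero, WithZero.exp_lt_exp]
    omega
  have hvy : w.valuation F (1 + z) = 1 := by
    have := Valuation.map_add_eq_of_lt_left (w.valuation F) (x := (1 : F)) (y := z)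
      (by simpa using hvz1)
    simpa using this
  have hy0 : (1 + z) ≠ 0 := by
    intro h
    rw [h, map_zero] at hvy
    exact zero_ne_one hvy
  have hu' : (u : F) = 1 + p * z := by
    rw [hz]
    field_simp
    ring
  have hmem : u / (Units.mk0 (1 + z) hy0) ^ p ∈ princ w (N + 1) := by
    rw [mem_princ, LocPow_lt_exp_iff]
    have e1 : ((u / (Units.mk0 (1 + z) hy0) ^ p : Fˣ) : F) - 1 =
        -(((1 + z) ^ p - 1 - p * z) / (1 + z) ^ p) := by
      rw [Units.val_div_eq_div_val, Units.val_pow_eq_pow_val, Units.val_mk0, hu']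
      field_simp
      ring
    rw [e1, Valuation.map_neg, map_div₀, map_pow, hvy, one_pow, div_one]
    refine hest.trans (le_of_eq ?_)
    congr 1
    have : ((N + 1 : ℕ) : ℤ) = ((e + k : ℕ) : ℤ) := by rw [hk]
    push_cast at this ⊢
    linarith
  have : u = (Units.mk0 (1 + z) hy0) ^ p * (u / (Units.mk0 (1 + z) hy0) ^ p) := by
    rw [mul_div_cancel]
  rw [this]
  exact Subgroup.mul_mem_sup ⟨Units.mk0 (1 + z) hy0, rfl⟩ hmem

/-- Hensel by successive approximation: units close to `1` are local `p`-th powers.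
`e = ord_w(p)`. -/
theorem princ_le_locPow (w : HeightOneSpectrum (𝓞 F)) (e : ℕ)
    (he : w.valuation F (p : F) = WithZero.exp (-(e : ℤ))) :
    princ w (e / (p - 1) + e) ≤ locPow p w := by
  have key : ∀ j : ℕ, princ w (e / (p - 1) + e) ≤ pows p Fˣ ⊔ princ w (e / (p - 1) + e + j) := by
    intro j
    induction j with
    | zero => exact le_sup_right
    | succ j ih =>
      refine ih.trans (sup_le le_sup_left ?_)
      exact LocPow_step p w e he _ (by omega)
  unfold locPow
  refine le_iInf fun n => (key n).trans (sup_le_sup_left (LocPow_princ_anti w (Nat.le_add_left _ _)) _)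

end Fermat.Agent.S55.INEQ
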