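import Fermat.Agent.S55.INEQ.LocIndex

/-!
# S55-INEQ : `∏_{w ∈ T} [F_wˣ : F_wˣ^p] ≤ p^(2 #T + [F:ℚ])`
-/

set_option autoImplicit false

open IsDedekindDomain NumberField

namespace Fermat.Agent.S55.INEQ

variable (p : ℕ) [Fact p.Prime] {F : Type*} [Field F] [NumberField F]

/-- the product over a finite set of primes. -/
theorem prod_index_locPow_le {ζ : F} (hζ : IsPrimitiveRoot ζ p)
    (T : Finset (HeightOneSpectrum (𝓞 F))) :
    ∏ w ∈ T, (locPow p w).index ≤ p ^ (2 * T.card + Module.finrank ℚ F) := by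
  classical
  have hp0 : ((p : ℕ) : 𝓞 F) ≠ 0 := by
    exact_mod_cast (Fact.out : p.Prime).ne_zero
  have hI : (Ideal.span {((p : ℕ) : 𝓞 F)} : Ideal (𝓞 F)) ≠ 0 := by
    rw [Ne, Ideal.zero_eq_bot, Ideal.span_singleton_eq_bot]
    exact hp0
  set I : Ideal (𝓞 F) := Ideal.span {((p : ℕ) : 𝓞 F)} with hIdef
  set e : HeightOneSpectrum (𝓞 F) → ℕ :=
    fun w => (Associates.mk w.asIdeal).count (Associates.mk I).factors with he
  have hval : ∀ w : HeightOneSpectrum (𝓞 F),
      w.valuation F (p : F) = WithZero.exp (-(e w : ℤ)) := by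
    intro w
    have h1 : (p : F) = algebraMap (𝓞 F) F ((p : ℕ) : 𝓞 F) := by simp
    rw [h1, w.valuation_of_algebraMap, w.intValuation_if_neg hp0]
  -- the product of the `w ^ e w` divides `(p)`
  have hdvd : (∏ w ∈ T, w.asIdeal ^ e w) ∣ I := by
    have hfin : (Function.mulSupport fun v : HeightOneSpectrum (𝓞 F) =>
        v.maxPowDividing I).Finite := Ideal.hasFiniteMulSupport hI
    have h1 : ∏ᶠ v : HeightOneSpectrum (𝓞 F), v.maxPowDividing I
        = ∏ v ∈ hfin.toFinset ∪ T, v.maxPowDividing I :=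
      finprod_eq_prod_of_mulSupport_subset _ (by
        intro v hv
        rw [Finset.coe_union, Set.Finite.coe_toFinset]
        exact Or.inl hv)
    rw [Ideal.finprod_heightOneSpectrum_factorization hI] at h1
    conv_rhs => rw [h1]
    exact Finset.prod_dvd_prod_of_subset _ _ _ Finset.subset_union_right
  have hnorm : ∏ w ∈ T, (Ideal.absNorm w.asIdeal) ^ e w ≤ p ^ Module.finrank ℚ F := by
    have h2 := map_dvd Ideal.absNorm hdvd
    rw [map_prod, hIdef, Ideal.absNorm_span_natCast, RingOfIntegers.rank] at h2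
    simp only [map_pow] at h2
    exact Nat.le_of_dvd (pow_pos (Fact.out : p.Prime).pos _) h2
  calc ∏ w ∈ T, (locPow p w).index
      ≤ ∏ w ∈ T, (p ^ 2 * (Ideal.absNorm w.asIdeal) ^ e w) :=
        Finset.prod_le_prod' fun w _ => (index_locPow_le p hζ w (e w) (hval w)).2
    _ = p ^ (2 * T.card) * ∏ w ∈ T, (Ideal.absNorm w.asIdeal) ^ e w := by
        rw [Finset.prod_mul_distrib, Finset.prod_const, ← pow_mul]
    _ ≤ p ^ (2 * T.card) * p ^ Module.finrank ℚ F := Nat.mul_le_mul_left _ hnorm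
    _ = p ^ (2 * T.card + Module.finrank ℚ F) := (pow_add _ _ _).symm

end Fermat.Agent.S55.INEQ
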