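import Mathlib

/-!
# S55-INEQ : a Galois closure over `ℚ` in which a given polynomial splits
-/

set_option autoImplicit false

open Polynomial

namespace Fermat.Agent.S55.INEQ

universe u

/-- A number field `L ⊇ F`, Galois over `ℚ`, in which `f` splits. -/
theorem exists_galois_closure (F : Type u) [Field F] [NumberField F] (f : F[X]) :
    ∃ (L : Type u) (_ : Field L) (_ : NumberField L) (_ : Algebra F L),
      IsGalois ℚ L ∧ (f.map (algebraMap F L)).Splits := by
  let K := f.SplittingField
  let Ω := AlgebraicClosure K
  have : CharZero K := charZero_of_injective_algebraMap (algebraMap F K).injective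
  have : FiniteDimensional ℚ K := FiniteDimensional.trans ℚ F K
  have : Algebra.IsAlgebraic ℚ Ω := Algebra.IsAlgebraic.trans ℚ K Ω
  have : IsAlgClosure ℚ Ω := ⟨inferInstance, inferInstance⟩
  have : Normal ℚ Ω := IsAlgClosure.normal ℚ Ω
  let L := IntermediateField.normalClosure ℚ K Ω
  have : FiniteDimensional ℚ L := inferInstance
  have : Normal ℚ L := normalClosure.normal ℚ K Ω
  let alg : Algebra F L := ((algebraMap K L).comp (algebraMap F K)).toAlgebra
  refine ⟨L, inferInstance, ⟨⟩, alg, ⟨⟩, ?_⟩
  have h : (f.map (algebraMap F K)).Splits := SplittingField.splits f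
  have h2 := h.map (algebraMap K L)
  rw [Polynomial.map_map] at h2
  exact h2

end Fermat.Agent.S55.INEQ
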