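import Fermat.Agent.S55.INEQ.Split
import Fermat.Agent.S55.INEQ.NSClosure
import Fermat.Agent.GR.G.Finite

/-!
# S55-INEQ : primes with prescribed Kummer behaviour (from Frobenius' density theorem, GR-G)
-/

set_option autoImplicit false

open IsDedekindDomain NumberField
open scoped Pointwise

namespace Fermat.Agent.S55.INEQ

/-- the fixed points of the Frobenius are the elements of the prime field. -/
theorem NS_exists_natCast {k : Type*} [Field k] (ℓ : ℕ) [Fact ℓ.Prime] [CharP k ℓ] (x : k)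
    (hx : x ^ ℓ = x) : ∃ n : ℕ, x = n := by
  classical
  have hℓ : ℓ.Prime := Fact.out
  have hne : (Polynomial.X ^ ℓ - Polynomial.X : Polynomial k) ≠ 0 :=
    FiniteField.X_pow_card_sub_X_ne_zero k hℓ.one_lt
  have hdeg := FiniteField.X_pow_card_sub_X_natDegree_eq k hℓ.one_lt
  set R := (Polynomial.X ^ ℓ - Polynomial.X : Polynomial k).roots.toFinset with hR
  let I : Finset k := (Finset.range ℓ).image (fun n : ℕ => (n : k))
  have hI : I.card = ℓ := by
    rw [Finset.card_image_of_injOn, Finset.card_range]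
    intro a ha b hb hab
    have ha' : a < ℓ := Finset.mem_range.1 ha
    have hb' : b < ℓ := Finset.mem_range.1 hb
    have := (CharP.natCast_eq_natCast k ℓ).1 hab
    exact Nat.ModEq.eq_of_lt_of_lt this ha' hb'
  have hsub : I ⊆ R := by
    intro y hy
    obtain ⟨n, -, rfl⟩ := Finset.mem_image.1 hy
    rw [hR, Multiset.mem_toFinset, Polynomial.mem_roots hne]
    have : ((n : k)) ^ ℓ = n := by
      have := map_natCast (frobenius k ℓ) n
      rwa [frobenius_def] at this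
    simp [Polynomial.IsRoot, this]
  have hcard : R.card ≤ I.card := by
    rw [hI, ← hdeg]
    exact (Multiset.toFinset_card_le _).trans (Polynomial.card_roots' _)
  have heq := Finset.eq_of_subset_of_card_le hsub hcard
  have hxR : x ∈ R := by
    rw [hR, Multiset.mem_toFinset, Polynomial.mem_roots hne]
    simp [Polynomial.IsRoot, hx]
  rw [← heq] at hxR
  obtain ⟨n, -, hn⟩ := Finset.mem_image.1 hxR
  exact ⟨n, hn.symm⟩

theorem NS_smul_eq_galMap {L : Type*} [Field L] [NumberField L] (σ : L ≃ₐ[ℚ] L)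
    (P : HeightOneSpectrum (𝓞 L)) : σ • P.asIdeal = (galMap σ P).asIdeal := by
  ext x
  rw [Val_mem_galMap, Ideal.pointwise_smul_eq_comap]
  rfl

/-- the arithmetic input. -/
theorem NS_exists_frob (L : Type*) [Field L] [NumberField L] [IsGalois ℚ L] (S : Finset ℕ)
    (σ : L ≃ₐ[ℚ] L) :
    ∃ (ℓ : ℕ) (P : HeightOneSpectrum (𝓞 L)) (φ : L ≃ₐ[ℚ] L), ℓ.Prime ∧ ℓ ∉ S ∧
      (ℓ : 𝓞 L) ∈ P.asIdeal ∧ (∀ x : 𝓞 L, P.valuation L (φ x - (x : L) ^ ℓ) < 1) ∧
      galMap φ P = P ∧ galMap σ P = P ∧ φ ∈ Subgroup.zpowers σ := by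
  obtain ⟨ℓ, hℓ, hℓS, -, P, hP, hℓP, hstab⟩ := GR.G.exists_stabilizer_eq_zpowers L S σ
  have hP0 : P ≠ ⊥ := by
    intro h
    rw [h, Ideal.mem_bot] at hℓP
    exact hℓ.ne_zero (by exact_mod_cast hℓP)
  have hfin : Finite (𝓞 L ⧸ P) := Ideal.finiteQuotientOfFreeOfNeBot _ hP0
  have := IsGaloisGroup.of_isFractionRing Gal(L/ℚ) ℤ (𝓞 L) ℚ L
  obtain ⟨φ, hφ⟩ := IsArithFrobAt.exists_of_isInvariant ℤ (L ≃ₐ[ℚ] L) P
  have hℓ' : Prime (ℓ : ℤ) := Nat.prime_iff_prime_int.mp hℓ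
  have hlo : P.LiesOver (Ideal.span {(ℓ : ℤ)}) :=
    (Ideal.liesOver_span_iff Ideal.IsPrime.ne_top' hℓ').mpr (by simpa using hℓP)
  have hunder : P.under ℤ = Ideal.span {(ℓ : ℤ)} := hlo.over.symm
  let P' : HeightOneSpectrum (𝓞 L) := ⟨P, hP, hP0⟩
  have hst : ∀ τ : L ≃ₐ[ℚ] L, τ ∈ MulAction.stabilizer (L ≃ₐ[ℚ] L) P → galMap τ P' = P' := by
    intro τ hτ
    ext1
    rw [← NS_smul_eq_galMap]
    exact hτ
  refine ⟨ℓ, P', φ, hℓ, hℓS, hℓP, fun x => ?_, hst φ hφ.mem_stabilizer, hst σ ?_, ?_⟩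
  · have h1 := hφ x
    rw [hunder, Int.card_ideal_quot] at h1
    have h2 := (HeightOneSpectrum.valuation_lt_one_iff_mem (K := L) P' _).2 h1
    exact h2
  · rw [hstab]; exact Subgroup.mem_zpowers σ
  · rw [← hstab]; exact hφ.mem_stabilizer

theorem NS_exists_pow_mul (p : ℕ) [Fact p.Prime] {F L : Type*} [Field F] [Field L] [Algebra F L]
    {η : F} (hη : IsPrimitiveRoot η p) (c : F) (γ : L) (hγ0 : γ ≠ 0)
    (hγ : γ ^ p = algebraMap F L c) (σ : L ≃ₐ[F] L) :
    ∃ i : ℕ, σ γ = algebraMap F L η ^ i * γ := by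
  have hηL : IsPrimitiveRoot (algebraMap F L η) p := hη.map_of_injective (algebraMap F L).injective
  have h1 : (σ γ / γ) ^ p = 1 := by
    rw [div_pow, ← map_pow, hγ, AlgEquiv.commutes, div_self]
    rw [← hγ]
    exact pow_ne_zero _ hγ0
  obtain ⟨i, -, hi⟩ := hηL.eq_pow_of_pow_eq_one h1
  exact ⟨i, by rw [hi, div_mul_cancel₀ _ hγ0]⟩

theorem NS_exists_gal (p : ℕ) [Fact p.Prime] {F L : Type*} [Field F] [Field L] [Algebra F L]
    [FiniteDimensional F L] [IsGalois F L]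
    {ζ : F} (hζ : IsPrimitiveRoot ζ p) (a u : Fˣ) (hu : ∀ (k : ℕ) (y : Fˣ), u ≠ a ^ k * y ^ p)
    (α β : L) (hα : α ^ p = algebraMap F L a) (hβ : β ^ p = algebraMap F L u) :
    ∃ σ : L ≃ₐ[F] L, σ α = α ∧ σ β ≠ β := by
  have hp : p.Prime := Fact.out
  by_contra hcon
  push Not at hcon
  have hα0 : α ≠ 0 := by
    rintro rfl
    rw [zero_pow hp.ne_zero] at hα
    exact a.ne_zero ((map_eq_zero _).1 hα.symm)
  have hβ0 : β ≠ 0 := by
    rintro rfl
    rw [zero_pow hp.ne_zero] at hβ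
    exact u.ne_zero ((map_eq_zero _).1 hβ.symm)
  have hdesc : ∀ γ : L, (∀ σ : L ≃ₐ[F] L, σ γ = γ) → ∃ y : F, algebraMap F L y = γ := by
    intro γ hγ
    exact (IsGalois.mem_range_algebraMap_iff_fixed γ).2 hγ
  -- it is enough to find `j` with `β / α ^ j` fixed
  have hfin : ∀ j : ℕ, ¬ ∀ σ : L ≃ₐ[F] L, σ (β / α ^ j) = β / α ^ j := by
    intro j hj
    obtain ⟨y, hy⟩ := hdesc _ hj
    have hy0 : y ≠ 0 := by
      rintro rfl
      rw [map_zero] at hy
      exact (div_ne_zero hβ0 (pow_ne_zero _ hα0)) hy.symm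
    apply hu j (Units.mk0 y hy0)
    apply Units.ext
    apply (algebraMap F L).injective
    simp only [Units.val_mul, Units.val_pow_eq_pow_val, Units.val_mk0, map_mul, map_pow]
    rw [← hβ, ← hα, hy, div_pow, ← pow_mul, ← pow_mul, mul_comm p j,
      mul_div_cancel₀ _ (pow_ne_zero _ hα0)]
  by_cases h : ∀ σ : L ≃ₐ[F] L, σ α = α
  · apply hfin 0
    intro σ
    simp [hcon σ (h σ)]
  · push Not at h
    obtain ⟨τ, hτ⟩ := h
    obtain ⟨i, hi⟩ := NS_exists_pow_mul p hζ a α hα0 hα τ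
    have hpi : ¬ p ∣ i := by
      rintro ⟨m, rfl⟩
      apply hτ
      rw [hi, ← map_pow, pow_mul, hζ.pow_eq_one, one_pow, map_one, one_mul]
    have hη : IsPrimitiveRoot (ζ ^ i) p :=
      hζ.pow_of_coprime i ((Nat.Prime.coprime_iff_not_dvd hp).2 hpi).symm
    set η := ζ ^ i with hηdef
    have hi' : τ α = algebraMap F L η * α := by rw [hi, hηdef, map_pow]
    obtain ⟨j, hj⟩ := NS_exists_pow_mul p hη u β hβ0 hβ τ
    have hpowα : ∀ k : ℕ, (τ ^ k) α = algebraMap F L η ^ k * α := by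
      intro k
      induction k with
      | zero => simp
      | succ k ih =>
        rw [pow_succ', AlgEquiv.mul_apply, ih, map_mul, map_pow, AlgEquiv.commutes, hi']
        ring
    have hpowβ : ∀ k : ℕ, (τ ^ k) β = (algebraMap F L η ^ j) ^ k * β := by
      intro k
      induction k with
      | zero => simp
      | succ k ih =>
        rw [pow_succ', AlgEquiv.mul_apply, ih, map_mul, map_pow, map_pow, AlgEquiv.commutes, hj]
        ring
    apply hfin j
    intro σ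
    obtain ⟨k, hk⟩ := NS_exists_pow_mul p hη a α hα0 hα σ
    have h1 : ((τ ^ k)⁻¹ * σ) α = α := by
      rw [AlgEquiv.mul_apply, hk, ← hpowα k]
      exact (τ ^ k).symm_apply_apply α
    have h2 := hcon _ h1
    have h3 : σ β = (τ ^ k) β := by
      rw [AlgEquiv.mul_apply] at h2
      have := congrArg (τ ^ k) h2
      rw [← this]
      exact ((τ ^ k).apply_symm_apply (σ β)).symm
    have hη0 : algebraMap F L η ≠ 0 := by
      rw [Ne, map_eq_zero]
      exact hη.ne_zero hp.ne_zero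
    rw [map_div₀, map_pow, h3, hk, hpowβ, mul_pow, ← pow_mul, ← pow_mul, mul_comm k j,
      mul_div_mul_left _ _ (pow_ne_zero _ hη0)]

theorem NS_lt_one_of_algebraMap {F L : Type*} [Field F] [NumberField F] [Field L] [NumberField L]
    [Algebra F L] (P : HeightOneSpectrum (𝓞 L)) (x : F) :
    P.valuation L (algebraMap F L x) < 1 ↔ (P.under (𝓞 F)).valuation F x < 1 := by
  obtain ⟨e, he, hval⟩ := exists_valuation_algebraMap (F := F) P
  rw [hval]
  exact pow_lt_one_iff_of_nonneg zero_le he.ne'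

theorem NS_eq_one_of_algebraMap {F L : Type*} [Field F] [NumberField F] [Field L] [NumberField L]
    [Algebra F L] (P : HeightOneSpectrum (𝓞 L)) (x : F) :
    P.valuation L (algebraMap F L x) = 1 ↔ (P.under (𝓞 F)).valuation F x = 1 := by
  obtain ⟨e, he, hval⟩ := exists_valuation_algebraMap (F := F) P
  rw [hval]
  exact pow_eq_one_iff_of_nonneg zero_le he.ne'

theorem NS_not_isPowMod (p : ℕ) [Fact p.Prime] {F L : Type*} [Field F] [NumberField F] [Field L]
    [NumberField L] [Algebra F L] {ζ : F} (hζ : IsPrimitiveRoot ζ p) (u : Fˣ) (β : L)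
    (hβ : β ^ p = algebraMap F L u) (P : HeightOneSpectrum (𝓞 L)) (σ : L ≃ₐ[F] L)
    (hσ : ∀ t, P.valuation L (σ t) = P.valuation L t) (hσβ : σ β ≠ β)
    (hwp : (P.under (𝓞 F)).valuation F (p : F) = 1) : ¬ IsPowMod p (P.under (𝓞 F)) u := by
  intro h
  have hp : p.Prime := Fact.out
  obtain ⟨y', ⟨y, rfl⟩, z, hz, hyz⟩ := Subgroup.mem_sup.1 h
  set v := P.valuation L with hv
  set ζL : L := algebraMap F L ζ with hζLdef
  have hζL : IsPrimitiveRoot ζL p := hζ.map_of_injective (algebraMap F L).injective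
  have hβ0 : β ≠ 0 := by
    rintro rfl
    rw [zero_pow hp.ne_zero] at hβ
    exact u.ne_zero ((map_eq_zero _).1 hβ.symm)
  have hy0 : algebraMap F L (y : F) ≠ 0 := by simp
  set δ : L := β / algebraMap F L y with hδ
  have hδp : δ ^ p - 1 = algebraMap F L ((z : F) - 1) := by
    rw [hδ, div_pow, hβ, ← hyz]
    simp
  have hlt : v (δ ^ p - 1) < 1 := by
    rw [hδp, hv, NS_lt_one_of_algebraMap]
    simpa using mem_princ.1 hz
  have hprod : δ ^ p - 1 = ∏ μ ∈ Polynomial.nthRootsFinset p (1 : L), (δ - μ) := by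
    have := hζL.pow_sub_pow_eq_prod_sub_mul δ 1 hp.pos
    simpa using this
  have hex : ∃ μ ∈ Polynomial.nthRootsFinset p (1 : L), v (δ - μ) < 1 := by
    by_contra hcon
    push Not at hcon
    have h1 := Finset.pow_card_le_prod (Polynomial.nthRootsFinset p (1 : L))
      (fun μ => v (δ - μ)) 1 hcon
    rw [← map_prod, ← hprod, one_pow] at h1
    exact absurd hlt (not_lt.2 h1)
  obtain ⟨μ, hμ, hμlt⟩ := hex
  have hμ1 : μ ^ p = 1 := (Polynomial.mem_nthRootsFinset hp.pos (1 : L)).1 hμ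
  obtain ⟨i, -, hi⟩ := hζL.eq_pow_of_pow_eq_one hμ1
  have hσμ : σ μ = μ := by
    rw [← hi, hζLdef, ← map_pow, AlgEquiv.commutes]
  -- `σ β = ξ β`
  have h1 : (σ β / β) ^ p = 1 := by
    rw [div_pow, ← map_pow, hβ, AlgEquiv.commutes, div_self]
    rw [← hβ]
    exact pow_ne_zero _ hβ0
  set ξ : L := σ β / β with hξ
  have hξ1 : ξ ≠ 1 := by
    intro h
    apply hσβ
    rw [hξ, div_eq_one_iff_eq hβ0] at h
    exact h
  have hξprim : IsPrimitiveRoot ξ p := by
    rw [← orderOf_eq_iff hp.pos |>.2 ⟨h1, ?_⟩]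
    · exact IsPrimitiveRoot.orderOf ξ
    · intro m hm hm0 hm1
      have hd : orderOf ξ ∣ m := orderOf_dvd_of_pow_eq_one hm1
      have hd' : orderOf ξ ∣ p := orderOf_dvd_of_pow_eq_one h1
      rcases (Nat.dvd_prime hp).1 hd' with h2 | h2
      · exact hξ1 (orderOf_eq_one_iff.1 h2)
      · rw [h2] at hd
        exact absurd (Nat.le_of_dvd hm0 hd) (not_le.2 hm)
  have hσδ : σ δ = ξ * δ := by
    rw [hδ, map_div₀, AlgEquiv.commutes, hξ, div_mul_div_comm, mul_comm β, mul_div_mul_right _ _ hβ0]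
  have hvp : v (p : L) = 1 := by
    have := (NS_eq_one_of_algebraMap (F := F) P (p : F)).2 hwp
    simpa using this
  have hvξ1 : v (ξ - 1) = 1 := Split_val_sub_one v hp hξprim hvp
  have hvξ : v ξ = 1 := Split_val_eq_one_of_pow v hp.ne_zero h1
  have hvμ : v μ = 1 := Split_val_eq_one_of_pow v hp.ne_zero hμ1
  have h2 : v (ξ * δ - μ) < 1 := by
    have := hσ (δ - μ)
    rw [map_sub, hσδ, hσμ] at this
    rw [this]
    exact hμlt
  have h3 : v (ξ * (δ - μ)) < 1 := by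
    rw [map_mul, hvξ, one_mul]
    exact hμlt
  have h4 : v (ξ - 1) < 1 := by
    have e2 : μ * (ξ - 1) = (ξ * δ - μ) - ξ * (δ - μ) := by ring
    calc v (ξ - 1) = v (μ * (ξ - 1)) := by rw [map_mul, hvμ, one_mul]
      _ = v ((ξ * δ - μ) - ξ * (δ - μ)) := by rw [e2]
      _ < 1 := Valuation.map_sub_lt v h2 h3
  rw [hvξ1] at h4
  exact lt_irrefl _ h4

theorem NS_isPowMod (p : ℕ) [Fact p.Prime] {F L : Type*} [Field F] [NumberField F] [Field L]
    [NumberField L] [Algebra F L] (a : Fˣ) (α : L) (hα : α ^ p = algebraMap F L a)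
    (P : HeightOneSpectrum (𝓞 L)) (ℓ : ℕ) (hℓ : ℓ.Prime) (hℓP : (ℓ : 𝓞 L) ∈ P.asIdeal)
    (φ : L ≃ₐ[ℚ] L) (hφ : ∀ x : 𝓞 L, P.valuation L (φ x - (x : L) ^ ℓ) < 1)
    (hφP : ∀ t, P.valuation L (φ t) = P.valuation L t) (hφα : φ α = α)
    (ha : (P.under (𝓞 F)).valuation F (a : F) = 1) : IsPowMod p (P.under (𝓞 F)) a := by
  have hp : p.Prime := Fact.out
  set v := P.valuation L with hv
  have hvα : v α = 1 := by
    have h1 : v α ^ p = 1 := by
      rw [← map_pow, hα, hv, NS_eq_one_of_algebraMap]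
      exact ha
    exact (pow_eq_one_iff_of_nonneg zero_le hp.ne_zero).1 h1
  obtain ⟨r, hr⟩ := P.exists_valuation_sub_lt_of_integer (K := L) (x := α) hvα.le 1
  have hr' : v (algebraMap (𝓞 L) L r - α) < 1 := by simpa using hr
  have h1 : v ((algebraMap (𝓞 L) L r) ^ ℓ - algebraMap (𝓞 L) L r) < 1 := by
    have e1 : (algebraMap (𝓞 L) L r) ^ ℓ - algebraMap (𝓞 L) L r =
        (φ (algebraMap (𝓞 L) L r - α) - (φ (algebraMap (𝓞 L) L r) - (algebraMap (𝓞 L) L r) ^ ℓ))
          - (algebraMap (𝓞 L) L r - α) := by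
      rw [map_sub, hφα]; ring
    rw [e1]
    refine Valuation.map_sub_lt v (Valuation.map_sub_lt v ?_ (hφ r)) hr'
    rw [hφP]
    exact hr'
  have h2 : r ^ ℓ - r ∈ P.asIdeal := by
    rw [← HeightOneSpectrum.valuation_lt_one_iff_mem (K := L) P]
    simpa using h1
  have : P.asIdeal.IsMaximal := P.isMaximal
  let _ : Field (𝓞 L ⧸ P.asIdeal) := Ideal.Quotient.field P.asIdeal
  have : Fact ℓ.Prime := ⟨hℓ⟩
  have : CharP (𝓞 L ⧸ P.asIdeal) ℓ := by
    rw [CharP.charP_iff_prime_eq_zero hℓ]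
    have := Ideal.Quotient.eq_zero_iff_mem.2 hℓP
    simpa using this
  obtain ⟨n, hn⟩ := NS_exists_natCast ℓ (Ideal.Quotient.mk P.asIdeal r) (by
    rw [← map_pow]
    exact Ideal.Quotient.eq.2 h2)
  have h3 : r - (n : 𝓞 L) ∈ P.asIdeal := by
    rw [← Ideal.Quotient.eq, hn, map_natCast]
  have h4 : v (algebraMap (𝓞 L) L r - (n : L)) < 1 := by
    have := (HeightOneSpectrum.valuation_lt_one_iff_mem (K := L) P _).2 h3
    simpa using this
  have h5 : v (α - (n : L)) < 1 := by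
    have e1 : α - (n : L) = (algebraMap (𝓞 L) L r - (n : L)) - (algebraMap (𝓞 L) L r - α) := by
      ring
    rw [e1]
    exact Valuation.map_sub_lt v h4 hr'
  have hvn : v (n : L) = 1 := by
    have h6 := Valuation.map_sub_eq_of_lt_left v (x := α) (y := α - (n : L)) (by rw [hvα]; exact h5)
    rw [sub_sub_cancel, hvα] at h6
    exact h6
  have hn0 : (n : F) ≠ 0 := by
    intro h
    have : (n : L) = 0 := by
      have := congrArg (algebraMap F L) h
      simpa using this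
    rw [this, map_zero] at hvn
    exact zero_ne_one hvn
  have hnL0 : (n : L) ≠ 0 := by
    intro h
    rw [h, map_zero] at hvn
    exact zero_ne_one hvn
  have hα0 : α ≠ 0 := by
    intro h
    rw [h, map_zero] at hvα
    exact zero_ne_one hvα
  set y : Fˣ := Units.mk0 (n : F) hn0 with hy
  -- `α / n` is a principal unit of `L`
  have h6 : (Units.mk0 α hα0 / Units.mk0 (n : L) hnL0 : Lˣ) ∈ princ P 0 := by
    rw [mem_princ]
    have e1 : ((Units.mk0 α hα0 / Units.mk0 (n : L) hnL0 : Lˣ) : L) - 1 =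
        (α - (n : L)) * (n : L)⁻¹ := by
      simp only [Units.val_div_eq_div_val, Units.val_mk0]
      field_simp
    rw [e1, map_mul, map_inv₀, ← hv, hvn, inv_one, mul_one]
    simpa using h5
  have h7 := Subgroup.pow_mem _ h6 p
  rw [mem_princ] at h7
  have h8 : a / y ^ p ∈ princ (P.under (𝓞 F)) 0 := by
    rw [mem_princ]
    simp only [CharP.cast_eq_zero, neg_zero, WithZero.exp_zero] at h7 ⊢
    rw [← NS_lt_one_of_algebraMap]
    convert h7 using 2
    simp only [Units.val_div_eq_div_val, Units.val_pow_eq_pow_val, Units.val_mk0, hy, map_sub,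
      map_div₀, map_pow, map_natCast, map_one, div_pow, hα]
  have h9 : a = y ^ p * (a / y ^ p) := by
    rw [mul_div_cancel]
  rw [IsPowMod, h9]
  exact Subgroup.mul_mem_sup ⟨y, rfl⟩ h8

theorem NS_exists_finset {F : Type*} [Field F] [NumberField F]
    (T : Set (HeightOneSpectrum (𝓞 F))) (hT : T.Finite) :
    ∃ S : Finset ℕ, ∀ ℓ : ℕ, ℓ.Prime → ∀ w ∈ T, (ℓ : 𝓞 F) ∈ w.asIdeal → ℓ ∈ S := by
  have hfin : (⋃ w ∈ T, {ℓ : ℕ | ℓ.Prime ∧ (ℓ : 𝓞 F) ∈ w.asIdeal}).Finite := by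
    refine hT.biUnion fun w _ => Set.Subsingleton.finite ?_
    rintro ℓ ⟨hℓ, hℓw⟩ ℓ' ⟨hℓ', hℓ'w⟩
    by_contra hne
    have hco : IsCoprime (ℓ : ℤ) (ℓ' : ℤ) :=
      Nat.isCoprime_iff_coprime.2 ((Nat.coprime_primes hℓ hℓ').2 hne)
    obtain ⟨x, y, hxy⟩ := hco
    apply w.isPrime.ne_top
    rw [Ideal.eq_top_iff_one]
    have : (1 : 𝓞 F) = (x : 𝓞 F) * (ℓ : 𝓞 F) + (y : 𝓞 F) * (ℓ' : 𝓞 F) := by
      have := congrArg (Int.cast : ℤ → 𝓞 F) hxy
      push_cast at this
      exact this.symm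
    rw [this]
    exact Ideal.add_mem _ (Ideal.mul_mem_left _ _ hℓw) (Ideal.mul_mem_left _ _ hℓ'w)
  refine ⟨hfin.toFinset, fun ℓ hℓ w hw hℓw => ?_⟩
  rw [Set.Finite.mem_toFinset]
  exact Set.mem_biUnion hw ⟨hℓ, hℓw⟩

variable (p : ℕ) [Fact p.Prime] {F : Type*} [Field F] [NumberField F]

/-- **(NS)** `a`, `u` with `u ∉ ⟨a⟩ F^p`: there is a prime `w` outside any finite set at which
`a` is a `p`-th power and `u` is not. (`a = 1` is allowed.) -/
theorem exists_prime_isPowMod_not_isPowMod {ζ : F} (hζ : IsPrimitiveRoot ζ p) (a u : Fˣ)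
    (hu : ∀ (k : ℕ) (y : Fˣ), u ≠ a ^ k * y ^ p)
    (T₀ : Set (HeightOneSpectrum (𝓞 F))) (h₀ : T₀.Finite) :
    ∃ w ∉ T₀, w.valuation F (a : F) = 1 ∧ w.valuation F (u : F) = 1 ∧
      w.valuation F (p : F) = 1 ∧ IsPowMod p w a ∧ ¬ IsPowMod p w u := by
  have hp : p.Prime := Fact.out
  obtain ⟨L, _, _, _, hGal, hsplit⟩ := exists_galois_closure F
    ((Polynomial.X ^ p - Polynomial.C (a : F)) * (Polynomial.X ^ p - Polynomial.C (u : F)))
  have hroot : ∀ c : F, (Polynomial.X ^ p - Polynomial.C c) ∣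
      ((Polynomial.X ^ p - Polynomial.C (a : F)) * (Polynomial.X ^ p - Polynomial.C (u : F))) →
      ∃ γ : L, γ ^ p = algebraMap F L c := by
    intro c hc
    have h1 : ((Polynomial.X ^ p - Polynomial.C c).map (algebraMap F L)).Splits := by
      refine hsplit.of_dvd ?_ (Polynomial.map_dvd _ hc)
      rw [Polynomial.map_ne_zero_iff (algebraMap F L).injective]
      exact mul_ne_zero (Polynomial.X_pow_sub_C_ne_zero hp.pos _)
        (Polynomial.X_pow_sub_C_ne_zero hp.pos _)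
    have h2 : ((Polynomial.X ^ p - Polynomial.C c).map (algebraMap F L)).degree ≠ 0 := by
      rw [Polynomial.degree_map, Polynomial.degree_X_pow_sub_C hp.pos]
      exact_mod_cast hp.ne_zero
    obtain ⟨γ, hγ⟩ := h1.exists_eval_eq_zero h2
    refine ⟨γ, ?_⟩
    simpa [sub_eq_zero] using hγ
  obtain ⟨α, hα⟩ := hroot a (Dvd.intro _ rfl)
  obtain ⟨β, hβ⟩ := hroot u (Dvd.intro_left _ rfl)
  have : IsGalois F L := IsGalois.tower_top_of_isGalois ℚ F L
  obtain ⟨σ, hσα, hσβ⟩ := NS_exists_gal p hζ a u hu α β hα hβ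
  have hp0 : (p : F) ≠ 0 := by exact_mod_cast hp.ne_zero
  set T₁ : Set (HeightOneSpectrum (𝓞 F)) := T₀ ∪ {w | w.valuation F (a : F) ≠ 1} ∪
    {w | w.valuation F (u : F) ≠ 1} ∪ {w | w.valuation F ((Units.mk0 (p : F) hp0 : Fˣ) : F) ≠ 1}
    with hT₁
  have hT₁fin : T₁.Finite :=
    ((h₀.union (finite_valuation_ne_one a)).union (finite_valuation_ne_one u)).union
      (finite_valuation_ne_one _)
  obtain ⟨S, hS⟩ := NS_exists_finset T₁ hT₁fin
  obtain ⟨ℓ, P, φ, hℓ, hℓS, hℓP, hfrob, hφP, hσP, hφσ⟩ := NS_exists_frob L S (σ.restrictScalars ℚ)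
  have hw : P.under (𝓞 F) ∉ T₁ := by
    intro h
    refine hℓS (hS ℓ hℓ _ h ?_)
    show algebraMap (𝓞 F) (𝓞 L) (ℓ : 𝓞 F) ∈ P.asIdeal
    rw [map_natCast]
    exact hℓP
  simp only [hT₁, Set.mem_union, Set.mem_ofPred_eq, not_or, not_not, Units.val_mk0] at hw
  obtain ⟨⟨⟨hw0, hwa⟩, hwu⟩, hwp⟩ := hw
  refine ⟨P.under (𝓞 F), hw0, hwa, hwu, hwp, ?_, ?_⟩
  · refine NS_isPowMod p a α hα P ℓ hℓ hℓP φ hfrob (fun t => ?_) ?_ hwa
    · have := valuation_galMap φ P t
      rwa [hφP] at this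
    · have hle : Subgroup.zpowers (σ.restrictScalars ℚ) ≤
          MulAction.stabilizer (L ≃ₐ[ℚ] L) α := by
        rw [Subgroup.zpowers_le, MulAction.mem_stabilizer_iff]
        exact hσα
      exact hle hφσ
  · refine NS_not_isPowMod p hζ u β hβ P σ (fun t => ?_) hσβ hwp
    have := valuation_galMap (σ.restrictScalars ℚ) P t
    rwa [hσP] at this

end Fermat.Agent.S55.INEQ
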