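import Fermat.Agent.S55.INEQ.CountDefs
import Fermat.Agent.S55.INEQ.Key
import Fermat.Agent.S55.INEQ.LocProd

/-!
# S55-INEQ : (I2) the second inequality
-/

set_option autoImplicit false

open IsDedekindDomain NumberField

namespace Fermat.Agent.S55.INEQ

section abstract

variable {G ι : Type*} [CommGroup G]

/-- abstract diagonal map. -/
noncomputable def secondIneqDiag (A : ι → Subgroup G) : G →* ((i : ι) → G ⧸ A i) :=
  MonoidHom.pi fun i => QuotientGroup.mk' (A i)

theorem secondIneqDiag_mem_ker (A : ι → Subgroup G) (x : G) :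
    x ∈ (secondIneqDiag A).ker ↔ ∀ i, x ∈ A i := by
  rw [MonoidHom.mem_ker, funext_iff]
  exact forall_congr' fun i => QuotientGroup.eq_one_iff x

/-- the comparison map `∏ G / A i → ∏ G / B i` for `A i ≤ B i`. -/
noncomputable def secondIneqProj (A B : ι → Subgroup G) (h : ∀ i, A i ≤ B i) :
    ((i : ι) → G ⧸ A i) →* ((i : ι) → G ⧸ B i) :=
  MonoidHom.pi fun i =>
    (QuotientGroup.map (A i) (B i) (MonoidHom.id G) (h i)).comp (Pi.evalMonoidHom _ i)

theorem secondIneqProj_surjective (A B : ι → Subgroup G) (h : ∀ i, A i ≤ B i) :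
    Function.Surjective (secondIneqProj A B h) := by
  intro v
  choose r hr using fun i => QuotientGroup.mk_surjective (v i)
  refine ⟨fun i => QuotientGroup.mk (r i), ?_⟩
  funext i
  rw [← hr i]
  rfl

theorem secondIneqProj_comp_diag (A B : ι → Subgroup G) (h : ∀ i, A i ≤ B i) :
    (secondIneqProj A B h).comp (secondIneqDiag A) = secondIneqDiag B := by
  ext x
  rfl

theorem secondIneq_abstract [Fintype ι] (p k : ℕ) (hp : 0 < p) (A B : ι → Subgroup G)
    (h : ∀ i, A i ≤ B i) (P W U : Subgroup G)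
    (hker : ∀ x ∈ W, (∀ i, x ∈ A i) ↔ x ∈ P)
    (hidx : P.relIndex W = p ^ k)
    (hprod : ∏ i, (A i).index ≤ p ^ (k + 1)) (hne : ∀ i, (A i).index ≠ 0)
    (hUW : U ≤ W) (hWU : ∀ x ∈ W, ∃ z, (∀ i, z ∈ B i) ∧ x * z ∈ U) :
    (Subgroup.map (secondIneqDiag B) U).index ≠ 0 ∧ (Subgroup.map (secondIneqDiag B) U).index ≤ p := by
  have hker' : (secondIneqDiag A).ker ⊓ W = P ⊓ W := by
    ext x
    simp only [Subgroup.mem_inf, secondIneqDiag_mem_ker]
    constructor
    · rintro ⟨h1, h2⟩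
      exact ⟨(hker x h2).1 h1, h2⟩
    · rintro ⟨h1, h2⟩
      exact ⟨(hker x h2).2 h1, h2⟩
  have hcardW : Nat.card (Subgroup.map (secondIneqDiag A) W) = p ^ k := by
    rw [← Subgroup.relIndex_ker, ← Subgroup.inf_relIndex_right, hker', Subgroup.inf_relIndex_right,
      hidx]
  have hP : Nat.card ((i : ι) → G ⧸ A i) = ∏ i, (A i).index := Nat.card_pi
  have hmul := Subgroup.index_mul_card (Subgroup.map (secondIneqDiag A) W)
  rw [hcardW, hP] at hmul
  have hidx0 : (Subgroup.map (secondIneqDiag A) W).index ≠ 0 := by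
    intro h0
    rw [h0, zero_mul] at hmul
    exact (Finset.prod_ne_zero_iff.2 fun i _ => hne i) hmul.symm
  have hidxle : (Subgroup.map (secondIneqDiag A) W).index ≤ p := by
    rw [← hmul, pow_succ, mul_comm (p ^ _) p] at hprod
    exact Nat.le_of_mul_le_mul_right hprod (pow_pos hp _)
  have hmap : Subgroup.map (secondIneqDiag B) U =
      Subgroup.map (secondIneqProj A B h) (Subgroup.map (secondIneqDiag A) W) := by
    rw [Subgroup.map_map, secondIneqProj_comp_diag]
    apply le_antisymm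
    · exact Subgroup.map_mono hUW
    · rintro _ ⟨x, hx, rfl⟩
      obtain ⟨z, hz, hxz⟩ := hWU x hx
      refine ⟨_, hxz, ?_⟩
      rw [map_mul]
      have : secondIneqDiag B z = 1 := (secondIneqDiag_mem_ker B _).2 hz
      rw [this, mul_one]
  have hdvd := Subgroup.index_map_dvd (Subgroup.map (secondIneqDiag A) W)
    (secondIneqProj_surjective A B h)
  rw [hmap]
  refine ⟨fun h0 => hidx0 ?_, (Nat.le_of_dvd (Nat.pos_of_ne_zero hidx0) hdvd).trans hidxle⟩
  rw [h0] at hdvd
  exact Nat.eq_zero_of_zero_dvd hdvd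

end abstract


variable (p : ℕ) [Fact p.Prime] {F : Type*} [Field F] [NumberField F]
  {E : Type*} [Field E] [NumberField E] [Algebra F E] [IsGalois F E]

omit [Fact p.Prime] in
theorem secondIneq_exists_val (hp : p ≠ 0) (w : HeightOneSpectrum (𝓞 F)) :
    ∃ e : ℕ, w.valuation F (p : F) = WithZero.exp (-(e : ℤ)) := by
  have h0 : ((p : 𝓞 F)) ≠ 0 := by exact_mod_cast hp
  refine ⟨multiplicity w.asIdeal (Ideal.span {(p : 𝓞 F)}), ?_⟩
  have : (p : F) = algebraMap (𝓞 F) F (p : 𝓞 F) := by simp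
  rw [this, HeightOneSpectrum.valuation_of_algebraMap,
    HeightOneSpectrum.intValuation_eq_exp_neg_multiplicity _ h0]

theorem secondIneq_unit_mono {T T' : Set (HeightOneSpectrum (𝓞 F))} (h : T ⊆ T') :
    T.unit F ≤ T'.unit F := fun _ hx v hv => hx v (fun hv' => hv (h hv'))

omit [Fact p.Prime] in
theorem secondIneq_pows_le_locPow (w : HeightOneSpectrum (𝓞 F)) : pows p Fˣ ≤ locPow p w :=
  le_iInf fun _ => le_sup_left

/-- **(I2)** second inequality: the image of `F_T` in `∏_{w ∈ T} Fˣ / 𝒩 w` has index `≤ p`. -/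
theorem index_map_diag_le (hp2 : p ≠ 2) {ζ : F} (hζ : IsPrimitiveRoot ζ p)
    (hdeg : Module.finrank F E = p) {T : Set (HeightOneSpectrum (𝓞 F))} (hL : Large p E T)
    (a : Fˣ) (haT : a ∈ T.unit F) (ha : ¬ ∃ y : Fˣ, y ^ p = a) (α : E) (hα : α ^ p = algebraMap F E a)
    {𝒩 : HeightOneSpectrum (𝓞 F) → Subgroup Fˣ} (h𝒩 : LocalNorm E 𝒩) :
    (Subgroup.map (N := (w : T) → Fˣ ⧸ 𝒩 w) (diag T 𝒩) (T.unit F)).index ≠ 0 ∧
      (Subgroup.map (N := (w : T) → Fˣ ⧸ 𝒩 w) (diag T 𝒩) (T.unit F)).index ≤ p := by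
  classical
  have hpp : p.Prime := Fact.out
  have hT := hL.finite
  obtain ⟨Ts, hTsfin, hdisj, hcard, hpow, hsurj⟩ :=
    exists_aux_primes p hζ hL.finite hL.containsP a haT ha
  have hsplit : ∀ w ∈ Ts, ¬ Nonsplit E w := by
    intro w hw
    have hwT : w ∉ T := fun h => (Set.disjoint_left.1 hdisj) h hw
    exact not_nonsplit_of_isPowMod p E hζ hdeg a ha α hα w (hL.containsP w hwT) (hpow w hw)
  have hWidx : (pows p Fˣ).relIndex ((T ∪ Ts).unit F) = p ^ (2 * T.ncard + 2 * Units.rank F + 1) := by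
    rw [relIndex_pows_unit p hζ (hT.union hTsfin), Set.ncard_union_eq hdisj hT hTsfin, hcard]
    congr 1
    ring
  have : Finite T := hT.to_subtype
  let _ : Fintype T := Fintype.ofFinite T
  have hprod : ∏ w : T, (locPow p (w : HeightOneSpectrum (𝓞 F))).index ≤
      p ^ (2 * T.ncard + 2 * Units.rank F + 1 + 1) := by
    rw [← Finset.prod_subtype hT.toFinset (fun x => hT.mem_toFinset) (fun w => (locPow p w).index)]
    refine (prod_index_locPow_le p hζ hT.toFinset).trans (le_of_eq ?_)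
    rw [finrank_eq_two_mul p hp2 hζ, ← Set.ncard_eq_toFinset_card T hT]
    congr 1
  exact secondIneq_abstract p _ hpp.pos (fun w : T => locPow p (w : HeightOneSpectrum (𝓞 F)))
    (fun w : T => 𝒩 w) (fun w => h𝒩.locPow_le p hdeg w) (pows p Fˣ) ((T ∪ Ts).unit F) (T.unit F)
    (fun x hx => ⟨fun h => by
        obtain ⟨y, hy⟩ := key_lemma p hp2 hζ hT hL.containsP hL.principal hTsfin hsurj x hx
          (fun w hw => h ⟨w, hw⟩)
        exact ⟨y, hy⟩,
      fun h w => secondIneq_pows_le_locPow p _ h⟩)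
    hWidx hprod
    (fun w => by
      obtain ⟨e, he⟩ := secondIneq_exists_val p hpp.ne_zero (w : HeightOneSpectrum (𝓞 F))
      exact (index_locPow_le p hζ _ e he).1)
    (secondIneq_unit_mono Set.subset_union_left)
    (fun x hx => by
      obtain ⟨z, hz⟩ := exists_norm_mul_mem_unit p hdeg hL hTsfin hsplit x hx
      exact ⟨_, fun w => h𝒩.norm_mem w z, hz⟩)

end Fermat.Agent.S55.INEQ
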