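import Fermat.Agent.S55.INEQ.Val2
import Fermat.Agent.S55.INEQ.Kummer

/-!
# S55-INEQ : splitting and ramification in Kummer extensions
-/

set_option autoImplicit false

open IsDedekindDomain NumberField

namespace Fermat.Agent.S55.INEQ

/-- a root of unity has valuation `1`. -/
theorem Split_val_eq_one_of_pow {K Γ : Type*} [Field K] [LinearOrderedCommGroupWithZero Γ]
    (v : Valuation K Γ) {μ : K} {n : ℕ} (hn : n ≠ 0) (h : μ ^ n = 1) : v μ = 1 := by
  have h1 : v μ ^ n = 1 := by rw [← map_pow, h, map_one]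
  exact (pow_eq_one_iff_of_nonneg zero_le hn).1 h1

/-- if `p` is a unit at `v` (and the roots of unity are `v`-integral, which is automatic), then
`1 - μ` is a unit for each primitive `p`-th root of unity. -/
theorem Split_val_sub_one {K Γ : Type*} [Field K] [LinearOrderedCommGroupWithZero Γ]
    (v : Valuation K Γ) {p : ℕ} (hp : p.Prime) {ζ : K} (hζ : IsPrimitiveRoot ζ p)
    (hvp : v (p : K) = 1) : v (ζ - 1) = 1 := by
  have : Fact p.Prime := ⟨hp⟩
  have h1 : (Polynomial.cyclotomic p K).eval 1 = (p : K) := Polynomial.eval_one_cyclotomic_prime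
  rw [Polynomial.cyclotomic_eq_prod_X_sub_primitiveRoots hζ, Polynomial.eval_prod] at h1
  have h2 : ∏ μ ∈ primitiveRoots p K, v (1 - μ) = 1 := by
    rw [← hvp, ← h1, map_prod]
    simp
  have hle : ∀ μ ∈ primitiveRoots p K, v (1 - μ) ≤ 1 := by
    intro μ hμ
    have hμ' := (mem_primitiveRoots hp.pos).1 hμ
    have := Split_val_eq_one_of_pow v hp.ne_zero hμ'.pow_eq_one
    refine (Valuation.map_sub v 1 μ).trans ?_
    simp [this]
  have h3 := (Finset.prod_eq_one_iff_of_le_one' hle).1 h2 ζ ((mem_primitiveRoots hp.pos).2 hζ)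
  rw [← Valuation.map_sub_swap]
  exact h3

variable (p : ℕ) [Fact p.Prime] {F : Type*} [Field F] [NumberField F]
  (E : Type*) [Field E] [NumberField E] [Algebra F E] [IsGalois F E]

/-- **splitting criterion** (wild or tame): if `x / y^p` is closer to `1` than `(ζ-1)^p` at `w`
then `w` splits in `F(x^(1/p))`. -/
theorem not_nonsplit_of_close {ζ : F} (hζ : IsPrimitiveRoot ζ p) (hdeg : Module.finrank F E = p)
    (x : Fˣ) (hx : ¬ ∃ y : Fˣ, y ^ p = x) (α : E) (hα : α ^ p = algebraMap F E x)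
    (w : HeightOneSpectrum (𝓞 F)) (y : Fˣ)
    (hy : w.valuation F (((x / y ^ p : Fˣ) : F) - 1) < w.valuation F ((ζ - 1) ^ p)) :
    ¬ Nonsplit E w := by
  intro hns
  have hp : p.Prime := Fact.out
  obtain ⟨P, hP⟩ := exists_under_eq E w
  obtain ⟨e, he, hval⟩ := exists_valuation_algebraMap (F := F) P
  rw [hP] at hval
  have hinv : ∀ (σ : E ≃ₐ[F] E) (t : E), P.valuation E (σ t) = P.valuation E t := by
    intro σ t
    have := valuation_galMap σ P t
    rwa [galMap_eq_of_nonsplit hns P hP σ] at this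
  obtain ⟨σ, hσα, -, -⟩ := exists_gal_smul p E hζ hdeg x hx α hα
  set v := P.valuation E with hv
  set ζE : E := algebraMap F E ζ with hζE
  have hζE' : IsPrimitiveRoot ζE p := hζ.map_of_injective (algebraMap F E).injective
  set β : E := α / algebraMap F E y with hβ
  have hy0 : algebraMap F E (y : F) ≠ 0 := by simp
  have hβp : β ^ p - 1 = algebraMap F E (((x / y ^ p : Fˣ) : F) - 1) := by
    rw [hβ, div_pow, hα]
    simp
  have hprod : β ^ p - 1 = ∏ μ ∈ Polynomial.nthRootsFinset p (1 : E), (β - μ) := by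
    have := hζE'.pow_sub_pow_eq_prod_sub_mul β 1 hp.pos
    simpa using this
  have hlt : v (β ^ p - 1) < v (ζE - 1) ^ p := by
    have e1 : v (ζE - 1) ^ p = w.valuation F ((ζ - 1) ^ p) ^ e := by
      have e2 : algebraMap F E ((ζ - 1) ^ p) = (ζE - 1) ^ p := by
        rw [map_pow, map_sub, map_one]
      rw [← hval, e2, map_pow]
    rw [hβp, hval, e1]
    exact pow_lt_pow_left₀ hy zero_le he.ne'
  -- some factor is small
  have hex : ∃ μ ∈ Polynomial.nthRootsFinset p (1 : E), v (β - μ) < v (ζE - 1) := by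
    by_contra hcon
    push Not at hcon
    have h1 := Finset.pow_card_le_prod (Polynomial.nthRootsFinset p (1 : E))
      (fun μ => v (β - μ)) (v (ζE - 1)) hcon
    rw [hζE'.card_nthRootsFinset, ← map_prod, ← hprod] at h1
    exact absurd hlt (not_lt.2 h1)
  obtain ⟨μ, hμ, hμlt⟩ := hex
  have hμ1 : μ ^ p = 1 := (Polynomial.mem_nthRootsFinset hp.pos (1 : E)).1 hμ
  obtain ⟨i, -, hi⟩ := hζE'.eq_pow_of_pow_eq_one hμ1
  have hσμ : σ μ = μ := by
    rw [← hi, hζE, ← map_pow, AlgEquiv.commutes]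
  have hσβ : σ β = ζE * β := by
    rw [hβ, map_div₀, hσα, AlgEquiv.commutes, mul_div_assoc]
  have h2 : v (ζE * β - μ) < v (ζE - 1) := by
    have := hinv σ (β - μ)
    rw [map_sub, hσβ, hσμ] at this
    rw [this]
    exact hμlt
  have hvζ : v ζE = 1 := Split_val_eq_one_of_pow v hp.ne_zero hζE'.pow_eq_one
  have hvμ : v μ = 1 := Split_val_eq_one_of_pow v hp.ne_zero hμ1
  have h3 : v (ζE * (β - μ)) < v (ζE - 1) := by
    rw [map_mul, hvζ, one_mul]
    exact hμlt
  have h4 : v (ζE - 1) < v (ζE - 1) := by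
    have e2 : μ * (ζE - 1) = (ζE * β - μ) - ζE * (β - μ) := by ring
    calc v (ζE - 1) = v (μ * (ζE - 1)) := by rw [map_mul, hvμ, one_mul]
      _ = v ((ζE * β - μ) - ζE * (β - μ)) := by rw [e2]
      _ < v (ζE - 1) := Valuation.map_sub_lt v h2 h3
  exact lt_irrefl _ h4

theorem not_nonsplit_of_isPowMod {ζ : F} (hζ : IsPrimitiveRoot ζ p)
    (hdeg : Module.finrank F E = p)
    (x : Fˣ) (hx : ¬ ∃ y : Fˣ, y ^ p = x) (α : E) (hα : α ^ p = algebraMap F E x)
    (w : HeightOneSpectrum (𝓞 F)) (hwp : w.valuation F (p : F) = 1) (h : IsPowMod p w x) :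
    ¬ Nonsplit E w := by
  have hp : p.Prime := Fact.out
  obtain ⟨y', ⟨y, rfl⟩, z, hz, hyz⟩ := Subgroup.mem_sup.1 h
  refine not_nonsplit_of_close p E hζ hdeg x hx α hα w y ?_
  have h1 : (x / y ^ p : Fˣ) = z := by
    rw [← hyz]
    simp
  rw [h1, map_pow, Split_val_sub_one (w.valuation F) hp hζ hwp, one_pow]
  simpa using mem_princ.1 hz

theorem not_nonsplit_of_mem_locPow {ζ : F} (hζ : IsPrimitiveRoot ζ p)
    (hdeg : Module.finrank F E = p)
    (x : Fˣ) (hx : ¬ ∃ y : Fˣ, y ^ p = x) (α : E) (hα : α ^ p = algebraMap F E x)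
    (w : HeightOneSpectrum (𝓞 F)) (h : x ∈ locPow p w) :
    ¬ Nonsplit E w := by
  have hp : p.Prime := Fact.out
  have hne : w.valuation F ((ζ - 1) ^ p) ≠ 0 := by
    rw [Valuation.ne_zero_iff]
    exact pow_ne_zero _ (sub_ne_zero.2 (hζ.ne_one hp.one_lt))
  set c := w.valuation F ((ζ - 1) ^ p) with hc
  set n : ℕ := (- WithZero.log c).toNat with hn
  have hle : WithZero.exp (-(n : ℤ)) ≤ c := by
    conv_rhs => rw [← WithZero.exp_log hne]
    rw [WithZero.exp_le_exp, hn]
    have := Int.self_le_toNat (- WithZero.log c)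
    omega
  have hmem : x ∈ pows p Fˣ ⊔ princ w n := (Subgroup.mem_iInf.1 h) n
  obtain ⟨y', ⟨y, rfl⟩, z, hz, hyz⟩ := Subgroup.mem_sup.1 hmem
  refine not_nonsplit_of_close p E hζ hdeg x hx α hα w y ?_
  have h1 : (x / y ^ p : Fˣ) = z := by
    rw [← hyz]
    simp
  rw [h1]
  exact lt_of_lt_of_le (mem_princ.1 hz) hle

/-- Kummer extensions are unramified outside `p x`. -/
theorem unramOutside_kummer {ζ : F} (hζ : IsPrimitiveRoot ζ p) (hdeg : Module.finrank F E = p)
    (x : Fˣ) (hx' : ¬ ∃ y : Fˣ, y ^ p = x) (α : E) (hα : α ^ p = algebraMap F E x)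
    {T : Set (HeightOneSpectrum (𝓞 F))} (hT : ContainsP p T) (hx : x ∈ T.unit F) :
    UnramOutside E T := by
  intro P hPT a
  have hp : p.Prime := Fact.out
  set w := P.under (𝓞 F) with hw
  have hwp : w.valuation F (p : F) = 1 := hT w hPT
  have hwx : w.valuation F (x : F) = 1 := hx w hPT
  have : P.asIdeal.LiesOver w.asIdeal := ⟨rfl⟩
  have hval := HeightOneSpectrum.valuation_liesOver (K := F) E w P
  suffices h : w.asIdeal.ramificationIdx' P.asIdeal = 1 by rw [← hval, h, pow_one]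
  set v := P.valuation E with hv
  have hone : ∀ c : F, w.valuation F c = 1 → v (algebraMap F E c) = 1 := by
    intro c hc
    rw [← hval, hc, one_pow]
  rw [Ideal.ramificationIdx'_eq_ramificationIdx _ _ w.ne_bot]
  have := IsGaloisGroup.of_isFractionRing Gal(E/F) (𝓞 F) (𝓞 E) F E
  have h1 := Ideal.card_inertia_eq_ramificationIdxIn (G := Gal(E/F)) w.asIdeal P.asIdeal
  rw [Ideal.ramificationIdxIn_eq_ramificationIdx w.asIdeal P.asIdeal Gal(E/F)] at h1
  rw [← h1]
  suffices hbot : P.asIdeal.inertia Gal(E/F) = ⊥ by rw [hbot]; simp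
  rw [Subgroup.eq_bot_iff_forall]
  intro τ hτ
  obtain ⟨σ, hσα, -, hgen⟩ := exists_gal_smul p E hζ hdeg x hx' α hα
  obtain ⟨k, rfl⟩ := hgen τ
  set ζE : E := algebraMap F E ζ with hζE
  have hζE' : IsPrimitiveRoot ζE p := hζ.map_of_injective (algebraMap F E).injective
  have hσk : ∀ k : ℕ, (σ ^ k) α = ζE ^ k * α := by
    intro k
    induction k with
    | zero => simp
    | succ k ih =>
      rw [pow_succ', AlgEquiv.mul_apply, ih, map_mul, map_pow, hσα, hζE, AlgEquiv.commutes]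
      ring
  have hσp : σ ^ p = 1 := by
    have := pow_card_eq_one' (G := Gal(E/F)) (x := σ)
    rwa [IsGalois.card_aut_eq_finrank, hdeg] at this
  by_cases hpk : p ∣ k
  · obtain ⟨m, rfl⟩ := hpk
    rw [pow_mul, hσp, one_pow]
  exfalso
  have hcop : k.Coprime p := ((Nat.Prime.coprime_iff_not_dvd hp).2 hpk).symm
  have hprim : IsPrimitiveRoot (ζE ^ k) p := hζE'.pow_of_coprime k hcop
  have hvp : v (p : E) = 1 := by
    have := hone (p : F) hwp
    simpa using this
  have hunit : v (ζE ^ k - 1) = 1 := Split_val_sub_one v hp hprim hvp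
  -- an integral multiple of `α` which is a `P`-unit
  obtain ⟨n, d, hnd⟩ := w.exists_primeCompl_mul_eq_of_integer (x : F) hwx.le
  have hvd : w.valuation F (algebraMap (𝓞 F) F d) = 1 := by
    rw [HeightOneSpectrum.valuation_of_algebraMap]
    exact (w.intValuation_eq_one_iff_mem_primeCompl d).2 d.2
  set dE : E := algebraMap F E (algebraMap (𝓞 F) F d) with hdE
  have hint : IsIntegral ℤ (α * dE) := by
    refine IsIntegral.of_pow hp.pos ?_
    have e1 : (α * dE) ^ p
        = algebraMap F E (algebraMap (𝓞 F) F (n * (d : 𝓞 F) ^ (p - 1))) := by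
      rw [mul_pow, hα, hdE, ← map_pow, ← map_mul, map_mul (algebraMap (𝓞 F) F), ← hnd, map_pow]
      congr 1
      obtain ⟨m, hm⟩ : ∃ m, p = m + 1 := ⟨p - 1, by have := hp.pos; omega⟩
      rw [hm, Nat.add_sub_cancel]
      ring
    rw [e1]
    exact ((n * (d : 𝓞 F) ^ (p - 1) : 𝓞 F).isIntegral_coe).map (algebraMap F E).toIntAlgHom
  set b : 𝓞 E := ⟨α * dE, hint⟩ with hb
  have hvα : v α = 1 := by
    have h2 : v α ^ p = 1 := by rw [← map_pow, hα]; exact hone _ hwx
    exact (pow_eq_one_iff_of_nonneg zero_le hp.ne_zero).1 h2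
  have hvb : v (α * dE) = 1 := by
    rw [map_mul, hvα, one_mul]
    exact hone _ hvd
  have hmem := hτ b
  have hlt : v (algebraMap (𝓞 E) E ((σ ^ k) • b - b)) < 1 :=
    (P.valuation_lt_one_iff_mem _).2 hmem
  have e2 : algebraMap (𝓞 E) E ((σ ^ k) • b - b) = (ζE ^ k - 1) * (α * dE) := by
    have e3 : algebraMap (𝓞 E) E ((σ ^ k) • b) = (σ ^ k) (α * dE) := rfl
    rw [map_sub, e3, map_mul, hσk, hdE, AlgEquiv.commutes]
    change _ - α * dE = _
    rw [hdE]
    ring
  rw [e2, map_mul, hunit, hvb, one_mul] at hlt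
  exact lt_irrefl _ hlt

end Fermat.Agent.S55.INEQ
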