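import Fermat.Agent.S55.INEQ.Defs

/-!
# S55-INEQ : toolkit on valuations, Galois action on primes, norms
-/

set_option autoImplicit false
set_option linter.unusedSectionVars false

open IsDedekindDomain NumberField

namespace Fermat.Agent.S55.INEQ

theorem Val_asIdeal_equiv {R S : Type*} [CommRing R] [CommRing S] (e : R ≃+* S)
    (v : HeightOneSpectrum R) :
    (HeightOneSpectrum.equivOfRingEquiv e v).asIdeal = Ideal.map e v.asIdeal := by
  have h : (HeightOneSpectrum.equivOfRingEquiv e v).asIdeal = Ideal.comap e.symm v.asIdeal := rfl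
  rw [h, Ideal.comap_symm]

theorem Val_mem_pow_equiv {R S : Type*} [CommRing R] [CommRing S] (e : R ≃+* S)
    (v : HeightOneSpectrum R) (r : R) (n : ℕ) :
    e r ∈ (HeightOneSpectrum.equivOfRingEquiv e v).asIdeal ^ n ↔ r ∈ v.asIdeal ^ n := by
  rw [Val_asIdeal_equiv, ← Ideal.map_pow, Ideal.mem_map_of_equiv]
  constructor
  · rintro ⟨x, hx, h⟩
    rwa [← e.injective h]
  · intro h
    exact ⟨r, h, rfl⟩

theorem Val_intValuation_equiv {R S : Type*} [CommRing R] [IsDedekindDomain R] [CommRing S]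
    [IsDedekindDomain S] (e : R ≃+* S) (v : HeightOneSpectrum R) (r : R) :
    (HeightOneSpectrum.equivOfRingEquiv e v).intValuation (e r) = v.intValuation r := by
  rcases eq_or_ne r 0 with rfl | hr
  · simp
  have hr' : e r ≠ 0 := by simpa using hr
  apply le_antisymm
  · rw [v.intValuation_eq_exp_neg_multiplicity hr, HeightOneSpectrum.intValuation_le_pow_iff_mem,
      Val_mem_pow_equiv, ← HeightOneSpectrum.intValuation_le_pow_iff_mem,
      v.intValuation_eq_exp_neg_multiplicity hr]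
  · rw [(HeightOneSpectrum.equivOfRingEquiv e v).intValuation_eq_exp_neg_multiplicity hr',
      HeightOneSpectrum.intValuation_le_pow_iff_mem, ← Val_mem_pow_equiv e,
      ← HeightOneSpectrum.intValuation_le_pow_iff_mem,
      (HeightOneSpectrum.equivOfRingEquiv e v).intValuation_eq_exp_neg_multiplicity hr']

variable {F E : Type*} [Field F] [NumberField F] [Field E] [NumberField E] [Algebra F E]

/-- the action of `Gal(E/F)` on the primes of `E` : `galMap σ P = σ(P)`. -/
noncomputable def galMap (σ : E ≃ₐ[F] E) : HeightOneSpectrum (𝓞 E) ≃ HeightOneSpectrum (𝓞 E) :=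
  HeightOneSpectrum.equivOfRingEquiv (RingOfIntegers.mapRingEquiv σ.toRingEquiv)

theorem Val_mem_galMap (σ : E ≃ₐ[F] E) (P : HeightOneSpectrum (𝓞 E)) (x : 𝓞 E) :
    x ∈ (galMap σ P).asIdeal ↔ (RingOfIntegers.mapRingEquiv σ.toRingEquiv).symm x ∈ P.asIdeal :=
  Iff.rfl

theorem valuation_galMap (σ : E ≃ₐ[F] E) (P : HeightOneSpectrum (𝓞 E)) (y : E) :
    (galMap σ P).valuation E (σ y) = P.valuation E y := by
  obtain ⟨a, b, -, rfl⟩ := IsFractionRing.div_surjective (A := 𝓞 E) y
  have h : ∀ a : 𝓞 E, σ (algebraMap (𝓞 E) E a) =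
      algebraMap (𝓞 E) E (RingOfIntegers.mapRingEquiv σ.toRingEquiv a) := fun a => rfl
  rw [map_div₀, h, h, map_div₀, map_div₀, HeightOneSpectrum.valuation_of_algebraMap,
    HeightOneSpectrum.valuation_of_algebraMap, HeightOneSpectrum.valuation_of_algebraMap,
    HeightOneSpectrum.valuation_of_algebraMap, galMap, Val_intValuation_equiv,
    Val_intValuation_equiv]

theorem under_galMap (σ : E ≃ₐ[F] E) (P : HeightOneSpectrum (𝓞 E)) :
    (galMap σ P).under (𝓞 F) = P.under (𝓞 F) := by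
  ext x
  have h : (RingOfIntegers.mapRingEquiv σ.toRingEquiv).symm (algebraMap (𝓞 F) (𝓞 E) x) =
      algebraMap (𝓞 F) (𝓞 E) x := by
    apply RingOfIntegers.ext
    show σ.symm (algebraMap F E x) = algebraMap F E x
    exact σ.symm.commutes _
  show algebraMap (𝓞 F) (𝓞 E) x ∈ (galMap σ P).asIdeal ↔ algebraMap (𝓞 F) (𝓞 E) x ∈ P.asIdeal
  rw [Val_mem_galMap, h]

theorem galMap_one (P : HeightOneSpectrum (𝓞 E)) : galMap (1 : E ≃ₐ[F] E) P = P := by
  ext x
  rw [Val_mem_galMap]
  rfl

theorem galMap_mul (σ τ : E ≃ₐ[F] E) (P : HeightOneSpectrum (𝓞 E)) :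
    galMap (σ * τ) P = galMap σ (galMap τ P) := by
  ext x
  rw [Val_mem_galMap, Val_mem_galMap, Val_mem_galMap]
  rfl

theorem exists_galMap_eq [IsGalois F E] (P Q : HeightOneSpectrum (𝓞 E))
    (h : P.under (𝓞 F) = Q.under (𝓞 F)) : ∃ σ : E ≃ₐ[F] E, galMap σ P = Q := by
  have := IsGaloisGroup.of_isFractionRing Gal(E/F) (𝓞 F) (𝓞 E) F E
  have := P.isPrime
  have := Q.isPrime
  have h1 : P.asIdeal.under (𝓞 F) = Q.asIdeal.under (𝓞 F) :=
    congrArg HeightOneSpectrum.asIdeal h
  obtain ⟨σ, hσ⟩ := Algebra.IsInvariant.exists_smul_of_under_eq (𝓞 F) (𝓞 E) Gal(E/F)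
    P.asIdeal Q.asIdeal h1
  refine ⟨σ, ?_⟩
  ext x
  rw [hσ, Val_mem_galMap, Ideal.pointwise_smul_eq_comap]
  rfl

variable (E) in
theorem exists_under_eq (w : HeightOneSpectrum (𝓞 F)) :
    ∃ P : HeightOneSpectrum (𝓞 E), P.under (𝓞 F) = w := by
  have := w.isMaximal
  obtain ⟨Q, hQm, hQw⟩ := Ideal.exists_maximal_ideal_liesOver_of_isIntegral (S := 𝓞 E) w.asIdeal
  have hne : Q ≠ ⊥ := by
    rintro rfl
    apply w.ne_bot
    rw [hQw.over, Ideal.under_bot]
  refine ⟨⟨Q, hQm.isPrime, hne⟩, ?_⟩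
  ext x
  show x ∈ Q.under (𝓞 F) ↔ _
  rw [← hQw.over]

/-- a prime is determined by its valuation ring. -/
theorem eq_of_valuation_le_one {P Q : HeightOneSpectrum (𝓞 F)}
    (h : ∀ x : F, P.valuation F x < 1 → Q.valuation F x < 1) : P = Q := by
  have hle : P.asIdeal ≤ Q.asIdeal := by
    intro x hx
    have h1 := h (algebraMap (𝓞 F) F x)
    rw [HeightOneSpectrum.valuation_of_algebraMap, HeightOneSpectrum.valuation_of_algebraMap,
      HeightOneSpectrum.intValuation_lt_one_iff_mem, HeightOneSpectrum.intValuation_lt_one_iff_mem]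
      at h1
    exact h1 hx
  ext1
  exact P.isMaximal.eq_of_le Q.isPrime.ne_top hle

/-- ramification index, in valuation form. -/
theorem exists_valuation_algebraMap (P : HeightOneSpectrum (𝓞 E)) :
    ∃ e : ℕ, 0 < e ∧ ∀ x : F, P.valuation E (algebraMap F E x) = (P.under (𝓞 F)).valuation F x ^ e := by
  have : P.asIdeal.LiesOver (P.under (𝓞 F)).asIdeal := ⟨rfl⟩
  refine ⟨(P.under (𝓞 F)).asIdeal.ramificationIdx' P.asIdeal, Nat.pos_of_ne_zero
    (Ideal.IsDedekindDomain.ramificationIdx'_ne_zero_of_liesOver P.asIdeal (P.under (𝓞 F)).ne_bot),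
    fun x => ?_⟩
  exact (HeightOneSpectrum.valuation_liesOver E (P.under (𝓞 F)) P x).symm

theorem Val_finite_intValuation_ne_one {a : 𝓞 F} (ha : a ≠ 0) :
    {v : HeightOneSpectrum (𝓞 F) | v.intValuation a ≠ 1}.Finite := by
  have h := Ideal.finite_factors (I := Ideal.span {a}) (by simpa using ha)
  refine h.subset fun v hv => ?_
  have h1 : v.intValuation a < 1 := lt_of_le_of_ne (v.intValuation_le_one a) hv
  exact (v.intValuation_lt_one_iff_dvd a).mp h1

theorem finite_valuation_ne_one (x : Fˣ) :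
    {v : HeightOneSpectrum (𝓞 F) | v.valuation F (x : F) ≠ 1}.Finite := by
  obtain ⟨a, b, hb, hab⟩ := IsFractionRing.div_surjective (A := 𝓞 F) (x : F)
  have hb0 : b ≠ 0 := nonZeroDivisors.ne_zero hb
  have ha0 : a ≠ 0 := by
    rintro rfl
    rw [map_zero, zero_div] at hab
    exact x.ne_zero hab.symm
  refine ((Val_finite_intValuation_ne_one ha0).union
    (Val_finite_intValuation_ne_one hb0)).subset fun v hv => ?_
  by_contra hcon
  simp only [Set.mem_union, Set.mem_ofPred_eq, not_or, not_not] at hcon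
  apply hv
  rw [← hab, map_div₀, HeightOneSpectrum.valuation_of_algebraMap,
    HeightOneSpectrum.valuation_of_algebraMap, hcon.1, hcon.2, div_one]

variable (E) in
theorem above_finite {T : Set (HeightOneSpectrum (𝓞 F))} (hT : T.Finite) : (above E T).Finite := by
  have h1 : above E T = ⋃ w ∈ T, {P : HeightOneSpectrum (𝓞 E) | P.under (𝓞 F) = w} := by
    ext P
    simp [above]
  rw [h1]
  refine hT.biUnion fun w _ => ?_
  have := w.isMaximal
  have h2 := IsDedekindDomain.primesOver_finite w.asIdeal (𝓞 E)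
  refine Set.Finite.of_finite_image (f := HeightOneSpectrum.asIdeal) (h2.subset ?_)
    (fun P _ Q _ h => HeightOneSpectrum.ext h)
  rintro _ ⟨P, hP, rfl⟩
  refine ⟨P.isPrime, ⟨?_⟩⟩
  rw [← (hP : P.under (𝓞 F) = w)]
  rfl

theorem galMap_mem_above (σ : E ≃ₐ[F] E) {T : Set (HeightOneSpectrum (𝓞 F))}
    {P : HeightOneSpectrum (𝓞 E)} : galMap σ P ∈ above E T ↔ P ∈ above E T := by
  show (galMap σ P).under (𝓞 F) ∈ T ↔ P.under (𝓞 F) ∈ T
  rw [under_galMap]

/-- `σ` preserves the `T`-units of `E`. -/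
theorem map_mem_unit_above (σ : E ≃ₐ[F] E) {T : Set (HeightOneSpectrum (𝓞 F))} {y : Eˣ} :
    Units.map (σ : E →* E) y ∈ (above E T).unit E ↔ y ∈ (above E T).unit E := by
  constructor
  · intro h P hP
    have h1 := h (galMap σ P) (fun h2 => hP ((galMap_mem_above σ).mp h2))
    rw [← valuation_galMap σ P]
    exact h1
  · intro h P hP
    have h1 := h ((galMap σ).symm P) (fun h2 => hP (by
      rw [← (galMap σ).apply_symm_apply P]; exact (galMap_mem_above σ).mpr h2))
    rw [← valuation_galMap σ, Equiv.apply_symm_apply] at h1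
    exact h1

theorem algebraMap_mem_unit_above {T : Set (HeightOneSpectrum (𝓞 F))} {x : Fˣ} :
    Units.map (algebraMap F E : F →* E) x ∈ (above E T).unit E ↔ x ∈ T.unit F := by
  constructor
  · intro h v hv
    obtain ⟨P, rfl⟩ := exists_under_eq E v
    obtain ⟨e, he, hval⟩ := exists_valuation_algebraMap (F := F) P
    have h1 : P.valuation E (algebraMap F E x) = 1 := h P hv
    rw [hval] at h1
    exact (pow_eq_one_iff.mp h1).resolve_right he.ne'
  · intro h P hP
    obtain ⟨e, he, hval⟩ := exists_valuation_algebraMap (F := F) P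
    show P.valuation E (algebraMap F E x) = 1
    rw [hval, h _ hP, one_pow]

end Fermat.Agent.S55.INEQ
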