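import Fermat.Agent.S55.INEQ.Val

/-!
# S55-INEQ : toolkit, part 2 : valuations of norms, counting primes above `T`
-/

set_option autoImplicit false
set_option linter.unusedSectionVars false

open IsDedekindDomain NumberField

namespace Fermat.Agent.S55.INEQ

variable {F E : Type*} [Field F] [NumberField F] [Field E] [NumberField E] [Algebra F E]

theorem Val2_galMap_inv_galMap (σ : E ≃ₐ[F] E) (P : HeightOneSpectrum (𝓞 E)) :
    galMap σ⁻¹ (galMap σ P) = P := by
  rw [← galMap_mul, inv_mul_cancel, galMap_one]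

theorem Val2_galMap_galMap_inv (σ : E ≃ₐ[F] E) (P : HeightOneSpectrum (𝓞 E)) :
    galMap σ (galMap σ⁻¹ P) = P := by
  rw [← galMap_mul, mul_inv_cancel, galMap_one]

/-- the valuation of a norm. -/
theorem valuation_algebraMap_norm [IsGalois F E] (P : HeightOneSpectrum (𝓞 E)) (y : E) :
    P.valuation E (algebraMap F E (Algebra.norm F y)) =
      ∏ σ : E ≃ₐ[F] E, (galMap σ P).valuation E y := by
  rw [Algebra.norm_eq_prod_automorphisms, map_prod, ← Equiv.prod_comp (Equiv.inv (E ≃ₐ[F] E))]
  refine Finset.prod_congr rfl fun σ _ => ?_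
  rw [Equiv.inv_apply, ← valuation_galMap σ⁻¹ (galMap σ P) y, Val2_galMap_inv_galMap]

theorem normU_mem_unit [IsGalois F E] {T : Set (HeightOneSpectrum (𝓞 F))} {y : Eˣ}
    (hy : y ∈ (above E T).unit E) : normU F E y ∈ T.unit F := by
  intro v hv
  obtain ⟨P, rfl⟩ := exists_under_eq E v
  obtain ⟨e, he, hval⟩ := exists_valuation_algebraMap (F := F) P
  have h1 := valuation_algebraMap_norm (F := F) P (y : E)
  rw [hval, Finset.prod_eq_one fun σ _ => hy (galMap σ P)
    (fun h2 => hv ((galMap_mem_above σ).mp h2))] at h1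
  exact (pow_eq_one_iff.mp h1).resolve_right he.ne'

theorem normU_algebraMap (x : Fˣ) :
    normU F E (Units.map (algebraMap F E : F →* E) x) = x ^ Module.finrank F E := by
  apply Units.ext
  show Algebra.norm F (algebraMap F E x) = _
  rw [Algebra.norm_algebraMap, Units.val_pow_eq_pow_val]

/-- the stabiliser of a prime. -/
def Val2_stab (P : HeightOneSpectrum (𝓞 E)) : Subgroup (E ≃ₐ[F] E) where
  carrier := {σ | galMap σ P = P}
  one_mem' := galMap_one P
  mul_mem' := by
    intro σ τ hσ hτ
    show galMap (σ * τ) P = P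
    rw [galMap_mul, (hτ : galMap τ P = P), (hσ : galMap σ P = P)]
  inv_mem' := by
    intro σ hσ
    show galMap σ⁻¹ P = P
    conv_lhs => rw [← (hσ : galMap σ P = P)]
    exact Val2_galMap_inv_galMap σ P

/-- if `w` is not nonsplit in a Galois extension of prime degree then the Galois group acts
freely on the primes above `w`. -/
theorem galMap_ne_of_not_nonsplit [IsGalois F E] {p : ℕ} (hp : p.Prime)
    (hdeg : Module.finrank F E = p) {w : HeightOneSpectrum (𝓞 F)} (hw : ¬ Nonsplit E w)
    (P : HeightOneSpectrum (𝓞 E)) (hP : P.under (𝓞 F) = w) (σ : E ≃ₐ[F] E) (hσ : σ ≠ 1) :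
    galMap σ P ≠ P := by
  intro h
  have : Fact (Nat.card (E ≃ₐ[F] E)).Prime := ⟨by rw [IsGalois.card_aut_eq_finrank, hdeg]; exact hp⟩
  rcases Subgroup.eq_bot_or_eq_top_of_prime_card (Val2_stab (F := F) P) with h1 | h1
  · have h2 : σ ∈ Val2_stab (F := F) P := h
    rw [h1, Subgroup.mem_bot] at h2
    exact hσ h2
  · apply hw
    have key : ∀ Q : HeightOneSpectrum (𝓞 E), Q.under (𝓞 F) = w → Q = P := by
      intro Q hQ
      obtain ⟨τ, rfl⟩ := exists_galMap_eq (F := F) P Q (hP.trans hQ.symm)
      have h2 : τ ∈ Val2_stab (F := F) P := by rw [h1]; trivial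
      exact h2
    intro Q Q' hQ hQ'
    rw [key Q hQ, key Q' hQ']

theorem galMap_eq_of_nonsplit {w : HeightOneSpectrum (𝓞 F)} (hw : Nonsplit E w)
    (P : HeightOneSpectrum (𝓞 E)) (hP : P.under (𝓞 F) = w) (σ : E ≃ₐ[F] E) :
    galMap σ P = P :=
  hw _ _ ((under_galMap σ P).trans hP) hP

theorem Val2_ncard_fiber_nonsplit {w : HeightOneSpectrum (𝓞 F)} (hw : Nonsplit E w) :
    {P : HeightOneSpectrum (𝓞 E) | P.under (𝓞 F) = w}.ncard = 1 := by
  obtain ⟨P, hP⟩ := exists_under_eq E w
  rw [Set.ncard_eq_one]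
  refine ⟨P, ?_⟩
  ext Q
  constructor
  · intro hQ
    exact hw _ _ hQ hP
  · rintro rfl
    exact hP

theorem Val2_ncard_fiber_split [IsGalois F E] {p : ℕ} (hp : p.Prime)
    (hdeg : Module.finrank F E = p) {w : HeightOneSpectrum (𝓞 F)} (hw : ¬ Nonsplit E w) :
    {P : HeightOneSpectrum (𝓞 E) | P.under (𝓞 F) = w}.ncard = p := by
  obtain ⟨P, hP⟩ := exists_under_eq E w
  have hinj : Function.Injective fun σ : E ≃ₐ[F] E => galMap σ P := by
    intro σ τ h
    by_contra hne
    have h1 : τ⁻¹ * σ ≠ 1 := fun h2 => hne (by rw [← mul_one τ, ← h2, mul_inv_cancel_left])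
    apply galMap_ne_of_not_nonsplit hp hdeg hw P hP _ h1
    have h' : galMap σ P = galMap τ P := h
    rw [galMap_mul, h', Val2_galMap_inv_galMap]
  have hrange : {Q : HeightOneSpectrum (𝓞 E) | Q.under (𝓞 F) = w} =
      (fun σ : E ≃ₐ[F] E => galMap σ P) '' Set.univ := by
    ext Q
    constructor
    · intro hQ
      obtain ⟨τ, rfl⟩ := exists_galMap_eq (F := F) P Q (hP.trans (hQ : Q.under (𝓞 F) = w).symm)
      exact ⟨τ, trivial, rfl⟩
    · rintro ⟨τ, -, rfl⟩
      exact (under_galMap τ P).trans hP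
  rw [hrange, Set.ncard_image_of_injective _ hinj, Set.ncard_univ, IsGalois.card_aut_eq_finrank,
    hdeg]

/-- counting the primes above `T`. -/
theorem ncard_above [IsGalois F E] {p : ℕ} (hp : p.Prime) (hdeg : Module.finrank F E = p)
    {T : Set (HeightOneSpectrum (𝓞 F))} (hT : T.Finite) :
    (above E T).ncard + (p - 1) * {w ∈ T | Nonsplit E w}.ncard = p * T.ncard := by
  induction T, hT using Set.Finite.induction_on with
  | empty => simp [above]
  | @insert w T hwT hT ih =>
    have h1 : above E (insert w T) =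
        {P : HeightOneSpectrum (𝓞 E) | P.under (𝓞 F) = w} ∪ above E T := by
      ext P
      simp [above]
    have hdisj : Disjoint {P : HeightOneSpectrum (𝓞 E) | P.under (𝓞 F) = w} (above E T) := by
      rw [Set.disjoint_left]
      intro P hP hP'
      exact hwT ((hP : P.under (𝓞 F) = w) ▸ hP')
    have hfin1 : {P : HeightOneSpectrum (𝓞 E) | P.under (𝓞 F) = w}.Finite := by
      have := above_finite E (Set.finite_singleton w)
      exact this.subset fun P hP => hP
    rw [h1, Set.ncard_union_eq hdisj hfin1 (above_finite E hT), Set.ncard_insert_of_notMem hwT hT]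
    have hp1 := hp.one_le
    by_cases hw : Nonsplit E w
    · have h2 : {w' ∈ insert w T | Nonsplit E w'} = insert w {w' ∈ T | Nonsplit E w'} := by
        ext v
        simp only [Set.mem_ofPred_eq, Set.mem_insert_iff]
        constructor
        · rintro ⟨rfl | h, h'⟩
          · exact Or.inl rfl
          · exact Or.inr ⟨h, h'⟩
        · rintro (rfl | ⟨h, h'⟩)
          · exact ⟨Or.inl rfl, hw⟩
          · exact ⟨Or.inr h, h'⟩
      rw [h2, Set.ncard_insert_of_notMem (fun h => hwT h.1) (hT.subset fun v hv => hv.1),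
        Val2_ncard_fiber_nonsplit hw]
      obtain ⟨m, rfl⟩ : ∃ m, p = m + 1 := ⟨p - 1, by omega⟩
      simp only [Nat.add_sub_cancel] at ih ⊢
      nlinarith
    · have h2 : {w' ∈ insert w T | Nonsplit E w'} = {w' ∈ T | Nonsplit E w'} := by
        ext v
        simp only [Set.mem_ofPred_eq, Set.mem_insert_iff]
        constructor
        · rintro ⟨rfl | h, h'⟩
          · exact absurd h' hw
          · exact ⟨h, h'⟩
        · rintro ⟨h, h'⟩
          exact ⟨Or.inr h, h'⟩
      rw [h2, Val2_ncard_fiber_split hp hdeg hw]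
      nlinarith

end Fermat.Agent.S55.INEQ
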